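import Fermat.Agent.RR.Poles

/-!
# Riemann's theorem

`H1(D)` is finite-dimensional and `ℓ(D) - i(D) = deg D + 1 - g`.
-/

set_option autoImplicit false

noncomputable section

open WithZero IsLocalRing AlgebraicCurve IntermediateField

namespace Fermat.Agent.RR

variable {K F : Type*} [Field K] [Field F] [Algebra K F] [IsAlgClosed K] [FunctionField K F]

/-- `r(D) = deg D - ℓ(D)`. -/
def defect (D : Divisor K F) : ℤ :=
  Divisor.degree D - Module.finrank K (riemannRochSpace D)

theorem defect_mono {D D' : Divisor K F} (h : D ≤ D') : defect D ≤ defect D' := by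
  have := finrank_le_add_degree h
  unfold defect
  linarith

omit [IsAlgClosed K] in
theorem defect_add_divOf (D : Divisor K F) {f : F} (hf : f ≠ 0) :
    defect (D + divOf f) = defect D := by
  unfold defect
  rw [finrank_riemannRochSpace_add_divOf D hf, map_add, degree_divOf, add_zero]

theorem defect_nsmul_polesOf_le {x : F} (hx : Transcendental K x) [FiniteDimensional K⟮x⟯ F] :
    ∃ γ : ℤ, ∀ m : ℕ, defect (m • polesOf (K := K) x) ≤ γ := by
  obtain ⟨C, hC0, hC⟩ := exists_lower_bound hx
  refine ⟨Divisor.degree C, fun m => ?_⟩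
  have hx0 : x ≠ 0 := by
    rintro rfl
    exact hx isAlgebraic_zero
  have h1 : defect (m • polesOf (K := K) x) ≤ defect (m • polesOf (K := K) x + C) :=
    defect_mono (le_add_of_nonneg_right hC0)
  refine h1.trans ?_
  unfold defect
  rw [map_add, map_nsmul]
  have h2 := hC m
  have h3 := degree_polesOf_le (K := K) hx0
  have h4 : m • Divisor.degree (polesOf (K := K) x) ≤ m * (Module.finrank K⟮x⟯ F : ℤ) := by
    rw [nsmul_eq_mul]
    exact mul_le_mul_of_nonneg_left h3 (Int.natCast_nonneg _)
  have h5 : ((m : ℤ) + 1) * (Module.finrank K⟮x⟯ F : ℤ) ≤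
      (Module.finrank K (riemannRochSpace (m • polesOf x + C)) : ℤ) := by
    exact_mod_cast h2
  have h6 : (0 : ℤ) ≤ (Module.finrank K⟮x⟯ F : ℤ) := Int.natCast_nonneg _
  nlinarith

theorem finrank_le_of_nonneg {D : Divisor K F} (h : 0 ≤ D) :
    (Module.finrank K (riemannRochSpace D) : ℤ) ≤ Divisor.degree D + 1 := by
  have := finrank_le_add_degree h
  rw [finrank_riemannRochSpace_zero, map_zero] at this
  push_cast at this
  linarith

/-- The degree of the divisor of poles of `x` equals `[F : K(x)]`. -/
theorem degree_polesOf {x : F} (hx : Transcendental K x) [FiniteDimensional K⟮x⟯ F] :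
    Divisor.degree (polesOf (K := K) x) = Module.finrank K⟮x⟯ F := by
  have hx0 : x ≠ 0 := by
    rintro rfl
    exact hx isAlgebraic_zero
  apply le_antisymm (degree_polesOf_le (K := K) hx0)
  by_contra hlt
  push Not at hlt
  obtain ⟨C, hC0, hC⟩ := exists_lower_bound (K := K) hx
  have hCd := degree_nonneg hC0
  have h1 := hC (Divisor.degree C).toNat
  have h2 := finrank_le_of_nonneg (K := K)
    (D := (Divisor.degree C).toNat • polesOf (K := K) x + C)
    (add_nonneg (nsmul_nonneg (polesOf_nonneg x) _) hC0)
  rw [map_add, map_nsmul, nsmul_eq_mul, Int.toNat_of_nonneg hCd] at h2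
  have h3 : (((Divisor.degree C).toNat : ℤ) + 1) * (Module.finrank K⟮x⟯ F : ℤ) ≤
      (Module.finrank K (riemannRochSpace ((Divisor.degree C).toNat • polesOf x + C)) : ℤ) := by
    exact_mod_cast h1
  rw [Int.toNat_of_nonneg hCd] at h3
  have h4 : Divisor.degree C * Divisor.degree (polesOf (K := K) x) ≤
      Divisor.degree C * ((Module.finrank K⟮x⟯ F : ℤ) - 1) :=
    mul_le_mul_of_nonneg_left (by omega) hCd
  have h5 : (0 : ℤ) < (Module.finrank K⟮x⟯ F : ℤ) := by
    exact_mod_cast Module.finrank_pos
  have h6 : (1 : ℤ) < (Module.finrank K⟮x⟯ F : ℤ) ∨ (Module.finrank K⟮x⟯ F : ℤ) = 1 := by omega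
  rcases h6 with h6 | h6
  · nlinarith
  · -- the pole divisor would be zero
    rw [h6] at hlt h3
    have h7 : 0 ≤ Divisor.degree (polesOf (K := K) x) := degree_nonneg (polesOf_nonneg x)
    have h8 : Divisor.degree (polesOf (K := K) x) = 0 := by omega
    -- then `1, x, x^2, ...` all lie in `L(0)`
    have h9 : polesOf (K := K) x = 0 := by
      ext v
      have h10 : Finsupp.single v (polesOf (K := K) x v) ≤ polesOf (K := K) x := by
        intro w
        by_cases hw : w = v
        · subst hw
          simp
        · have : (Finsupp.single v (polesOf (K := K) x v) : Divisor K F) w = 0 := by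
            simp [hw]
          rw [this]
          exact polesOf_nonneg x w
      have h11 := degree_mono h10
      rw [degree_single_one, h8] at h11
      have h12 := polesOf_nonneg (K := K) x v
      have h13 : (0 : Divisor K F) v = 0 := rfl
      rw [h13] at h12 ⊢
      omega
    have h14 : x ∈ riemannRochSpace (0 : Divisor K F) := by
      rw [mem_riemannRochSpace_iff]
      intro v
      right
      have : polesOf (K := K) x v = 0 := by rw [h9]; rfl
      rw [polesOf_apply] at this
      have h15 : (0 : Divisor K F) v = 0 := rfl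
      rw [h15]
      omega
    rw [riemannRochSpace_zero, Submodule.mem_span_singleton] at h14
    obtain ⟨c, hc⟩ := h14
    apply hx
    rw [← hc, ← Algebra.algebraMap_eq_smul_one]
    exact isAlgebraic_algebraMap c

variable (K F) in
/-- **Riemann's inequality** (in the form of boundedness of `deg D - ℓ(D)`). -/
theorem defect_bounded : ∃ γ : ℤ, ∀ D : Divisor K F, defect D ≤ γ := by
  obtain ⟨x, hx, hfin⟩ := FunctionField.exists_finite (K := K) (F := F)
  obtain ⟨γ, hγ⟩ := defect_nsmul_polesOf_le (K := K) hx
  refine ⟨γ, fun D => ?_⟩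
  have hb : 0 < Divisor.degree (polesOf (K := K) x) := by
    rw [degree_polesOf hx]
    exact_mod_cast Module.finrank_pos
  set b := Divisor.degree (polesOf (K := K) x) with hbdef
  let D₁ : Divisor K F := D ⊔ 0
  have hD₁ : 0 ≤ D₁ := le_sup_right
  have hDD₁ : D ≤ D₁ := le_sup_left
  -- choose m large
  let m : ℕ := (Divisor.degree D₁ + γ + 1).toNat
  have hm : Divisor.degree D₁ + γ + 1 ≤ (m : ℤ) := Int.self_le_toNat _
  have h1 : defect (m • polesOf (K := K) x - D₁) ≤ γ :=
    (defect_mono (sub_le_self _ hD₁)).trans (hγ m)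
  unfold defect at h1
  rw [map_sub, map_nsmul, nsmul_eq_mul, ← hbdef] at h1
  have h2 : 0 < Module.finrank K (riemannRochSpace (m • polesOf (K := K) x - D₁)) := by
    have h3 : (m : ℤ) ≤ m * b := by
      have : (0 : ℤ) ≤ m := Int.natCast_nonneg _
      nlinarith
    have : (0 : ℤ) < Module.finrank K (riemannRochSpace (m • polesOf (K := K) x - D₁)) := by
      linarith
    exact_mod_cast this
  have h3 : riemannRochSpace (m • polesOf (K := K) x - D₁) ≠ ⊥ := by
    intro h
    rw [h, finrank_bot] at h2
    exact lt_irrefl _ h2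
  obtain ⟨f, hf, hf0⟩ := Submodule.exists_mem_ne_zero_of_ne_bot h3
  have h4 : D₁ ≤ m • polesOf (K := K) x + divOf f := by
    intro v
    have := (mem_riemannRochSpace_iff.mp hf v).resolve_left hf0
    simp only [Finsupp.coe_sub, Pi.sub_apply] at this
    simp only [Finsupp.coe_add, Pi.add_apply, divOf_apply]
    linarith
  calc defect D ≤ defect (m • polesOf (K := K) x + divOf f) := defect_mono (hDD₁.trans h4)
    _ = defect (m • polesOf (K := K) x) := defect_add_divOf _ hf0
    _ ≤ γ := hγ m

/-- If the defect does not increase by adding a place, then neither does `Λ(D) + F`. -/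
theorem sup_eq_of_defect_eq (D : Divisor K F) (v : Place K F)
    (h : defect (D + Finsupp.single v 1) = defect D) :
    repartitionsOf (D + Finsupp.single v 1) ⊔ principalRepartitions K F =
      repartitionsOf D ⊔ principalRepartitions K F := by
  by_cases hh : riemannRochSpace (D + Finsupp.single v 1) ≤ riemannRochSpace D
  · exfalso
    have h1 := le_antisymm hh (riemannRochSpace_mono (le_add_single D v))
    unfold defect at h
    rw [h1, map_add, degree_single_one] at h
    omega
  · rw [SetLike.not_le_iff_exists] at hh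
    obtain ⟨g, hg, hg'⟩ := hh
    exact sup_eq_of_riemannRochSpace_ne D v hg hg'

omit [IsAlgClosed K] [FunctionField K F] in
theorem exists_bound_of_mem_repartitions (α : ↥(repartitions K F)) (D : Divisor K F)
    (hα : {v : Place K F | ¬ v.adicValuation ((α : Place K F → F) v) ≤ 1}.Finite) :
    ∃ D' : Divisor K F, D ≤ D' ∧ α ∈ repartitionsOf D' := by
  classical
  -- finitely many places where α is not bounded by D
  have hfin : {v : Place K F |
      ¬ v.adicValuation ((α : Place K F → F) v) ≤ exp (D v)}.Finite := by
    apply (hα.union D.support.finite_toSet).subset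
    intro v hv
    rw [Set.mem_ofPred_eq] at hv
    by_cases h : D v = 0
    · left
      rw [Set.mem_ofPred_eq]
      rwa [h, exp_zero] at hv
    · right
      rw [Finset.mem_coe, Finsupp.mem_support_iff]
      exact h
  let E : Divisor K F := Finsupp.onFinset hfin.toFinset
    (fun v => if v.adicValuation ((α : Place K F → F) v) ≤ exp (D v) then 0 else
      max (-v.ord ((α : Place K F → F) v) - D v) 0) (by
      intro v hv
      rw [Set.Finite.mem_toFinset, Set.mem_ofPred_eq]
      intro h
      simp [h] at hv)
  have hE : ∀ v, E v = if v.adicValuation ((α : Place K F → F) v) ≤ exp (D v) then 0 else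
      max (-v.ord ((α : Place K F → F) v) - D v) 0 := fun v => rfl
  refine ⟨D + E, ?_, ?_⟩
  · intro v
    rw [Finsupp.add_apply, hE]
    split_ifs
    · simp
    · have := le_max_right (-v.ord ((α : Place K F → F) v) - D v) 0
      linarith
  · intro v
    rw [Finsupp.add_apply, hE]
    split_ifs with h
    · simpa using h
    · rw [v.adicValuation_le_exp_iff]
      right
      have := le_max_left (-v.ord ((α : Place K F → F) v) - D v) 0
      linarith

omit [IsAlgClosed K] in
/-- The elements of the adele ring have finitely many poles. -/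
theorem finite_poles (α : ↥(repartitions K F)) :
    {v : Place K F | ¬ v.adicValuation ((α : Place K F → F) v) ≤ 1}.Finite := by
  obtain ⟨α, hα⟩ := α
  show {v : Place K F | ¬ v.adicValuation (α v) ≤ 1}.Finite
  unfold repartitions at hα
  induction hα using Algebra.adjoin_induction with
  | mem x hx => exact hx
  | algebraMap r =>
    apply (divOf (K := K) r).support.finite_toSet.subset
    intro v hv
    rw [Set.mem_ofPred_eq] at hv
    rw [Finset.mem_coe, Finsupp.mem_support_iff, divOf_apply]
    intro h
    apply hv
    rw [v.adicValuation_le_one_iff]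
    right
    exact h.ge
  | add x y _ _ hx hy =>
    apply (hx.union hy).subset
    intro v hv
    rw [Set.mem_ofPred_eq] at hv
    by_contra hcon
    rw [Set.mem_union, Set.mem_ofPred_eq, Set.mem_ofPred_eq] at hcon
    push Not at hcon
    exact hv ((Valuation.map_add _ _ _).trans (max_le hcon.1 hcon.2))
  | mul x y _ _ hx hy =>
    apply (hx.union hy).subset
    intro v hv
    rw [Set.mem_ofPred_eq] at hv
    by_contra hcon
    rw [Set.mem_union, Set.mem_ofPred_eq, Set.mem_ofPred_eq] at hcon
    push Not at hcon
    apply hv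
    rw [Pi.mul_apply, map_mul]
    exact mul_le_one' hcon.1 hcon.2

omit [IsAlgClosed K] in
theorem exists_mem_repartitionsOf (α : ↥(repartitions K F)) (D : Divisor K F) :
    ∃ D' : Divisor K F, D ≤ D' ∧ α ∈ repartitionsOf D' :=
  exists_bound_of_mem_repartitions α D (finite_poles α)

variable (K F) in
/-- For some divisor `D₀`, `Λ(D) + F` is everything for all `D ≥ D₀`. -/
theorem exists_sup_eq_top : ∃ D₀ : Divisor K F,
    repartitionsOf D₀ ⊔ principalRepartitions K F = ⊤ := by
  obtain ⟨γ, hγ⟩ := defect_bounded K F
  -- choose `D₀` of maximal defect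
  obtain ⟨d, ⟨D₀, hD₀⟩, hmax⟩ := Int.exists_greatest_of_bdd
    (P := fun d => ∃ D : Divisor K F, defect D = d)
    ⟨γ, by rintro z ⟨D, rfl⟩; exact hγ D⟩ ⟨defect 0, 0, rfl⟩
  refine ⟨D₀, ?_⟩
  have key : ∀ D : Divisor K F, D₀ ≤ D → defect D = defect D₀ := by
    intro D hD
    apply le_antisymm
    · rw [hD₀]
      exact hmax _ ⟨D, rfl⟩
    · exact defect_mono hD
  have key2 : ∀ D : Divisor K F, D₀ ≤ D →
      repartitionsOf D ⊔ principalRepartitions K F =
        repartitionsOf D₀ ⊔ principalRepartitions K F := by
    intro D hD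
    refine effective_induction (P := fun D => repartitionsOf D ⊔ principalRepartitions K F =
        repartitionsOf D₀ ⊔ principalRepartitions K F) D₀ rfl ?_ D hD
    intro D' v hD' ih
    rw [← ih]
    apply sup_eq_of_defect_eq
    rw [key _ (hD'.trans (le_add_single D' v)), key _ hD']
  rw [eq_top_iff]
  intro α _
  obtain ⟨D, hD, hα⟩ := exists_mem_repartitionsOf α D₀
  rw [← key2 D hD]
  exact Submodule.mem_sup_left hα

omit [IsAlgClosed K] [FunctionField K F] in
theorem finite_H1_of_sup_eq_top {D₀ : Divisor K F}
    (hD₀ : repartitionsOf D₀ ⊔ principalRepartitions K F = ⊤) : Module.Finite K (H1 D₀) := by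
  have hsub : Subsingleton (H1 D₀) := Submodule.Quotient.subsingleton_iff.mpr hD₀
  exact Module.Finite.of_surjective (0 : K →ₗ[K] H1 D₀) (fun x => ⟨0, Subsingleton.elim _ _⟩)

/-- Finiteness of `H1(D)` as a property of `D`. -/
def FiniteH1 (D : Divisor K F) : Prop := Module.Finite K (H1 D)

theorem finiteH1_iff (D : Divisor K F) (v : Place K F) :
    FiniteH1 D ↔ FiniteH1 (D + Finsupp.single v 1) :=
  (finite_H1_add_single_iff D v).symm

instance finite_H1 (D : Divisor K F) : Module.Finite K (H1 D) := by
  obtain ⟨D₀, hD₀⟩ := exists_sup_eq_top K F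
  have h0 : FiniteH1 D₀ := finite_H1_of_sup_eq_top hD₀
  exact divisor_induction (P := FiniteH1) D₀ h0 finiteH1_iff D

/-- The Euler characteristic `ℓ(D) - i(D)`. -/
def chi (D : Divisor K F) : ℤ :=
  (Module.finrank K (riemannRochSpace D) : ℤ) - Module.finrank K (H1 D)

theorem chi_add (D : Divisor K F) (v : Place K F) :
    chi (D + Finsupp.single v 1) = chi D + 1 := chi_add_single D v

theorem chi_zero : chi (0 : Divisor K F) = 1 - genusFF K F := by
  unfold chi
  rw [finrank_riemannRochSpace_zero]
  rfl

theorem chi_eq (D : Divisor K F) : chi D = Divisor.degree D + 1 - genusFF K F := by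
  refine divisor_induction (P := fun D => chi D = Divisor.degree D + 1 - genusFF K F) 0 ?_ ?_ D
  · rw [chi_zero, map_zero, zero_add]
  · intro D' v
    rw [map_add, degree_single_one, chi_add]
    constructor <;> intro h <;> linarith

/-- **Riemann's theorem**: `ℓ(D) - i(D) = deg D + 1 - g`. -/
theorem riemann (D : Divisor K F) :
    (Module.finrank K (riemannRochSpace D) : ℤ) - Module.finrank K (H1 D) =
      Divisor.degree D + 1 - genusFF K F := chi_eq D

theorem finrank_riemannRochSpace_ge (D : Divisor K F) :
    Divisor.degree D + 1 - genusFF K F ≤ (Module.finrank K (riemannRochSpace D) : ℤ) := by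
  have := riemann D
  have h2 : (0 : ℤ) ≤ Module.finrank K (H1 D) := Int.natCast_nonneg _
  linarith

end Fermat.Agent.RR
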