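import Fermat.Agent.RR.Divisors

/-!
# `IsCurveOver` + essentially of finite type over an algebraically closed field gives a
`FunctionField`.
-/

set_option autoImplicit false

noncomputable section

open WithZero IsLocalRing AlgebraicCurve IntermediateField Polynomial
open scoped IntermediateField.algebraAdjoinAdjoin

namespace Fermat.Agent.RR

variable {K F : Type*} [Field K] [Field F] [Algebra K F]

theorem exists_D_ne_zero [IsCurveOver K F] : ∃ x : F, KaehlerDifferential.D K F x ≠ 0 := by
  by_contra h
  push Not at h
  have h1 := KaehlerDifferential.span_range_derivation K F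
  have h2 : Set.range (KaehlerDifferential.D K F) ⊆ {0} := by
    rintro _ ⟨x, rfl⟩
    exact h x
  have h3 : (⊤ : Submodule F (Ω[F⁄K])) ≤ ⊥ := by
    rw [← h1, ← Submodule.span_zero_singleton F]
    exact Submodule.span_mono h2
  have h4 : Subsingleton Ω[F⁄K] := by
    rw [← Submodule.subsingleton_iff F, ← subsingleton_iff_bot_eq_top]
    exact le_antisymm bot_le h3
  exact not_subsingleton _ h4

theorem transcendental_of_D_ne_zero [IsAlgClosed K] {x : F}
    (hx : KaehlerDifferential.D K F x ≠ 0) : Transcendental K x := by
  intro h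
  apply hx
  have h1 : IsIntegral K x := h.isIntegral
  have h2 := IsAlgClosed.degree_eq_one_of_irreducible K (minpoly.irreducible h1)
  obtain ⟨c, rfl⟩ := minpoly.mem_range_of_degree_eq_one K x h2
  exact Derivation.map_algebraMap _ _

theorem subsingleton_kaehler_of_D_ne_zero [IsCurveOver K F] {x : F}
    (hx : KaehlerDifferential.D K F x ≠ 0) : Subsingleton Ω[F⁄K⟮x⟯] := by
  constructor
  have key : ∀ ω : Ω[F⁄K⟮x⟯], ω = 0 := by
    intro ω
    obtain ⟨η, rfl⟩ := KaehlerDifferential.map_surjective K K⟮x⟯ F ω
    obtain ⟨f, hf⟩ := (finrank_eq_one_iff_of_nonzero' _ hx).mp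
      (IsCurveOver.finrank_kaehler (K := K) (F := F)) η
    rw [← hf, map_smul, KaehlerDifferential.map_D]
    have h1 : KaehlerDifferential.D K⟮x⟯ F (algebraMap F F x) = 0 :=
      Derivation.map_algebraMap (KaehlerDifferential.D K⟮x⟯ F) (AdjoinSimple.gen K x)
    rw [h1, smul_zero]
  intro a b
  rw [key a, key b]

/-- A curve has a separating transcendental element. -/
theorem exists_separating [IsAlgClosed K] [IsCurveOver K F] [Algebra.EssFiniteType K F] :
    ∃ x : F, Transcendental K x ∧ FiniteDimensional K⟮x⟯ F ∧ Algebra.IsSeparable K⟮x⟯ F := by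
  obtain ⟨x, hx⟩ := exists_D_ne_zero (K := K) (F := F)
  have h1 : Algebra.FormallyUnramified K⟮x⟯ F := ⟨subsingleton_kaehler_of_D_ne_zero hx⟩
  have h2 : Algebra.EssFiniteType K⟮x⟯ F := Algebra.EssFiniteType.of_comp K K⟮x⟯ F
  exact ⟨x, transcendental_of_D_ne_zero hx,
    Algebra.FormallyUnramified.finite_of_free (R := K⟮x⟯) (S := F),
    Algebra.FormallyUnramified.isSeparable K⟮x⟯ F⟩

/-- The polynomial ring is the algebra generated by a transcendental element. -/
def adjoinEquiv {x : F} (hx : Transcendental K x) : K[X] ≃ₐ[K] Algebra.adjoin K {x} :=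
  (AlgEquiv.ofInjective (aeval x) (transcendental_iff_injective.mp hx)).trans
    (Subalgebra.equivOfEq _ _ (Algebra.adjoin_singleton_eq_range_aeval K x).symm)

theorem isPrincipalIdealRing_adjoin {x : F} (hx : Transcendental K x) :
    IsPrincipalIdealRing (Algebra.adjoin K {x}) :=
  IsPrincipalIdealRing.of_surjective (adjoinEquiv hx : K[X] →+* Algebra.adjoin K {x})
    (adjoinEquiv hx).surjective

theorem not_isField_adjoin {x : F} (hx : Transcendental K x) :
    ¬ IsField (Algebra.adjoin K {x}) := by
  intro h
  exact Polynomial.not_isField K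
    (MulEquiv.isField h (adjoinEquiv hx).toMulEquiv)

theorem nonempty_place_of_separable {x : F} (hx : Transcendental K x)
    [FiniteDimensional K⟮x⟯ F] [Algebra.IsSeparable K⟮x⟯ F] : Nonempty (Place K F) := by
  have h1 := isPrincipalIdealRing_adjoin hx
  have h2 : IsDedekindDomain (integralClosure (Algebra.adjoin K {x}) F) :=
    integralClosure.isDedekindDomain (Algebra.adjoin K {x}) K⟮x⟯ F
  have h3 : IsFractionRing (integralClosure (Algebra.adjoin K {x}) F) F :=
    integralClosure.isFractionRing_of_finite_extension (A := Algebra.adjoin K {x}) K⟮x⟯ F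
  have h4 : ¬ IsField (integralClosure (Algebra.adjoin K {x}) F) := by
    intro h
    apply not_isField_adjoin hx
    exact isField_of_isIntegral_of_isField
      (FaithfulSMul.algebraMap_injective (Algebra.adjoin K {x})
        (integralClosure (Algebra.adjoin K {x}) F)) h
  rw [Ring.not_isField_iff_exists_prime] at h4
  obtain ⟨p, hp0, hp⟩ := h4
  let w : IsDedekindDomain.HeightOneSpectrum (integralClosure (Algebra.adjoin K {x}) F) :=
    ⟨p, hp, hp0⟩
  exact ⟨Place.ofHeightOneSpectrum (K := K) w⟩

/-- A curve (in the sense of the prelude) which is essentially of finite type over an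
algebraically closed field is a function field in our sense. -/
theorem functionField_of_isCurveOver (K F : Type*) [Field K] [Field F] [Algebra K F]
    [IsAlgClosed K] [IsCurveOver K F] [Algebra.EssFiniteType K F] : FunctionField K F := by
  obtain ⟨x, hx, h1, h2⟩ := exists_separating (K := K) (F := F)
  exact
    { finiteResidue := fun v => IsCurveOver.finiteResidue v
      nonempty_place := nonempty_place_of_separable hx
      exists_finite := ⟨x, hx, h1⟩ }

end Fermat.Agent.RR
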