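import Fermat.Agent.RR.Duality
import Fermat.Agent.RR.Instance

/-!
# Corollaries of the Riemann–Roch theorem
-/

set_option autoImplicit false
set_option linter.unusedSectionVars false

noncomputable section

open WithZero IsLocalRing AlgebraicCurve IntermediateField

namespace Fermat.Agent.RR

variable {K F : Type*} [Field K] [Field F] [Algebra K F] [IsAlgClosed K] [FunctionField K F]

theorem mem_riemannRochSpace_of_ne_zero {D : Divisor K F} {f : F} (hf : f ≠ 0) :
    f ∈ riemannRochSpace D ↔ 0 ≤ D + divOf f := by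
  rw [mem_riemannRochSpace_iff]
  constructor
  · intro h v
    have := (h v).resolve_left hf
    simp only [Finsupp.coe_zero, Pi.zero_apply, Finsupp.coe_add, Pi.add_apply, divOf_apply]
    linarith
  · intro h v
    right
    have := h v
    simp only [Finsupp.coe_zero, Pi.zero_apply, Finsupp.coe_add, Pi.add_apply,
      divOf_apply] at this
    linarith

/-- If `ℓ(D) > 0`, then `D` is linearly equivalent to an effective divisor. -/
theorem exists_effective_of_pos {D : Divisor K F}
    (h : 0 < Module.finrank K (riemannRochSpace D)) : ∃ f : F, f ≠ 0 ∧ 0 ≤ D + divOf f := by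
  have h1 : riemannRochSpace D ≠ ⊥ := by
    intro h0
    rw [h0, finrank_bot] at h
    exact lt_irrefl _ h
  obtain ⟨f, hf, hf0⟩ := Submodule.exists_mem_ne_zero_of_ne_bot h1
  exact ⟨f, hf0, (mem_riemannRochSpace_of_ne_zero hf0).mp hf⟩

/-- Every divisor of degree at least `g` is linearly equivalent to an effective one. -/
theorem exists_effective {D : Divisor K F} (h : (genusFF K F : ℤ) ≤ Divisor.degree D) :
    ∃ f : F, f ≠ 0 ∧ 0 ≤ D + divOf f := by
  apply exists_effective_of_pos
  have := finrank_riemannRochSpace_ge D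
  have h1 : (0 : ℤ) < Module.finrank K (riemannRochSpace D) := by linarith
  exact_mod_cast h1

/-- For `deg D > 2g - 1` the space `L(D)` is bigger than `L(D - v)`: there is `f ∈ L(D)` with
`ord_v f = -D v` exactly. -/
theorem exists_ord_eq_neg {D : Divisor K F} (v : Place K F)
    (h : 2 * (genusFF K F : ℤ) - 1 < Divisor.degree D) :
    ∃ f : F, f ≠ 0 ∧ f ∈ riemannRochSpace D ∧ v.ord f = - D v := by
  have h1 := finrank_riemannRochSpace_eq (D := D) (by linarith)
  have h2 := finrank_riemannRochSpace_eq (D := D - Finsupp.single v 1) (by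
    rw [map_sub, degree_single_one]; linarith)
  have hne : ¬ riemannRochSpace D ≤ riemannRochSpace (D - Finsupp.single v 1) := by
    intro hle
    have h3 := Submodule.finrank_mono hle
    rw [map_sub, degree_single_one] at h2
    omega
  rw [SetLike.not_le_iff_exists] at hne
  obtain ⟨f, hf, hf'⟩ := hne
  have hf0 : f ≠ 0 := by
    rintro rfl
    exact hf' (Submodule.zero_mem _)
  refine ⟨f, hf0, hf, ?_⟩
  have h4 := (mem_riemannRochSpace_iff.mp hf v).resolve_left hf0
  by_contra hne
  apply hf'
  rw [mem_riemannRochSpace_iff]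
  intro w
  right
  by_cases hw : w = v
  · subst hw
    simp only [Finsupp.coe_sub, Pi.sub_apply, Finsupp.single_eq_same]
    omega
  · have h5 : (D - Finsupp.single v 1 : Divisor K F) w = D w := by
      simp [hw]
    rw [h5]
    exact (mem_riemannRochSpace_iff.mp hf w).resolve_left hf0

/-- Functions with a single pole of prescribed order `n ≥ 2g`, `n ≥ 1`. -/
theorem exists_single_pole (P : Place K F) {n : ℕ} (hn : 2 * genusFF K F ≤ n) :
    ∃ f : F, f ≠ 0 ∧ P.ord f = -(n : ℤ) ∧ ∀ w : Place K F, w ≠ P → 0 ≤ w.ord f := by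
  obtain ⟨f, hf0, hf, hord⟩ := exists_ord_eq_neg (K := K) (D := Finsupp.single P (n : ℤ)) P (by
    rw [degree_single_one]
    have : (2 * genusFF K F : ℤ) ≤ n := by exact_mod_cast hn
    linarith)
  refine ⟨f, hf0, ?_, ?_⟩
  · rw [hord]
    simp
  · intro w hw
    have h1 := (mem_riemannRochSpace_iff.mp hf w).resolve_left hf0
    have h2 : (Finsupp.single P (n : ℤ) : Divisor K F) w = 0 := by
      simp [hw]
    rw [h2] at h1
    simpa using h1

/-- **Strong approximation.** -/
theorem strong_approximation (P₀ : Place K F) (S : Finset (Place K F)) (hP₀ : P₀ ∉ S)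
    (z : Place K F → F) (N : ℤ) :
    ∃ f : F, (∀ v ∈ S, f - z v = 0 ∨ N ≤ v.ord (f - z v)) ∧
      ∀ w : Place K F, w ∉ S → w ≠ P₀ → 0 ≤ w.ord f := by
  classical
  let E : Divisor K F := Finsupp.onFinset S (fun v => if v ∈ S then -N else 0) (by
    intro v hv
    by_contra h
    simp [h] at hv)
  have hE : ∀ v, E v = if v ∈ S then -N else 0 := fun v => rfl
  obtain ⟨n, hn⟩ : ∃ n : ℤ, n = 2 * (genusFF K F : ℤ) - 1 - Divisor.degree E := ⟨_, rfl⟩
  have hdeg : 2 * (genusFF K F : ℤ) - 2 < Divisor.degree (E + Finsupp.single P₀ n) := by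
    rw [map_add, degree_single_one]
    linarith
  have htop := sup_eq_top hdeg
  let α : Place K F → F := fun v => if v ∈ S then z v else 0
  have hα : α ∈ repartitions K F := by
    apply mem_repartitions_of_finite
    apply S.finite_toSet.subset
    intro v hv
    rw [Set.mem_ofPred_eq] at hv
    rw [Finset.mem_coe]
    by_contra h
    apply hv
    have : α v = 0 := if_neg h
    rw [this]
    simp
  have hmem : (⟨α, hα⟩ : ↥(repartitions K F)) ∈
      repartitionsOf (E + Finsupp.single P₀ n) ⊔ principalRepartitions K F := by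
    rw [htop]
    exact Submodule.mem_top
  rw [Submodule.mem_sup] at hmem
  obtain ⟨l, hl, p, hp, hlp⟩ := hmem
  rw [mem_principalRepartitions_iff] at hp
  obtain ⟨f, hf⟩ := hp
  have hval : ∀ v, (l : Place K F → F) v + f = α v := by
    intro v
    have := congrArg (fun x : ↥(repartitions K F) => (x : Place K F → F) v) hlp
    simp only at this
    rw [← this]
    show _ = (l : Place K F → F) v + (p : Place K F → F) v
    rw [hf]
  rw [mem_repartitionsOf_iff] at hl
  refine ⟨f, ?_, ?_⟩
  · intro v hv
    have h1 : f - z v = -(l : Place K F → F) v := by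
      have h2 := hval v
      have h3 : α v = z v := if_pos hv
      rw [h3] at h2
      linear_combination h2
    rw [h1, ord_neg, neg_eq_zero]
    have h4 := hl v
    have h5 : (E + Finsupp.single P₀ n) v = -N := by
      have hne : P₀ ≠ v := fun h => hP₀ (h ▸ hv)
      rw [Finsupp.add_apply, hE, if_pos hv, Finsupp.single_eq_of_ne hne.symm, add_zero]
    rw [h5, neg_neg] at h4
    exact h4
  · intro w hw hw'
    have h1 : f = -(l : Place K F → F) w := by
      have h2 := hval w
      have h3 : α w = 0 := if_neg hw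
      rw [h3] at h2
      linear_combination h2
    rw [h1, ord_neg]
    have h4 := hl w
    have h5 : (E + Finsupp.single P₀ n) w = 0 := by
      rw [Finsupp.add_apply, hE, if_neg hw, Finsupp.single_eq_of_ne hw', add_zero]
    rw [h5, neg_zero] at h4
    rcases h4 with h4 | h4
    · rw [h4]
      simp
    · exact h4

/-- A function without poles is constant. -/
theorem exists_const_of_forall_ord_nonneg {f : F} (h : ∀ v : Place K F, 0 ≤ v.ord f) :
    ∃ c : K, f = algebraMap K F c := by
  have h1 : f ∈ riemannRochSpace (0 : Divisor K F) := by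
    rw [mem_riemannRochSpace_iff]
    intro v
    right
    simpa using h v
  rw [riemannRochSpace_zero, Submodule.mem_span_singleton] at h1
  obtain ⟨c, hc⟩ := h1
  exact ⟨c, by rw [← hc, Algebra.algebraMap_eq_smul_one]⟩

theorem divOf_eq_iff {f g : F} (hf : f ≠ 0) (hg : g ≠ 0) :
    divOf (K := K) f = divOf g ↔ ∃ c : K, c ≠ 0 ∧ f = c • g := by
  constructor
  · intro h
    obtain ⟨c, hc⟩ := exists_const_of_forall_ord_nonneg (K := K) (f := f / g) (by
      intro v
      rw [ord_div v hf hg, ← divOf_apply, ← divOf_apply, h, sub_self])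
    refine ⟨c, ?_, ?_⟩
    · rintro rfl
      rw [map_zero, div_eq_zero_iff] at hc
      exact hc.elim hf hg
    · rw [Algebra.smul_def, ← hc, div_mul_cancel₀ _ hg]
  · rintro ⟨c, hc, rfl⟩
    ext v
    simp [ord_smul v hc]

/-- `IsPrincipal` in terms of `divOf`. -/
theorem isPrincipal_iff {D : Divisor K F} :
    Divisor.IsPrincipal D ↔ ∃ f : F, f ≠ 0 ∧ D = divOf f := by
  constructor
  · rintro ⟨f, hf, h⟩
    refine ⟨f, hf, ?_⟩
    ext v
    rw [h v, divOf_apply]
  · rintro ⟨f, hf, rfl⟩
    exact ⟨f, hf, fun v => divOf_apply f v⟩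

theorem degree_eq_zero_of_isPrincipal {D : Divisor K F} (h : Divisor.IsPrincipal D) :
    Divisor.degree D = 0 := by
  rw [isPrincipal_iff] at h
  obtain ⟨f, -, rfl⟩ := h
  exact degree_divOf f

end Fermat.Agent.RR
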