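import Fermat.Agent.RR.Divisors
import Fermat.Agent.FF.GenPrincipal

/-!
# Function fields in the sense of `Fermat.FF` are function fields in the sense of `RR`
-/

set_option autoImplicit false

noncomputable section

open AlgebraicCurve IntermediateField

namespace Fermat.Agent.RR

/-- A function field in the sense of `Fermat.FF` (arbitrary characteristic) is one in the sense
of `RR`. -/
theorem functionField_of_isFF1 (K F : Type*) [Field K] [Field F] [Algebra K F]
    [h : Fermat.FF.IsFF1 K F] : FunctionField K F where
  toHasPrincipalDivisors := Fermat.FF.Gen.hasPrincipalDivisors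
  finiteResidue v := Fermat.FF.Gen.finite_residueField v
  nonempty_place := by
    obtain ⟨x, hx, hfin⟩ := h.exists_finite
    have h1 := Fermat.FF.Gen.sum_pos_ord_mul_deg hx
    by_contra hne
    rw [not_nonempty_iff] at hne
    have h2 : (Fermat.FF.Gen.setOf_ord_pos_finite (K := K) (F := F) hx).toFinset = ∅ := by
      apply Finset.eq_empty_of_isEmpty
    rw [h2, Finset.sum_empty] at h1
    have h3 : 0 < Module.finrank K⟮x⟯ F := Module.finrank_pos
    omega
  exists_finite := h.exists_finite

end Fermat.Agent.RR
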