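import Fermat.Agent.RR.Riemann

/-!
# Weil differentials and the Riemann–Roch theorem
-/

set_option autoImplicit false
set_option linter.unusedSectionVars false

noncomputable section

open WithZero IsLocalRing AlgebraicCurve IntermediateField

namespace Fermat.Agent.RR

variable {K F : Type*} [Field K] [Field F] [Algebra K F]

/-- `Λ(D) + F`. -/
def adM (D : Divisor K F) : Submodule K ↥(repartitions K F) :=
  repartitionsOf D ⊔ principalRepartitions K F

theorem adM_mono {D D' : Divisor K F} (h : D ≤ D') : adM D ≤ adM D' := sup_mono D D' h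

/-- Multiplication by a function on adeles, as a `K`-linear map. -/
def mulRep (f : F) : ↥(repartitions K F) →ₗ[K] ↥(repartitions K F) :=
  (LinearMap.lsmul F ↥(repartitions K F) f).restrictScalars K

@[simp]
theorem mulRep_apply (f : F) (α : ↥(repartitions K F)) : mulRep f α = f • α := rfl

theorem coe_smul_rep (f : F) (α : ↥(repartitions K F)) (v : Place K F) :
    ((f • α : ↥(repartitions K F)) : Place K F → F) v = f * (α : Place K F → F) v := rfl

/-- The action of functions on linear functionals on adeles. -/
def act (f : F) (ω : Module.Dual K ↥(repartitions K F)) : Module.Dual K ↥(repartitions K F) :=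
  ω.comp (mulRep f)

theorem act_apply (f : F) (ω : Module.Dual K ↥(repartitions K F)) (α : ↥(repartitions K F)) :
    act f ω α = ω (f • α) := rfl

theorem act_add (f g : F) (ω : Module.Dual K ↥(repartitions K F)) :
    act (f + g) ω = act f ω + act g ω := by
  ext α
  simp [act_apply, add_smul]

theorem act_smul (c : K) (f : F) (ω : Module.Dual K ↥(repartitions K F)) :
    act (c • f) ω = c • act f ω := by
  ext α
  rw [LinearMap.smul_apply, act_apply, act_apply, ← map_smul]
  congr 1
  ext v
  show (c • f) * _ = c • (f * _)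
  rw [smul_mul_assoc]

theorem act_mul (f g : F) (ω : Module.Dual K ↥(repartitions K F)) :
    act (f * g) ω = act f (act g ω) := by
  ext α
  rw [act_apply, act_apply, act_apply, smul_smul, mul_comm]

@[simp]
theorem act_one (ω : Module.Dual K ↥(repartitions K F)) : act (1 : F) ω = ω := by
  ext α
  rw [act_apply, one_smul]

@[simp]
theorem act_zero (ω : Module.Dual K ↥(repartitions K F)) : act (0 : F) ω = 0 := by
  ext α
  rw [act_apply, zero_smul, map_zero, LinearMap.zero_apply]

theorem act_eq_zero_iff {f : F} {ω : Module.Dual K ↥(repartitions K F)} (hω : ω ≠ 0) :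
    act f ω = 0 ↔ f = 0 := by
  constructor
  · intro h
    by_contra hf
    apply hω
    have h1 : act f⁻¹ (act f ω) = ω := by
      rw [← act_mul, inv_mul_cancel₀ hf, act_one]
    rw [← h1, h]
    ext α
    rw [act_apply]
    rfl
  · rintro rfl
    exact act_zero ω

/-- Weil differentials with divisor at least `D`. -/
def Omg (D : Divisor K F) : Submodule K (Module.Dual K ↥(repartitions K F)) :=
  (adM D).dualAnnihilator

theorem mem_Omg {D : Divisor K F} {ω : Module.Dual K ↥(repartitions K F)} :
    ω ∈ Omg D ↔ ∀ α ∈ adM D, ω α = 0 := Submodule.mem_dualAnnihilator ω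

theorem Omg_anti {D D' : Divisor K F} (h : D ≤ D') : Omg D' ≤ Omg D := by
  intro ω hω
  rw [mem_Omg] at hω ⊢
  exact fun α hα => hω α (adM_mono h hα)

section

variable [HasPrincipalDivisors K F]

theorem smul_mem_repartitionsOf_iff {D : Divisor K F} {f : F} (hf : f ≠ 0)
    {α : ↥(repartitions K F)} :
    f • α ∈ repartitionsOf (D - divOf f) ↔ α ∈ repartitionsOf D := by
  rw [mem_repartitionsOf_iff, mem_repartitionsOf_iff]
  apply forall_congr'
  intro v
  rw [coe_smul_rep]
  by_cases h0 : (α : Place K F → F) v = 0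
  · simp [h0]
  · rw [v.ord_mul hf h0, Finsupp.sub_apply, divOf_apply]
    simp only [mul_eq_zero, hf, h0, or_self, false_or]
    constructor <;> intro h <;> linarith

theorem smul_mem_principalRepartitions (f : F) {α : ↥(repartitions K F)}
    (hα : α ∈ principalRepartitions K F) : f • α ∈ principalRepartitions K F := by
  rw [mem_principalRepartitions_iff] at hα ⊢
  obtain ⟨g, hg⟩ := hα
  refine ⟨f * g, ?_⟩
  ext v
  rw [coe_smul_rep, hg]

theorem smul_mem_adM {D : Divisor K F} {f : F} (hf : f ≠ 0)
    {α : ↥(repartitions K F)} (hα : α ∈ adM D) : f • α ∈ adM (D - divOf f) := by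
  unfold adM at hα ⊢
  rw [Submodule.mem_sup] at hα ⊢
  obtain ⟨a, ha, b, hb, rfl⟩ := hα
  exact ⟨f • a, (smul_mem_repartitionsOf_iff hf).mpr ha, f • b,
    smul_mem_principalRepartitions f hb, (smul_add f a b).symm⟩

theorem act_mem_Omg_iff {D : Divisor K F} {f : F} (hf : f ≠ 0)
    {ω : Module.Dual K ↥(repartitions K F)} :
    act f ω ∈ Omg D ↔ ω ∈ Omg (D - divOf f) := by
  rw [mem_Omg, mem_Omg]
  constructor
  · intro h α hα
    have h1 := smul_mem_adM (inv_ne_zero hf) hα
    have h2 : D - divOf f - divOf (K := K) f⁻¹ = D := by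
      rw [divOf_inv]
      abel
    rw [h2] at h1
    have h3 := h _ h1
    rw [act_apply, smul_smul, mul_inv_cancel₀ hf, one_smul] at h3
    exact h3
  · intro h α hα
    rw [act_apply]
    exact h _ (smul_mem_adM hf hα)

theorem act_mem_Omg {D E : Divisor K F} {f : F} (hf : f ∈ riemannRochSpace E)
    {ω : Module.Dual K ↥(repartitions K F)} (hω : ω ∈ Omg D) : act f ω ∈ Omg (D - E) := by
  rcases eq_or_ne f 0 with rfl | hf0
  · rw [act_zero]
    exact Submodule.zero_mem _
  · rw [act_mem_Omg_iff hf0]
    apply Omg_anti _ hω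
    intro v
    have := (mem_riemannRochSpace_iff.mp hf v).resolve_left hf0
    simp only [Finsupp.coe_sub, Pi.sub_apply, divOf_apply]
    linarith

end

section

variable [IsAlgClosed K] [FunctionField K F]

instance finite_quot_adM (D : Divisor K F) :
    Module.Finite K (↥(repartitions K F) ⧸ adM D) := finite_H1 D

instance finite_Omg (D : Divisor K F) : Module.Finite K (Omg D) :=
  Module.Finite.equiv (Submodule.dualQuotEquivDualAnnihilator (adM D))

theorem finrank_Omg (D : Divisor K F) :
    Module.finrank K (Omg D) = Module.finrank K (H1 D) := by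
  have h := (Submodule.dualQuotEquivDualAnnihilator (adM D)).finrank_eq
  rw [Subspace.dual_finrank_eq] at h
  exact h.symm

theorem finrank_Omg_eq (D : Divisor K F) :
    (Module.finrank K (Omg D) : ℤ) =
      Module.finrank K (riemannRochSpace D) - Divisor.degree D - 1 + genusFF K F := by
  rw [finrank_Omg]
  have := riemann D
  linarith

/-- The `K`-linear map `L(E) → Ω(D - E)` given by the action on a Weil differential. -/
def actL (E : Divisor K F) {D : Divisor K F} {ω : Module.Dual K ↥(repartitions K F)}
    (hω : ω ∈ Omg D) : riemannRochSpace E →ₗ[K] Omg (D - E) where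
  toFun f := ⟨act f.1 ω, act_mem_Omg f.2 hω⟩
  map_add' f g := by
    ext1
    exact act_add _ _ _
  map_smul' c f := by
    ext1
    exact act_smul _ _ _

theorem actL_injective (E : Divisor K F) {D : Divisor K F}
    {ω : Module.Dual K ↥(repartitions K F)} (hω : ω ∈ Omg D) (h0 : ω ≠ 0) :
    Function.Injective (actL E hω) := by
  rw [injective_iff_map_eq_zero]
  intro f hf
  have h1 : act f.1 ω = 0 := congrArg Subtype.val hf
  rw [act_eq_zero_iff h0] at h1
  exact Subtype.ext h1

theorem exists_place : Nonempty (Place K F) := FunctionField.nonempty_place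

variable (K F) in
theorem exists_degree_eq (n : ℤ) : ∃ D : Divisor K F, Divisor.degree D = n := by
  obtain ⟨v⟩ := exists_place (K := K) (F := F)
  exact ⟨Finsupp.single v n, degree_single_one v n⟩

/-- The space of Weil differentials is (at most) one-dimensional over `F`. -/
theorem exists_act_eq {A₁ A₂ : Divisor K F} {ω₁ ω₂ : Module.Dual K ↥(repartitions K F)}
    (h₁ : ω₁ ∈ Omg A₁) (h₂ : ω₂ ∈ Omg A₂) (h0 : ω₁ ≠ 0) : ∃ f : F, ω₂ = act f ω₁ := by
  by_contra hcon
  push Not at hcon
  set A := A₁ ⊓ A₂
  have h₁' : ω₁ ∈ Omg A := Omg_anti inf_le_left h₁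
  have h₂' : ω₂ ∈ Omg A := Omg_anti inf_le_right h₂
  obtain ⟨D, hD⟩ := exists_degree_eq K F
    (max (Divisor.degree A + 1) (3 * genusFF K F - 2 - Divisor.degree A))
  let Φ : (riemannRochSpace D × riemannRochSpace D) →ₗ[K] Omg (A - D) :=
    LinearMap.coprod (actL D h₁') (actL D h₂')
  have hΦ : Function.Injective Φ := by
    rw [injective_iff_map_eq_zero]
    rintro ⟨f, g⟩ hfg
    have h1 : act f.1 ω₁ + act g.1 ω₂ = 0 := by
      have := congrArg Subtype.val hfg
      exact this
    have hg : g.1 = 0 := by
      by_contra hg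
      apply hcon (-(f.1 / g.1))
      have h2 : act g.1 ω₂ = -act f.1 ω₁ := by
        rw [eq_neg_iff_add_eq_zero, add_comm]
        exact h1
      have h3 : ω₂ = act (g.1)⁻¹ (act g.1 ω₂) := by
        rw [← act_mul, inv_mul_cancel₀ hg, act_one]
      rw [h3, h2]
      ext α
      rw [act_apply, LinearMap.neg_apply, act_apply, act_apply, neg_smul, map_neg, smul_smul]
      congr 3
      ring
    have hf : f.1 = 0 := by
      rw [hg, act_zero, add_zero, act_eq_zero_iff h0] at h1
      exact h1
    exact Prod.ext (Subtype.ext hf) (Subtype.ext hg)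
  have h1 := LinearMap.finrank_le_finrank_of_injective hΦ
  rw [Module.finrank_prod] at h1
  have h2 := finrank_Omg_eq (A - D)
  have h3 : Divisor.degree (A - D) < 0 := by
    rw [map_sub, hD]
    have := le_max_left (Divisor.degree A + 1) (3 * genusFF K F - 2 - Divisor.degree A)
    linarith
  rw [riemannRochSpace_eq_bot h3, finrank_bot, map_sub] at h2
  have h4 := finrank_riemannRochSpace_ge D
  have h5 := le_max_right (Divisor.degree A + 1) (3 * genusFF K F - 2 - Divisor.degree A)
  rw [← hD] at h5
  have h6 : ((Module.finrank K (riemannRochSpace D) : ℤ) +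
      Module.finrank K (riemannRochSpace D)) ≤ Module.finrank K (Omg (A - D)) := by
    exact_mod_cast h1
  push_cast at h2
  linarith

variable (K F) in
theorem exists_ne_zero_mem_Omg :
    ∃ (D : Divisor K F) (ω : Module.Dual K ↥(repartitions K F)), ω ∈ Omg D ∧ ω ≠ 0 := by
  obtain ⟨D, hD⟩ := exists_degree_eq K F (-2)
  refine ⟨D, ?_⟩
  have h1 := finrank_Omg_eq D
  have h2 : Omg D ≠ ⊥ := by
    intro h
    rw [h, finrank_bot, hD] at h1
    push_cast at h1
    have h3 : (0 : ℤ) ≤ Module.finrank K (riemannRochSpace D) := Int.natCast_nonneg _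
    have h4 : (0 : ℤ) ≤ genusFF K F := Int.natCast_nonneg _
    linarith
  exact Submodule.exists_mem_ne_zero_of_ne_bot h2

theorem repartitionsOf_sup (D D' : Divisor K F) :
    repartitionsOf (D ⊔ D') ≤ repartitionsOf D ⊔ repartitionsOf D' := by
  classical
  intro α hα
  rw [Submodule.mem_sup]
  let β : Place K F → F := fun v =>
    if v.adicValuation ((α : Place K F → F) v) ≤ exp (D v) then (α : Place K F → F) v else 0
  have hβ : ∀ v, v.adicValuation (β v) ≤ exp (D v) := by
    intro v
    show v.adicValuation (if v.adicValuation ((α : Place K F → F) v) ≤ exp (D v) then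
      (α : Place K F → F) v else 0) ≤ exp (D v)
    split_ifs with h
    · exact h
    · simp
  let β' : ↥(repartitions K F) := ⟨β, mem_repartitions_of_forall_le_exp D β hβ⟩
  refine ⟨β', hβ, α - β', ?_, by abel⟩
  intro v
  show v.adicValuation ((α : Place K F → F) v - β v) ≤ exp (D' v)
  by_cases h : v.adicValuation ((α : Place K F → F) v) ≤ exp (D v)
  · have : β v = (α : Place K F → F) v := if_pos h
    rw [this, sub_self]
    simp
  · have h0 : β v = 0 := if_neg h
    rw [h0, sub_zero]
    have h1 := hα v
    rw [Finsupp.sup_apply] at h1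
    rcases le_total (D v) (D' v) with hle | hle
    · rwa [sup_eq_right.mpr hle] at h1
    · rw [sup_eq_left.mpr hle] at h1
      exact absurd h1 h

theorem mem_Omg_sup {D D' : Divisor K F} {ω : Module.Dual K ↥(repartitions K F)}
    (h : ω ∈ Omg D) (h' : ω ∈ Omg D') : ω ∈ Omg (D ⊔ D') := by
  rw [mem_Omg] at h h' ⊢
  intro α hα
  unfold adM at hα
  rw [Submodule.mem_sup] at hα
  obtain ⟨a, ha, b, hb, rfl⟩ := hα
  have ha' := repartitionsOf_sup D D' ha
  rw [Submodule.mem_sup] at ha'
  obtain ⟨c, hc, d, hd, rfl⟩ := ha'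
  have h1 := h c (Submodule.mem_sup_left hc)
  have h2 := h' d (Submodule.mem_sup_left hd)
  have h3 := h b (Submodule.mem_sup_right hb)
  rw [map_add, map_add, h1, h2, h3]
  simp

theorem degree_le_of_mem_Omg {D : Divisor K F} {ω : Module.Dual K ↥(repartitions K F)}
    (h : ω ∈ Omg D) (h0 : ω ≠ 0) : Divisor.degree D ≤ 2 * genusFF K F - 1 := by
  have h1 := LinearMap.finrank_le_finrank_of_injective (actL_injective D h h0)
  have h2 := finrank_Omg_eq (D - D)
  have h3 := finrank_riemannRochSpace_ge D
  rw [sub_self, finrank_riemannRochSpace_zero, map_zero] at h2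
  rw [sub_self] at h1
  have h4 : (Module.finrank K (riemannRochSpace D) : ℤ) ≤
      Module.finrank K (Omg (0 : Divisor K F)) := by exact_mod_cast h1
  push_cast at h2
  linarith

theorem eq_of_le_of_degree_le {D D' : Divisor K F} (h : D ≤ D')
    (hdeg : Divisor.degree D' ≤ Divisor.degree D) : D = D' := by
  ext v
  by_contra hne
  have h1 : D v + 1 ≤ D' v := by
    have := h v
    omega
  have h2 : D + Finsupp.single v 1 ≤ D' := by
    intro w
    by_cases hw : w = v
    · subst hw
      rw [add_single_apply_self]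
      exact h1
    · rw [add_single_apply_ne D 1 hw]
      exact h w
  have h3 := degree_mono h2
  rw [map_add, degree_single_one] at h3
  omega

variable (K F) in
/-- There are a nonzero Weil differential `ω` and a divisor `W` such that `ω ∈ Ω(D) ↔ D ≤ W`. -/
theorem exists_canonical :
    ∃ (W : Divisor K F) (ω : Module.Dual K ↥(repartitions K F)), ω ≠ 0 ∧
      ∀ D, ω ∈ Omg D ↔ D ≤ W := by
  obtain ⟨D₀, ω, hω, h0⟩ := exists_ne_zero_mem_Omg K F
  obtain ⟨d, ⟨W, hW, hWd⟩, hmax⟩ := Int.exists_greatest_of_bdd
    (P := fun d => ∃ D : Divisor K F, ω ∈ Omg D ∧ Divisor.degree D = d)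
    ⟨2 * genusFF K F - 1, by
      rintro z ⟨D, hD, rfl⟩
      exact degree_le_of_mem_Omg hD h0⟩ ⟨Divisor.degree D₀, D₀, hω, rfl⟩
  refine ⟨W, ω, h0, fun D => ⟨fun hD => ?_, fun hD => Omg_anti hD hW⟩⟩
  have h1 := mem_Omg_sup hD hW
  have h2 := hmax _ ⟨D ⊔ W, h1, rfl⟩
  have h3 : W = D ⊔ W := eq_of_le_of_degree_le le_sup_right (by rw [hWd]; exact h2)
  rw [h3]
  exact le_sup_left

variable (K F) in
/-- **Duality**: there is a divisor `W` with `i(D) = ℓ(W - D)` for all `D`. -/
theorem exists_canonicalDivisor :
    ∃ W : Divisor K F, ∀ D : Divisor K F,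
      Module.finrank K (H1 D) = Module.finrank K (riemannRochSpace (W - D)) := by
  obtain ⟨W, ω, h0, hW⟩ := exists_canonical K F
  refine ⟨W, fun D => ?_⟩
  rw [← finrank_Omg]
  have hmem : ω ∈ Omg W := (hW W).mpr le_rfl
  have hinj := actL_injective (W - D) hmem h0
  have hsurj : Function.Surjective (actL (W - D) hmem) := by
    rintro ⟨ω', hω'⟩
    obtain ⟨f, rfl⟩ := exists_act_eq hmem hω' h0
    rcases eq_or_ne f 0 with rfl | hf
    · exact ⟨0, by
        rw [map_zero]
        ext1
        exact (act_zero ω).symm⟩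
    · rw [sub_sub_cancel, act_mem_Omg_iff hf, hW] at hω'
      refine ⟨⟨f, ?_⟩, rfl⟩
      rw [mem_riemannRochSpace_iff]
      intro v
      right
      have := hω' v
      simp only [Finsupp.coe_sub, Pi.sub_apply, divOf_apply] at this ⊢
      linarith
  have h := (LinearEquiv.ofBijective _ ⟨hinj, hsurj⟩).finrank_eq
  rw [sub_sub_cancel] at h
  exact h.symm

/-- A canonical divisor (chosen, from a Weil differential). -/
def canDiv (K F : Type*) [Field K] [Field F] [Algebra K F] [IsAlgClosed K] [FunctionField K F] :
    Divisor K F := (exists_canonicalDivisor K F).choose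

theorem finrank_H1 (D : Divisor K F) :
    Module.finrank K (H1 D) = Module.finrank K (riemannRochSpace (canDiv K F - D)) :=
  (exists_canonicalDivisor K F).choose_spec D

/-- **The Riemann–Roch theorem.** -/
theorem riemannRoch (D : Divisor K F) :
    (Module.finrank K (riemannRochSpace D) : ℤ) -
      Module.finrank K (riemannRochSpace (canDiv K F - D)) =
      Divisor.degree D + 1 - genusFF K F := by
  rw [← finrank_H1]
  exact riemann D

theorem finrank_riemannRochSpace_canDiv :
    Module.finrank K (riemannRochSpace (canDiv K F)) = genusFF K F := by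
  have h := finrank_H1 (0 : Divisor K F)
  rw [sub_zero] at h
  exact h.symm

theorem finrank_H1_canDiv : Module.finrank K (H1 (canDiv K F)) = 1 := by
  rw [finrank_H1, sub_self, finrank_riemannRochSpace_zero]

theorem degree_canDiv : Divisor.degree (canDiv K F) = 2 * genusFF K F - 2 := by
  have h := riemann (canDiv K F)
  rw [finrank_riemannRochSpace_canDiv, finrank_H1_canDiv] at h
  push_cast at h
  linarith

/-- `H1(D) = 0` when `deg D > 2g - 2`. -/
theorem finrank_H1_eq_zero {D : Divisor K F} (h : 2 * (genusFF K F : ℤ) - 2 < Divisor.degree D) :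
    Module.finrank K (H1 D) = 0 := by
  rw [finrank_H1, riemannRochSpace_eq_bot, finrank_bot]
  rw [map_sub, degree_canDiv]
  linarith

theorem finrank_riemannRochSpace_eq {D : Divisor K F}
    (h : 2 * (genusFF K F : ℤ) - 2 < Divisor.degree D) :
    (Module.finrank K (riemannRochSpace D) : ℤ) = Divisor.degree D + 1 - genusFF K F := by
  have := riemann D
  rw [finrank_H1_eq_zero h] at this
  push_cast at this
  linarith

/-- **Strong approximation** (global form): if `deg D > 2g - 2`, every adele is the sum of an
element of `Λ(D)` and a principal adele. -/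
theorem sup_eq_top {D : Divisor K F} (h : 2 * (genusFF K F : ℤ) - 2 < Divisor.degree D) :
    repartitionsOf D ⊔ principalRepartitions K F = ⊤ := by
  have h1 := finrank_H1_eq_zero h
  rw [← Submodule.Quotient.subsingleton_iff]
  exact Module.finrank_zero_iff.mp h1

end

end Fermat.Agent.RR
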