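import Fermat.Agent.RR.HoloArith
import Fermat.Agent.JRED.Degree
import Fermat.Agent.JRED.ModularFF
import Fermat.Prelude.Thm_ModularCurve_coeff_jqModC_neg_one

/-!
# The ring of modular functions regular outside the cusp at infinity
-/

set_option autoImplicit false
set_option linter.unusedSectionVars false

noncomputable section

open WithZero IsLocalRing AlgebraicCurve IntermediateField ModularCurve
open scoped nonZeroDivisors

namespace Fermat.Agent.RR

/-- The function field of `X₀(N)` over `ℚ̄` is a function field. -/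
instance instFunctionFieldBar (N : ℕ) [NeZero N] :
    FunctionField (AlgebraicClosure ℚ) (modularFunctionFieldBar N) :=
  Fermat.Agent.JRED.functionField_of_finite (Fermat.Agent.JRED.transcendental_jBar N)
    (Fermat.Agent.JRED.finrank_bar N).1

theorem order_jqModC (K : Type*) [Field K] : (jqModC K).order = -1 := by
  have h0 : (jqModC K).coeff (-1 : ℤ) = 1 := coeff_jqModC_neg_one K
  have h1 : (jqModC K).coeff (-1 : ℤ) ≠ 0 := by
    rw [h0]
    exact one_ne_zero
  refine le_antisymm (HahnSeries.order_le_of_coeff_ne_zero h1) ?_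
  by_contra hlt
  push Not at hlt
  have h2 : (jqModC K).coeff (jqModC K).order = 0 := coeff_jqModC_of_lt K hlt
  rw [HahnSeries.coeff_order_eq_zero] at h2
  rw [h2] at h1
  exact h1 rfl

theorem exists_order_eq_neg_one (N : ℕ) :
    ∃ f : modularFunctionFieldBar N, (f : LaurentSeries (AlgebraicClosure ℚ)).order = -1 :=
  ⟨Fermat.Agent.JRED.jBar N, by
    rw [Fermat.Agent.JRED.coe_jBar]
    exact order_jqModC _⟩

theorem exists_order_eq_neg_one' (k : Type*) [Field k] (N : ℕ) :
    ∃ f : modularFunctionFieldFullC k N, (f : LaurentSeries k).order = -1 :=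
  ⟨⟨jqModC k, jqModC_mem_full k N⟩, order_jqModC k⟩

/-- The cusp at infinity of `X₀(N)` over `ℚ̄`. -/
def cuspPlace (N : ℕ) : Place (AlgebraicClosure ℚ) (modularFunctionFieldBar N) :=
  qPlace (modularFunctionFieldBar N) (exists_order_eq_neg_one N)

/-- The cusp at infinity of `X₀(N)` over an arbitrary field. -/
def cuspPlaceC (k : Type*) [Field k] (N : ℕ) : Place k (modularFunctionFieldFullC k N) :=
  qPlace (modularFunctionFieldFullC k N) (exists_order_eq_neg_one' k N)

theorem ord_cuspPlace (N : ℕ) (f : modularFunctionFieldBar N) :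
    (cuspPlace N).ord f = (f : LaurentSeries (AlgebraicClosure ℚ)).order :=
  ord_qPlace _ f

theorem ord_cuspPlaceC (k : Type*) [Field k] (N : ℕ) (f : modularFunctionFieldFullC k N) :
    (cuspPlaceC k N).ord f = (f : LaurentSeries k).order :=
  ord_qPlace _ f

theorem arithmeticGalois_smul_cuspPlace (N : ℕ)
    (σ : AlgebraicClosure ℚ ≃ₐ[ℚ] AlgebraicClosure ℚ) :
    arithmeticGalois (modularFunctionFieldFull N) σ • cuspPlace N = cuspPlace N :=
  arithmeticGalois_smul_qPlace (exists_order_eq_neg_one N) σ

/-- **The Jacobian `J₀(N)` as the class group of a Dedekind curve algebra with rational structure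
constants, Galois equivariantly.** -/
theorem exists_curveAlg_JZero (N : ℕ) [NeZero N] :
    ∃ (A : Type) (_ : CommRing A) (_ : Algebra (AlgebraicClosure ℚ) A) (_ : IsDedekindDomain A)
      (C : Fermat.Agent.MW.CurveAlg (AlgebraicClosure ℚ) A)
      (gal : (AlgebraicClosure ℚ ≃ₐ[ℚ] AlgebraicClosure ℚ) → (A ≃+* A))
      (φ : JZero N ≃+ Additive (ClassGroup A)),
      (∀ σ c, gal σ (algebraMap (AlgebraicClosure ℚ) A c) =
        algebraMap (AlgebraicClosure ℚ) A (σ c)) ∧
      (∀ σ l, gal σ (C.b l) = C.b l) ∧
      (∀ σ τ a, gal (σ * τ) a = gal σ (gal τ a)) ∧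
      (∀ a, gal 1 a = a) ∧
      (∀ σ m a, C.coef m (gal σ a) = σ (C.coef m a)) ∧
      C.genus = genusFF (AlgebraicClosure ℚ) (modularFunctionFieldBar N) ∧
      ∀ σ x, φ (σ • x) = Additive.ofMul (ClassGroup.mulEquiv (gal σ) (φ x).toMul) :=
  ⟨holo (cuspPlace N), inferInstance, inferInstance, isDedekindDomain_holo (cuspPlace N),
    qCurveAlg (exists_order_eq_neg_one N), galHolo (exists_order_eq_neg_one N),
    pic0Equiv (cuspPlace N), galHolo_algebraMap (exists_order_eq_neg_one N),
    galHolo_b (exists_order_eq_neg_one N), galHolo_mul (exists_order_eq_neg_one N),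
    galHolo_one (exists_order_eq_neg_one N), coef_galHolo (exists_order_eq_neg_one N),
    qCurveAlg_genus (exists_order_eq_neg_one N), pic0Equiv_galois (exists_order_eq_neg_one N)⟩

end Fermat.Agent.RR
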