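import Fermat.Agent.RR.HoloBasis
import Fermat.Agent.Flat.DegRing

/-!
# The holomorphy ring as a ring with degree function
-/

set_option autoImplicit false
set_option linter.unusedSectionVars false

noncomputable section

open WithZero IsLocalRing AlgebraicCurve IntermediateField

namespace Fermat.Agent.RR

variable {K F : Type*} [Field K] [Field F] [Algebra K F] [IsAlgClosed K] [FunctionField K F]

/-- The holomorphy ring, with the pole order at `P` as degree function. -/
def degRing (P : Place K F) :
    Fermat.Agent.Flat.DegRing K (holo P) (genusFF K F) (2 * genusFF K F) where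
  deg f := pdeg P (f : F)
  deg_zero := pdeg_zero P
  deg_algebraMap c := pdeg_algebraMap P c
  deg_add_le f h := pdeg_add_le (f : F) (h : F)
  deg_mul f h hf hh := pdeg_mul f.2 h.2 (fun h0 => hf (Subtype.ext h0))
    (fun h0 => hh (Subtype.ext h0))
  finite_le n _ V hV := by
    have h1 : V ≤ (curveAlg P).Fil n := by
      intro f hf
      rw [(curveAlg P).mem_Fil_iff_deg_le, curveAlg_deg]
      exact hV f hf
    exact Submodule.finiteDimensional_of_le h1
  finrank_le n hn V hV := by
    have h1 : V = (curveAlg P).Fil n := by
      ext f
      rw [(curveAlg P).mem_Fil_iff_deg_le, curveAlg_deg]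
      exact hV f
    rw [h1]
    exact finrank_Fil_curveAlg P (by omega)

@[simp]
theorem degRing_deg (P : Place K F) (f : holo P) : (degRing P).deg f = pdeg P (f : F) := rfl

end Fermat.Agent.RR
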