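import Fermat.Agent.RR.Step

/-!
# Function fields, divisors, degrees and finiteness of `L(D)`
-/

set_option autoImplicit false

noncomputable section

open WithZero IsLocalRing AlgebraicCurve IntermediateField

namespace Fermat.Agent.RR

/-- An algebraic function field of one variable (formulated with the prelude's places):
principal divisors exist and have degree zero, residue fields are finite, there is at least one
place, and `F` is finite over `K(x)` for some transcendental `x`. -/
class FunctionField (K F : Type*) [Field K] [Field F] [Algebra K F] : Prop
    extends HasPrincipalDivisors K F where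
  finiteResidue : ∀ v : Place K F, Module.Finite K v.ResidueField
  nonempty_place : Nonempty (Place K F)
  exists_finite : ∃ x : F, Transcendental K x ∧ FiniteDimensional K⟮x⟯ F

variable {K F : Type*} [Field K] [Field F] [Algebra K F]

instance instFiniteResidueField [FunctionField K F] (v : Place K F) :
    Module.Finite K v.ResidueField :=
  FunctionField.finiteResidue v

theorem deg_eq_one [IsAlgClosed K] [FunctionField K F] (v : Place K F) : v.deg = 1 :=
  v.deg_eq_one_of_isAlgClosed_of_finite

/-- The divisor of a function (`0` for the zero function). -/
def divOf [HasPrincipalDivisors K F] (f : F) : Divisor K F := by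
  classical
  exact if h : f = 0 then 0 else (HasPrincipalDivisors.exists_divisor (K := K) f h).choose

@[simp]
theorem divOf_apply [HasPrincipalDivisors K F] (f : F) (v : Place K F) :
    divOf f v = v.ord f := by
  unfold divOf
  split_ifs with h
  · simp [h]
  · exact (HasPrincipalDivisors.exists_divisor (K := K) f h).choose_spec.1 v

theorem degree_divOf [HasPrincipalDivisors K F] (f : F) :
    Divisor.degree (divOf (K := K) f) = 0 := by
  unfold divOf
  split_ifs with h
  · simp
  · exact (HasPrincipalDivisors.exists_divisor (K := K) f h).choose_spec.2

theorem divOf_mul [HasPrincipalDivisors K F] {f g : F} (hf : f ≠ 0) (hg : g ≠ 0) :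
    divOf (K := K) (f * g) = divOf f + divOf g := by
  ext v
  simp [v.ord_mul hf hg]

theorem divOf_inv [HasPrincipalDivisors K F] (f : F) :
    divOf (K := K) f⁻¹ = - divOf f := by
  ext v
  simp [v.ord_inv]

/-- The divisor of poles of a function. -/
def polesOf [HasPrincipalDivisors K F] (f : F) : Divisor K F :=
  Finsupp.mapRange (fun n : ℤ => max (-n) 0) (by simp) (divOf f)

@[simp]
theorem polesOf_apply [HasPrincipalDivisors K F] (f : F) (v : Place K F) :
    polesOf f v = max (-v.ord f) 0 := by
  simp [polesOf]

theorem polesOf_nonneg [HasPrincipalDivisors K F] (f : F) : 0 ≤ polesOf (K := K) f := by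
  intro v
  simp

theorem degree_apply (D : Divisor K F) :
    Divisor.degree D = D.sum fun v n => n * (v.deg : ℤ) := by
  simp [Divisor.degree]

theorem degree_nonneg {D : Divisor K F} (h : 0 ≤ D) : 0 ≤ Divisor.degree D := by
  rw [degree_apply]
  apply Finset.sum_nonneg
  intro v _
  exact mul_nonneg (h v) (Int.natCast_nonneg _)

theorem degree_mono {D D' : Divisor K F} (h : D ≤ D') :
    Divisor.degree D ≤ Divisor.degree D' := by
  have h1 : 0 ≤ D' - D := sub_nonneg.mpr h
  have := degree_nonneg h1
  rw [map_sub] at this
  linarith

theorem degree_single_one [IsAlgClosed K] [FunctionField K F] (v : Place K F) (n : ℤ) :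
    Divisor.degree (Finsupp.single v n) = n := by
  rw [Divisor.degree_single, deg_eq_one v]
  simp

theorem degree_eq_sum [IsAlgClosed K] [FunctionField K F] (D : Divisor K F) :
    Divisor.degree D = D.sum fun _ n => n := by
  rw [degree_apply]
  apply Finset.sum_congr rfl
  intro v _
  show D v * (v.deg : ℤ) = D v
  rw [deg_eq_one v]
  simp

/-- Induction: to prove something for all `D' ≥ D`, it suffices to add places one at a time. -/
theorem effective_induction {P : Divisor K F → Prop} (D : Divisor K F) (h0 : P D)
    (step : ∀ (D' : Divisor K F) (v : Place K F), D ≤ D' → P D' → P (D' + Finsupp.single v 1))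
    (D' : Divisor K F) (h : D ≤ D') : P D' := by
  classical
  have key : ∀ E : Place K F →₀ ℕ,
      P (D + Finsupp.mapRange (fun n : ℕ => (n : ℤ)) (by simp) E) := by
    intro E
    induction E using Finsupp.induction with
    | zero => simpa using h0
    | single_add v n E _ _ ih =>
      rw [Finsupp.mapRange_add (by simp), Finsupp.mapRange_single]
      clear *- ih step
      induction n with
      | zero => simpa using ih
      | succ n ihn =>
        have := step _ v (by
          rw [le_add_iff_nonneg_right]
          intro w
          by_cases hw : w = v
          · subst hw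
            simp
            omega
          · simp [hw]) ihn
        convert this using 1
        push_cast
        rw [Finsupp.single_add]
        abel
  have h1 := key (Finsupp.mapRange Int.toNat (by simp) (D' - D))
  convert h1 using 1
  ext v
  have := h v
  simp only [Finsupp.coe_add, Pi.add_apply, Finsupp.mapRange_apply, Finsupp.coe_sub, Pi.sub_apply]
  rw [Int.toNat_of_nonneg (by linarith)]
  ring

/-- Induction over all divisors through adding and removing places. -/
theorem divisor_induction {P : Divisor K F → Prop} (D₀ : Divisor K F) (h0 : P D₀)
    (step : ∀ (D' : Divisor K F) (v : Place K F), P D' ↔ P (D' + Finsupp.single v 1))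
    (D : Divisor K F) : P D := by
  classical
  have h1 : P (D ⊔ D₀) := effective_induction D₀ h0 (fun D' v _ h => (step D' v).mp h) _ le_sup_right
  by_contra hD
  exact (effective_induction (P := fun D => ¬ P D) D hD (fun D' v _ h => by
    rwa [← step D' v]) _ le_sup_left) h1

section L

variable [IsAlgClosed K] [FunctionField K F]

omit [IsAlgClosed K] in
theorem degree_nonneg_of_mem {D : Divisor K F} {f : F} (hf : f ∈ riemannRochSpace D)
    (h0 : f ≠ 0) : 0 ≤ Divisor.degree D := by
  have h1 : 0 ≤ D + divOf f := by
    intro v
    have := (mem_riemannRochSpace_iff.mp hf v).resolve_left h0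
    simp
    omega
  have := degree_nonneg h1
  rwa [map_add, degree_divOf, add_zero] at this

omit [IsAlgClosed K] in
theorem riemannRochSpace_eq_bot {D : Divisor K F} (h : Divisor.degree D < 0) :
    riemannRochSpace D = ⊥ := by
  rw [eq_bot_iff]
  intro f hf
  by_contra h0
  rw [Submodule.mem_bot] at h0
  have := degree_nonneg_of_mem hf h0
  omega

omit [IsAlgClosed K] [FunctionField K F] in
theorem one_mem_riemannRochSpace {D : Divisor K F} (h : 0 ≤ D) :
    (1 : F) ∈ riemannRochSpace D := by
  rw [mem_riemannRochSpace_iff]
  intro v
  right
  simp only [Place.ord_one]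
  have := h v
  simp at this
  omega

theorem riemannRochSpace_zero : riemannRochSpace (0 : Divisor K F) = Submodule.span K {1} := by
  apply le_antisymm
  · intro f hf
    obtain ⟨v⟩ := FunctionField.nonempty_place (K := K) (F := F)
    have hfv : f ∈ v.toValuationSubring := by
      rw [mem_iff_ord]
      simpa using mem_riemannRochSpace_iff.mp hf v
    obtain ⟨c, hc⟩ := exists_const_of_mem v hfv
    have hc0 : f - algebraMap K F c = 0 := by
      by_contra hne
      have hc := hc.resolve_left hne
      have hmem : f - algebraMap K F c ∈ riemannRochSpace (-Finsupp.single v 1 : Divisor K F) := by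
        rw [mem_riemannRochSpace_iff]
        intro w
        right
        by_cases hw : w = v
        · subst hw
          simp
          omega
        · have h1 : (-(Finsupp.single v 1 : Divisor K F)) w = 0 := by
            simp [hw]
          rw [h1]
          have h2 : f - algebraMap K F c ∈ riemannRochSpace (0 : Divisor K F) := by
            apply Submodule.sub_mem _ hf
            rw [Algebra.algebraMap_eq_smul_one]
            exact Submodule.smul_mem _ _ (one_mem_riemannRochSpace le_rfl)
          simpa using (mem_riemannRochSpace_iff.mp h2 w).resolve_left hne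
      have := degree_nonneg_of_mem hmem hne
      rw [map_neg, degree_single_one] at this
      omega
    rw [Submodule.mem_span_singleton]
    refine ⟨c, ?_⟩
    rw [← Algebra.algebraMap_eq_smul_one]
    exact (sub_eq_zero.mp hc0).symm
  · rw [Submodule.span_singleton_le_iff_mem]
    exact one_mem_riemannRochSpace le_rfl

instance finite_riemannRochSpace (D : Divisor K F) : Module.Finite K (riemannRochSpace D) := by
  have h0 : Module.Finite K (riemannRochSpace (0 : Divisor K F)) := by
    rw [riemannRochSpace_zero]
    infer_instance
  refine divisor_induction (P := fun D => Module.Finite K (riemannRochSpace D)) 0 h0 ?_ D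
  intro D' v
  constructor
  · intro h
    exact finite_riemannRochSpace_add_single D' v
  · intro h
    exact Module.Finite.of_injective
      (Submodule.inclusion (riemannRochSpace_mono (le_add_single D' v)))
      (Submodule.inclusion_injective _)

theorem finrank_riemannRochSpace_zero :
    Module.finrank K (riemannRochSpace (0 : Divisor K F)) = 1 := by
  rw [riemannRochSpace_zero]
  exact finrank_span_singleton one_ne_zero

theorem finrank_add_single_le (D : Divisor K F) (v : Place K F) :
    Module.finrank K (riemannRochSpace (D + Finsupp.single v 1)) ≤
      Module.finrank K (riemannRochSpace D) + 1 := by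
  by_cases hh : riemannRochSpace (D + Finsupp.single v 1) ≤ riemannRochSpace D
  · have := Submodule.finrank_mono hh
    omega
  · rw [SetLike.not_le_iff_exists] at hh
    obtain ⟨g, hg, hg'⟩ := hh
    have h1 := finrank_sup_span_singleton _ hg'
    rw [← riemannRochSpace_add_single D v hg hg'] at h1
    omega

theorem finrank_riemannRochSpace_mono {D D' : Divisor K F} (h : D ≤ D') :
    Module.finrank K (riemannRochSpace D) ≤ Module.finrank K (riemannRochSpace D') :=
  Submodule.finrank_mono (riemannRochSpace_mono h)

theorem finrank_le_add_degree {D D' : Divisor K F} (h : D ≤ D') :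
    (Module.finrank K (riemannRochSpace D') : ℤ) ≤
      Module.finrank K (riemannRochSpace D) + (Divisor.degree D' - Divisor.degree D) := by
  refine effective_induction (P := fun D' => (Module.finrank K (riemannRochSpace D') : ℤ) ≤
      Module.finrank K (riemannRochSpace D) + (Divisor.degree D' - Divisor.degree D)) D
      (by simp) ?_ D' h
  intro D' v _ ih
  have := finrank_add_single_le D' v
  rw [map_add, degree_single_one]
  omega

omit [IsAlgClosed K] in
/-- Multiplication by `f ≠ 0` identifies `L(D + div f)` with `L(D)`. -/
theorem mul_mem_riemannRochSpace_iff {D : Divisor K F} {f g : F} (hf : f ≠ 0) :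
    f * g ∈ riemannRochSpace D ↔ g ∈ riemannRochSpace (D + divOf f) := by
  rw [mem_riemannRochSpace_iff, mem_riemannRochSpace_iff]
  apply forall_congr'
  intro v
  rcases eq_or_ne g 0 with rfl | hg
  · simp
  · rw [v.ord_mul hf hg]
    simp [hf, hg]
    constructor <;> intro h <;> linarith

/-- `L(D + div f) ≃ L(D)`. -/
def riemannRochSpaceEquiv (D : Divisor K F) {f : F} (hf : f ≠ 0) :
    riemannRochSpace (D + divOf f) ≃ₗ[K] riemannRochSpace D where
  toFun g := ⟨f * g, (mul_mem_riemannRochSpace_iff hf).mpr g.2⟩
  invFun g := ⟨f⁻¹ * g, by
    rw [← mul_mem_riemannRochSpace_iff hf, ← mul_assoc, mul_inv_cancel₀ hf, one_mul]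
    exact g.2⟩
  map_add' g h := by
    ext
    simp [mul_add]
  map_smul' c g := by
    ext
    simp
  left_inv g := by
    ext
    simp [hf]
  right_inv g := by
    ext
    simp [hf]

omit [IsAlgClosed K] in
theorem finrank_riemannRochSpace_add_divOf (D : Divisor K F) {f : F} (hf : f ≠ 0) :
    Module.finrank K (riemannRochSpace (D + divOf f)) =
      Module.finrank K (riemannRochSpace D) :=
  (riemannRochSpaceEquiv D hf).finrank_eq

end L

end Fermat.Agent.RR
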