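import Fermat.Agent.RR.HoloIdeal

/-!
# Fractional ideals of the holomorphy ring and the class group
-/

set_option autoImplicit false
set_option linter.unusedSectionVars false

noncomputable section

open WithZero IsLocalRing AlgebraicCurve IntermediateField
open scoped nonZeroDivisors

namespace Fermat.Agent.RR

variable {K F : Type*} [Field K] [Field F] [Algebra K F]

/-- The submodule `{x | ord_v x ≥ D v for all v ≠ P}`. -/
def JSub (P : Place K F) (D : Divisor K F) : Submodule (holo P) F where
  carrier := {x | ∀ v : Place K F, v ≠ P → (x = 0 ∨ D v ≤ v.ord x)}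
  zero_mem' := fun _ _ => Or.inl rfl
  add_mem' := by
    intro a b ha hb v hv
    have ha := ha v hv
    have hb := hb v hv
    by_cases h : a + b = 0
    · exact Or.inl h
    rcases ha with ha | ha
    · rw [ha, zero_add] at h ⊢
      exact hb
    rcases hb with hb | hb
    · rw [hb, add_zero] at h ⊢
      exact Or.inr ha
    exact Or.inr ((le_min ha hb).trans (ord_add v h))
  smul_mem' := by
    intro c a ha v hv
    have ha := ha v hv
    show ((c : F) * a = 0) ∨ D v ≤ v.ord ((c : F) * a)
    rcases ha with ha | ha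
    · left
      rw [ha, mul_zero]
    · by_cases h0 : (c : F) * a = 0
      · exact Or.inl h0
      right
      have hc : (c : F) ≠ 0 := left_ne_zero_of_mul h0
      have ha0 : a ≠ 0 := right_ne_zero_of_mul h0
      rw [v.ord_mul hc ha0]
      have := mem_holo.mp c.2 v hv
      linarith

theorem mem_JSub {P : Place K F} {D : Divisor K F} {x : F} :
    x ∈ JSub P D ↔ ∀ v : Place K F, v ≠ P → (x = 0 ∨ D v ≤ v.ord x) := Iff.rfl

variable [IsAlgClosed K] [FunctionField K F]

theorem isFractional_JSub (P : Place K F) (D : Divisor K F) :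
    IsFractional (holo P)⁰ (JSub P D) := by
  obtain ⟨h, h0, hh⟩ := exists_mem_holo_ord_ge P ((-D) ⊔ 0)
  have h1 : h ∈ holo P := by
    rw [mem_holo]
    intro v hv
    have h2 := hh v hv
    rw [Finsupp.sup_apply] at h2
    exact (le_max_right _ _).trans h2
  refine ⟨⟨h, h1⟩, ?_, ?_⟩
  · rw [mem_nonZeroDivisors_iff_ne_zero]
    intro h2
    exact h0 (congrArg Subtype.val h2)
  · intro b hb
    have h2 : h * b ∈ holo P := by
      rw [mem_holo]
      intro v hv
      rcases hb v hv with h3 | h3
      · rw [h3]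
        simp
      · rcases eq_or_ne b 0 with hb0 | hb0
        · rw [hb0]
          simp
        · rw [v.ord_mul h0 hb0]
          have h2 := hh v hv
          rw [Finsupp.sup_apply, Finsupp.neg_apply] at h2
          have h4 := (le_max_left (-D v) 0).trans h2
          linarith
    exact ⟨⟨h * b, h2⟩, rfl⟩

/-- The fractional ideal attached to a divisor (its coefficient at `P` is ignored). -/
def Jf (P : Place K F) (D : Divisor K F) : FractionalIdeal (holo P)⁰ F :=
  ⟨JSub P D, isFractional_JSub P D⟩

theorem mem_Jf {P : Place K F} {D : Divisor K F} {x : F} :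
    x ∈ Jf P D ↔ ∀ v : Place K F, v ≠ P → (x = 0 ∨ D v ≤ v.ord x) := Iff.rfl

theorem mem_Jf_of_ne_zero {P : Place K F} {D : Divisor K F} {x : F} (hx : x ≠ 0) :
    x ∈ Jf P D ↔ ∀ v : Place K F, v ≠ P → D v ≤ v.ord x := by
  rw [mem_Jf]
  simp only [hx, false_or]

theorem Jf_congr {P : Place K F} {D E : Divisor K F} (h : ∀ v : Place K F, v ≠ P → D v = E v) :
    Jf P D = Jf P E := by
  apply FractionalIdeal.ext
  intro x
  rw [mem_Jf, mem_Jf]
  constructor
  · intro hx v hv
    rw [← h v hv]
    exact hx v hv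
  · intro hx v hv
    rw [h v hv]
    exact hx v hv

theorem le_of_Jf_le {P : Place K F} {D E : Divisor K F} (h : Jf P D ≤ Jf P E)
    (v : Place K F) (hv : v ≠ P) : E v ≤ D v := by
  obtain ⟨a, ha0, hav, ha⟩ := exists_ord_eq_at P D v hv
  have h1 : a ∈ Jf P D := (mem_Jf_of_ne_zero ha0).mpr ha
  have h2 := (mem_Jf_of_ne_zero ha0).mp (h h1) v hv
  rwa [hav] at h2

theorem Jf_eq_iff {P : Place K F} {D E : Divisor K F} :
    Jf P D = Jf P E ↔ ∀ v : Place K F, v ≠ P → D v = E v := by
  constructor
  · intro h v hv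
    exact le_antisymm (le_of_Jf_le h.ge v hv) (le_of_Jf_le h.le v hv)
  · exact Jf_congr

theorem Jf_zero (P : Place K F) : Jf P (0 : Divisor K F) = 1 := by
  apply FractionalIdeal.ext
  intro x
  rw [FractionalIdeal.mem_one_iff]
  constructor
  · intro h
    have hx : x ∈ holo P := by
      rw [mem_holo]
      intro v hv
      rcases h v hv with h1 | h1
      · rw [h1]
        simp
      · exact h1
    exact ⟨⟨x, hx⟩, rfl⟩
  · rintro ⟨y, rfl⟩ v hv
    right
    exact mem_holo.mp y.2 v hv

theorem Jf_mul_le (P : Place K F) (D E : Divisor K F) : Jf P D * Jf P E ≤ Jf P (D + E) := by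
  rw [FractionalIdeal.mul_le]
  intro a ha b hb v hv
  by_cases h0 : a * b = 0
  · exact Or.inl h0
  right
  have ha0 : a ≠ 0 := left_ne_zero_of_mul h0
  have hb0 : b ≠ 0 := right_ne_zero_of_mul h0
  rw [v.ord_mul ha0 hb0, Finsupp.add_apply]
  have h1 := (mem_Jf_of_ne_zero ha0).mp ha v hv
  have h2 := (mem_Jf_of_ne_zero hb0).mp hb v hv
  linarith

/-- A fractional ideal contained in the ring, and containing for each `v ≠ P` an element of order
`0` at `v`, is the unit ideal. -/
theorem eq_one_of_forall {P : Place K F} {I : FractionalIdeal (holo P)⁰ F} (h1 : I ≤ 1)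
    (h : ∀ v : Place K F, v ≠ P → ∃ x ∈ I, x ≠ 0 ∧ v.ord x = 0) : I = 1 := by
  rw [FractionalIdeal.le_one_iff_exists_coeIdeal] at h1
  obtain ⟨I₀, rfl⟩ := h1
  by_cases htop : I₀ = ⊤
  · rw [htop, FractionalIdeal.coeIdeal_top]
  exfalso
  obtain ⟨M, hM, hle⟩ := Ideal.exists_le_maximal I₀ htop
  have hM0 : M ≠ ⊥ := by
    rintro rfl
    obtain ⟨v, hv⟩ := exists_ne_place P
    obtain ⟨x, hx, hx0, -⟩ := h v hv
    rw [FractionalIdeal.mem_coeIdeal] at hx
    obtain ⟨y, hy, rfl⟩ := hx
    have h2 := hle hy
    rw [Submodule.mem_bot] at h2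
    exact hx0 (by rw [h2, map_zero])
  obtain ⟨v, hv, rfl⟩ := eq_placeIdeal_of_isPrime hM.isPrime hM0
  obtain ⟨x, hx, hx0, hxv⟩ := h v hv
  rw [FractionalIdeal.mem_coeIdeal] at hx
  obtain ⟨y, hy, rfl⟩ := hx
  have h2 := (mem_placeIdeal hv).mp (hle hy)
  rcases h2 with h2 | h2
  · exact hx0 h2
  · have h3 : v.ord (y : F) = 0 := hxv
    omega

theorem Jf_mul_neg (P : Place K F) (D : Divisor K F) : Jf P D * Jf P (-D) = 1 := by
  apply eq_one_of_forall
  · have h := Jf_mul_le P D (-D)
    rwa [add_neg_cancel, Jf_zero] at h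
  · intro v hv
    obtain ⟨a, ha0, hav, ha⟩ := exists_ord_eq_at P D v hv
    obtain ⟨b, hb0, hbv, hb⟩ := exists_ord_eq_at P (-D) v hv
    refine ⟨a * b, FractionalIdeal.mul_mem_mul ((mem_Jf_of_ne_zero ha0).mpr ha)
      ((mem_Jf_of_ne_zero hb0).mpr hb), mul_ne_zero ha0 hb0, ?_⟩
    rw [v.ord_mul ha0 hb0, hav, hbv, Finsupp.neg_apply]
    ring

theorem Jf_add (P : Place K F) (D E : Divisor K F) : Jf P (D + E) = Jf P D * Jf P E := by
  apply le_antisymm _ (Jf_mul_le P D E)
  have h1 : Jf P (D + E) * Jf P (-E) ≤ Jf P D := by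
    have := Jf_mul_le P (D + E) (-E)
    rwa [add_neg_cancel_right] at this
  calc Jf P (D + E) = Jf P (D + E) * (Jf P E * Jf P (-E)) := by rw [Jf_mul_neg, mul_one]
    _ = (Jf P (D + E) * Jf P (-E)) * Jf P E := by ring
    _ ≤ Jf P D * Jf P E := by gcongr

theorem Jf_divOf (P : Place K F) {f : F} (hf : f ≠ 0) :
    Jf P (divOf f) = FractionalIdeal.spanSingleton (holo P)⁰ f := by
  apply FractionalIdeal.ext
  intro x
  rw [FractionalIdeal.mem_spanSingleton]
  constructor
  · intro hx
    have hmem : x / f ∈ holo P := by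
      rw [mem_holo]
      intro v hv
      rcases eq_or_ne x 0 with hx0 | hx0
      · rw [hx0]
        simp
      · rw [ord_div v hx0 hf]
        have := (mem_Jf_of_ne_zero hx0).mp hx v hv
        rw [divOf_apply] at this
        linarith
    refine ⟨⟨x / f, hmem⟩, ?_⟩
    show x / f * f = x
    rw [div_mul_cancel₀ _ hf]
  · rintro ⟨z, rfl⟩ v hv
    show ((z : F) * f = 0) ∨ _ ≤ v.ord ((z : F) * f)
    by_cases h0 : (z : F) * f = 0
    · exact Or.inl h0
    right
    rw [v.ord_mul (left_ne_zero_of_mul h0) hf, divOf_apply]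
    have := mem_holo.mp z.2 v hv
    linarith

/-- Every nonzero fractional ideal comes from a divisor. -/
theorem exists_eq_Jf {P : Place K F} {I : FractionalIdeal (holo P)⁰ F} (hI : I ≠ 0) :
    ∃ D : Divisor K F, D P = 0 ∧ I = Jf P D := by
  classical
  obtain ⟨x₀, hx₀, hx₀0⟩ : ∃ x ∈ I, x ≠ 0 := by
    by_contra hcon
    push Not at hcon
    apply hI
    apply FractionalIdeal.ext
    intro x
    rw [FractionalIdeal.mem_zero_iff]
    constructor
    · intro hx
      exact hcon x hx
    · rintro rfl
      exact FractionalIdeal.zero_mem _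
  obtain ⟨a, ha, haI⟩ := I.isFractional
  have ha0 : (a : F) ≠ 0 := by
    rw [mem_nonZeroDivisors_iff_ne_zero] at ha
    intro h
    exact ha (Subtype.ext h)
  -- lower bound
  have hlow : ∀ v : Place K F, v ≠ P → ∀ x ∈ I, x ≠ 0 → -v.ord (a : F) ≤ v.ord x := by
    intro v hv x hx hx0
    obtain ⟨y, hy⟩ := haI x hx
    have h1 : (y : F) = (a : F) * x := hy
    have h2 := mem_holo.mp y.2 v hv
    rw [h1, v.ord_mul ha0 hx0] at h2
    linarith
  have hex : ∀ v : Place K F, v ≠ P → ∃ m : ℤ, (∃ x ∈ I, x ≠ 0 ∧ v.ord x = m) ∧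
      ∀ x ∈ I, x ≠ 0 → m ≤ v.ord x := by
    intro v hv
    obtain ⟨m, ⟨x, hx, hx0, hxm⟩, hmin⟩ := Int.exists_least_of_bdd
      (P := fun m => ∃ x ∈ I, x ≠ 0 ∧ v.ord x = m)
      ⟨-v.ord (a : F), by
        rintro z ⟨x, hx, hx0, rfl⟩
        exact hlow v hv x hx hx0⟩ ⟨v.ord x₀, x₀, hx₀, hx₀0, rfl⟩
    exact ⟨m, ⟨x, hx, hx0, hxm⟩, fun y hy hy0 => hmin _ ⟨y, hy, hy0, rfl⟩⟩
  choose m hm1 hm2 using hex
  let D : Divisor K F := Finsupp.onFinset
    ((divOf (K := K) x₀).support ∪ (divOf (K := K) (a : F)).support)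
    (fun v => if hv : v ≠ P then m v hv else 0) (by
      intro v hv
      by_contra hcon
      apply hv
      rw [Finset.mem_union, Finsupp.mem_support_iff, Finsupp.mem_support_iff, divOf_apply,
        divOf_apply] at hcon
      push Not at hcon
      split_ifs with h
      · have h1 := hm2 v h x₀ hx₀ hx₀0
        obtain ⟨x, hx, hx0, hxm⟩ := hm1 v h
        have h2 := hlow v h x hx hx0
        rw [hcon.1] at h1
        rw [hcon.2, hxm] at h2
        omega
      · rfl)
  have hD : ∀ v (hv : v ≠ P), D v = m v hv := fun v hv => dif_pos hv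
  have hDP : D P = 0 := dif_neg (by simp)
  have hle : I ≤ Jf P D := by
    intro x hx v hv
    rcases eq_or_ne x 0 with h0 | h0
    · exact Or.inl h0
    right
    rw [hD v hv]
    exact hm2 v hv x hx h0
  have hone : I * Jf P (-D) = 1 := by
    apply eq_one_of_forall
    · calc I * Jf P (-D) ≤ Jf P D * Jf P (-D) := by gcongr
        _ = 1 := Jf_mul_neg P D
    · intro v hv
      obtain ⟨x, hx, hx0, hxm⟩ := hm1 v hv
      obtain ⟨b, hb0, hbv, hb⟩ := exists_ord_eq_at P (-D) v hv
      refine ⟨x * b, FractionalIdeal.mul_mem_mul hx ((mem_Jf_of_ne_zero hb0).mpr hb),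
        mul_ne_zero hx0 hb0, ?_⟩
      rw [v.ord_mul hx0 hb0, hxm, hbv, Finsupp.neg_apply, hD v hv]
      ring
  refine ⟨D, hDP, ?_⟩
  calc I = I * (Jf P D * Jf P (-D)) := by rw [Jf_mul_neg, mul_one]
    _ = (I * Jf P (-D)) * Jf P D := by ring
    _ = Jf P D := by rw [hone, one_mul]

/-- The invertible fractional ideal attached to a divisor. -/
def Junit (P : Place K F) (D : Divisor K F) : (FractionalIdeal (holo P)⁰ F)ˣ where
  val := Jf P D
  inv := Jf P (-D)
  val_inv := Jf_mul_neg P D
  inv_val := by rw [mul_comm, Jf_mul_neg]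

@[simp]
theorem coe_Junit (P : Place K F) (D : Divisor K F) :
    ((Junit P D : (FractionalIdeal (holo P)⁰ F)ˣ) : FractionalIdeal (holo P)⁰ F) = Jf P D := rfl

/-- The class of the fractional ideal attached to a divisor. -/
def classHom (P : Place K F) : Divisor K F →+ Additive (ClassGroup (holo P)) where
  toFun D := Additive.ofMul (ClassGroup.mk F (Junit P D))
  map_zero' := by
    have : Junit P (0 : Divisor K F) = 1 := Units.ext (Jf_zero P)
    rw [this, map_one]
    rfl
  map_add' D E := by
    have : Junit P (D + E) = Junit P D * Junit P E := Units.ext (Jf_add P D E)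
    rw [this, map_mul]
    rfl

theorem classHom_apply (P : Place K F) (D : Divisor K F) :
    classHom P D = Additive.ofMul (ClassGroup.mk F (Junit P D)) := rfl

theorem classHom_eq_zero_iff {P : Place K F} {D : Divisor K F} :
    classHom P D = 0 ↔ ∃ f : F, f ≠ 0 ∧ ∀ v : Place K F, v ≠ P → D v = v.ord f := by
  rw [classHom_apply, ← ofMul_one, Additive.ofMul.injective.eq_iff, ClassGroup.mk_eq_one_iff]
  constructor
  · rintro ⟨x, hx⟩
    have h1 : Jf P D = FractionalIdeal.spanSingleton (holo P)⁰ x := by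
      apply FractionalIdeal.coeToSubmodule_injective
      show ((Jf P D : FractionalIdeal (holo P)⁰ F) : Submodule (holo P) F) =
        ((FractionalIdeal.spanSingleton (holo P)⁰ x : FractionalIdeal (holo P)⁰ F) :
          Submodule (holo P) F)
      rw [FractionalIdeal.coe_spanSingleton]
      exact hx
    have hx0 : x ≠ 0 := by
      rintro rfl
      rw [FractionalIdeal.spanSingleton_zero] at h1
      have h2 := Jf_mul_neg P D
      rw [h1, zero_mul] at h2
      exact zero_ne_one h2
    rw [← Jf_divOf P hx0, Jf_eq_iff] at h1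
    refine ⟨x, hx0, fun v hv => ?_⟩
    rw [h1 v hv, divOf_apply]
  · rintro ⟨f, hf, h⟩
    have h1 : Jf P D = FractionalIdeal.spanSingleton (holo P)⁰ f := by
      rw [← Jf_divOf P hf, Jf_eq_iff]
      intro v hv
      rw [h v hv, divOf_apply]
    refine ⟨f, ?_⟩
    have h2 := congrArg (fun I : FractionalIdeal (holo P)⁰ F => (I : Submodule (holo P) F)) h1
    simp only [FractionalIdeal.coe_spanSingleton] at h2
    exact h2

theorem classHom_single_self (P : Place K F) (n : ℤ) :
    classHom P (Finsupp.single P n) = 0 := by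
  rw [classHom_eq_zero_iff]
  refine ⟨1, one_ne_zero, fun v hv => ?_⟩
  simp [hv]

theorem classHom_surjective (P : Place K F) : Function.Surjective (classHom P) := by
  intro c
  obtain ⟨c, rfl⟩ := Additive.ofMul.surjective c
  refine ClassGroup.induction (K := F) (P := fun c => ∃ D, classHom P D = Additive.ofMul c)
    (fun I => ?_) c
  have hI : (I : FractionalIdeal (holo P)⁰ F) ≠ 0 := by
    intro h0
    have h1 := I.mul_inv
    rw [h0, zero_mul] at h1
    exact zero_ne_one h1
  obtain ⟨D, -, hD⟩ := exists_eq_Jf hI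
  refine ⟨D, ?_⟩
  have h2 : Junit P D = I := Units.ext hD.symm
  rw [classHom_apply, h2]

/-- The homomorphism from degree-zero divisors to the class group. -/
def degZeroClassHom (P : Place K F) :
    Divisor.degZero (K := K) (F := F) →+ Additive (ClassGroup (holo P)) :=
  (classHom P).comp (AddSubgroup.subtype _)

theorem degZeroClassHom_surjective (P : Place K F) :
    Function.Surjective (degZeroClassHom P) := by
  intro c
  obtain ⟨D, rfl⟩ := classHom_surjective P c
  refine ⟨⟨D - Finsupp.single P (Divisor.degree D), ?_⟩, ?_⟩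
  · rw [Divisor.mem_degZero, map_sub, degree_single_one, sub_self]
  · show classHom P (D - Finsupp.single P (Divisor.degree D)) = _
    rw [map_sub, classHom_single_self, sub_zero]

theorem degZeroClassHom_eq_zero_iff {P : Place K F} {D : Divisor.degZero (K := K) (F := F)} :
    degZeroClassHom P D = 0 ↔ (D : Divisor K F) ∈ Divisor.principal (K := K) (F := F) := by
  show classHom P (D : Divisor K F) = 0 ↔ _
  rw [classHom_eq_zero_iff, Divisor.mem_principal]
  constructor
  · rintro ⟨f, hf, h⟩
    refine ⟨f, hf, fun v => ?_⟩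
    by_cases hv : v = P
    · subst hv
      -- compare degrees
      have h1 : (D : Divisor K F) - divOf f =
          Finsupp.single v ((D : Divisor K F) v - v.ord f) := by
        ext w
        by_cases hw : w = v
        · subst hw
          simp
        · rw [Finsupp.single_eq_of_ne hw, Finsupp.sub_apply, divOf_apply, h w hw, sub_self]
      have h2 := congrArg (Divisor.degree (K := K) (F := F)) h1
      have h3 : Divisor.degree (D : Divisor K F) = 0 := D.2
      rw [map_sub, degree_divOf, h3, sub_zero, degree_single_one] at h2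
      linarith
    · exact h v hv
  · rintro ⟨f, hf, h⟩
    exact ⟨f, hf, fun v _ => h v⟩

/-- **The degree-zero divisor class group is the ideal class group of the holomorphy ring.** -/
def pic0Equiv (P : Place K F) : Pic0 K F ≃+ Additive (ClassGroup (holo P)) :=
  AddEquiv.ofBijective
    (QuotientAddGroup.lift _ (degZeroClassHom P) (by
      intro D hD
      rw [AddSubgroup.mem_addSubgroupOf] at hD
      exact degZeroClassHom_eq_zero_iff.mpr hD))
    (by
      constructor
      · rw [injective_iff_map_eq_zero]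
        intro x
        induction x using QuotientAddGroup.induction_on with
        | H D =>
          intro h
          rw [QuotientAddGroup.lift_mk] at h
          rw [QuotientAddGroup.eq_zero_iff, AddSubgroup.mem_addSubgroupOf]
          exact degZeroClassHom_eq_zero_iff.mp h
      · intro c
        obtain ⟨D, hD⟩ := degZeroClassHom_surjective P c
        exact ⟨QuotientAddGroup.mk D, hD⟩)

theorem pic0Equiv_mk (P : Place K F) (D : Divisor.degZero (K := K) (F := F)) :
    pic0Equiv P (Pic0.mk D) = classHom P (D : Divisor K F) := rfl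

end Fermat.Agent.RR
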