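import Fermat.Agent.RR.Divisors

/-!
# The degree of the divisor of poles of `x` is `[F : K(x)]`, and lower bounds for `L(mB + C)`
-/

set_option autoImplicit false

noncomputable section

open WithZero IsLocalRing AlgebraicCurve IntermediateField Polynomial
open scoped IntermediateField.algebraAdjoinAdjoin

namespace Fermat.Agent.RR

variable {K F : Type*} [Field K] [Field F] [Algebra K F]

/-- If `f ≠ 0` and `g` is zero or of bigger order, then `f + g ≠ 0`. -/
theorem add_ne_zero_of_ord_lt (v : Place K F) {f g : F} (hf : f ≠ 0)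
    (h : g = 0 ∨ v.ord f < v.ord g) : f + g ≠ 0 := by
  intro h0
  have hg : g = -f := by linear_combination h0
  rcases h with h | h
  · rw [h] at hg
    exact hf (neg_eq_zero.mp hg.symm)
  · rw [hg, ord_neg] at h
    exact lt_irrefl _ h

theorem exists_small_order (S : Finset (Place K F)) (e : Place K F → ℕ)
    (u : (Σ v : S, Fin (e v)) → F)
    (hu0 : ∀ k, u k ≠ 0)
    (hu1 : ∀ k : (Σ v : S, Fin (e v)), k.1.1.ord (u k) = ((k.2 : ℕ) : ℤ))
    (hu2 : ∀ k : (Σ v : S, Fin (e v)), ∀ w ∈ S, w ≠ k.1.1 → (e w : ℤ) ≤ w.ord (u k))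
    (c : (Σ v : S, Fin (e v)) → K) (hc : c ≠ 0) :
    ∃ v ∈ S, ∑ k, c k • u k ≠ 0 ∧ v.ord (∑ k, c k • u k) < e v := by
  classical
  obtain ⟨k₁, hk₁⟩ := Function.ne_iff.mp hc
  obtain ⟨k₀, hk₀, hmin⟩ := Finset.exists_min_image
    (Finset.univ.filter fun k => c k ≠ 0) (fun k => (k.2 : ℕ)) ⟨k₁, by simpa using hk₁⟩
  rw [Finset.mem_filter] at hk₀
  have hk₀ := hk₀.2
  set v := k₀.1.1 with hv
  have hf : c k₀ • u k₀ ≠ 0 := smul_ne_zero hk₀ (hu0 _)
  have hfo : v.ord (c k₀ • u k₀) = (k₀.2 : ℕ) := by
    rw [ord_smul v hk₀, hu1]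
  have hrest : ∑ k ∈ Finset.univ.erase k₀, c k • u k = 0 ∨
      ((k₀.2 : ℕ) : ℤ) + 1 ≤ v.ord (∑ k ∈ Finset.univ.erase k₀, c k • u k) := by
    apply ord_sum_ge
    intro k hk
    rw [Finset.mem_erase] at hk
    by_cases hck : c k = 0
    · left
      rw [hck, zero_smul]
    right
    rw [ord_smul v hck]
    have hle := hmin k (by simpa using hck)
    by_cases hkv : k.1 = k₀.1
    · have h1 : v = k.1.1 := by rw [hv, hkv]
      rw [h1, hu1]
      have hne : (k.2 : ℕ) ≠ (k₀.2 : ℕ) := by
        intro h2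
        apply hk.1
        obtain ⟨kv, ki⟩ := k
        obtain ⟨kv', ki'⟩ := k₀
        simp only at hkv h2
        subst hkv
        congr 1
        exact Fin.ext h2
      omega
    · have h1 : v ≠ k.1.1 := fun h => hkv (Subtype.ext h.symm)
      have h2 := hu2 k v k₀.1.2 h1
      have h3 := k₀.2.2
      have h4 : ((k₀.2 : ℕ) : ℤ) + 1 ≤ (e v : ℤ) := by
        have : (k₀.2 : ℕ) + 1 ≤ e v := h3
        exact_mod_cast this
      linarith
  have hlt : ∑ k ∈ Finset.univ.erase k₀, c k • u k = 0 ∨
      v.ord (c k₀ • u k₀) < v.ord (∑ k ∈ Finset.univ.erase k₀, c k • u k) := by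
    rcases hrest with h | h
    · exact Or.inl h
    · right
      rw [hfo]
      omega
  refine ⟨v, k₀.1.2, ?_, ?_⟩
  · rw [← Finset.add_sum_erase _ _ (Finset.mem_univ k₀)]
    exact add_ne_zero_of_ord_lt v hf hlt
  · rw [← Finset.add_sum_erase _ _ (Finset.mem_univ k₀), ord_add_eq_of_lt v hf hlt, hfo]
    exact_mod_cast k₀.2.2

theorem exists_family (S : Finset (Place K F)) (e : Place K F → ℕ) :
    ∃ u : (Σ v : S, Fin (e v)) → F, (∀ k, u k ≠ 0) ∧
      (∀ k : (Σ v : S, Fin (e v)), k.1.1.ord (u k) = ((k.2 : ℕ) : ℤ)) ∧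
      (∀ k : (Σ v : S, Fin (e v)), ∀ w ∈ S, w ≠ k.1.1 → (e w : ℤ) ≤ w.ord (u k)) := by
  classical
  have key : ∀ k : (Σ v : S, Fin (e v)), ∃ f : F, f ≠ 0 ∧ k.1.1.ord f = (k.2 : ℕ) ∧
      ∀ w ∈ S, w ≠ k.1.1 → (e w : ℤ) ≤ w.ord f := by
    intro k
    obtain ⟨t, ht0, ht⟩ := exists_ord_eq k.1.1 (k.2 : ℕ)
    obtain ⟨f, hf⟩ := weak_approximation S (fun w => if w = k.1.1 then t else 0)
      ((S.sup e : ℕ) + 1 : ℤ)
    have h1 := hf k.1.1 k.1.2
    simp only [if_true] at h1
    have hle : (k.2 : ℕ) < S.sup e := lt_of_lt_of_le k.2.2 (Finset.le_sup k.1.2)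
    have h2 : f - t = 0 ∨ k.1.1.ord t < k.1.1.ord (f - t) := by
      rcases h1 with h1 | h1
      · exact Or.inl h1
      · right
        rw [ht]
        omega
    have h3 : f = t + (f - t) := by ring
    have hf0 : f ≠ 0 := by
      rw [h3]
      exact add_ne_zero_of_ord_lt _ ht0 h2
    refine ⟨f, hf0, ?_, ?_⟩
    · rw [h3, ord_add_eq_of_lt _ ht0 h2, ht]
    · intro w hw hne
      have h4 := hf w hw
      simp only [hne, if_false, sub_zero] at h4
      have h5 := h4.resolve_left hf0
      have h6 : e w ≤ S.sup e := Finset.le_sup hw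
      omega
  choose u hu using key
  exact ⟨u, fun k => (hu k).1, fun k => (hu k).2.1, fun k => (hu k).2.2⟩

theorem aeval_mem (v : Place K F) {y : F} (hy : y ∈ v.toValuationSubring) (p : K[X]) :
    aeval y p ∈ v.toValuationSubring := by
  induction p using Polynomial.induction_on' with
  | add p q hp hq =>
    rw [map_add]
    exact add_mem hp hq
  | monomial n a =>
    rw [aeval_monomial]
    exact mul_mem (v.algebraMap_mem' a) (pow_mem hy n)

theorem linearIndependent_family (S : Finset (Place K F)) (e : Place K F → ℕ)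
    (u : (Σ v : S, Fin (e v)) → F)
    (hu0 : ∀ k, u k ≠ 0)
    (hu1 : ∀ k : (Σ v : S, Fin (e v)), k.1.1.ord (u k) = ((k.2 : ℕ) : ℤ))
    (hu2 : ∀ k : (Σ v : S, Fin (e v)), ∀ w ∈ S, w ≠ k.1.1 → (e w : ℤ) ≤ w.ord (u k))
    {y : F} (hy0 : y ≠ 0) (hy : ∀ v ∈ S, v.ord y = e v) :
    LinearIndependent (Algebra.adjoin K {y}) u := by
  classical
  have humem : ∀ k, ∀ w ∈ S, u k ∈ w.toValuationSubring := by
    intro k w hw
    rw [mem_iff_ord_nonneg]
    by_cases h : w = k.1.1
    · rw [h, hu1]
      exact Int.natCast_nonneg _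
    · exact (Int.natCast_nonneg _).trans (hu2 k w hw h)
  have hymem : ∀ w ∈ S, y ∈ w.toValuationSubring := by
    intro w hw
    rw [mem_iff_ord_nonneg, hy w hw]
    exact Int.natCast_nonneg _
  have key : ∀ n : ℕ, ∀ p : (Σ v : S, Fin (e v)) → K[X], (∀ k, (p k).degree < n) →
      ∑ k, aeval y (p k) * u k = 0 → ∀ k, p k = 0 := by
    intro n
    induction n with
    | zero =>
      intro p hp _ k
      have := hp k
      simpa using this
    | succ n ih =>
      intro p hp hsum
      -- split off the constant terms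
      have hsplit : ∑ k, (p k).coeff 0 • u k + y * ∑ k, aeval y (divX (p k)) * u k = 0 := by
        rw [← hsum, Finset.mul_sum, ← Finset.sum_add_distrib]
        apply Finset.sum_congr rfl
        intro k _
        conv_rhs => rw [← divX_mul_X_add (p k)]
        rw [map_add, map_mul, aeval_X, aeval_C, Algebra.smul_def]
        ring
      have hc : (fun k => (p k).coeff 0) = 0 := by
        by_contra hc
        obtain ⟨v, hv, hne, hlt⟩ := exists_small_order S e u hu0 hu1 hu2 _ hc
        have h1 : ∑ k, (p k).coeff 0 • u k = -(y * ∑ k, aeval y (divX (p k)) * u k) := by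
          linear_combination hsplit
        have h2 : (∑ k, aeval y (divX (p k)) * u k) ∈ v.toValuationSubring :=
          sum_mem fun k _ => mul_mem (aeval_mem v (hymem v hv) _) (humem k v hv)
        have h3 : (∑ k, aeval y (divX (p k)) * u k) ≠ 0 := by
          intro h0
          rw [h0, mul_zero, neg_zero] at h1
          exact hne h1
        rw [h1, ord_neg, v.ord_mul hy0 h3, hy v hv] at hlt
        have := ord_nonneg_of_mem v h2
        omega
      have hc' : ∀ k, (p k).coeff 0 = 0 := fun k => congrFun hc k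
      have h1 : ∑ k, aeval y (divX (p k)) * u k = 0 := by
        simp only [hc', zero_smul, Finset.sum_const_zero, zero_add] at hsplit
        exact (mul_eq_zero.mp hsplit).resolve_left hy0
      have h2 := ih (fun k => divX (p k)) (fun k => by
        by_cases h0 : p k = 0
        · rw [h0, divX_zero, degree_zero]
          exact bot_lt_iff_ne_bot.mpr (by simp)
        · have hlt := degree_divX_lt h0
          have h3 := hp k
          rw [degree_eq_natDegree h0] at h3
          have h4 : (p k).degree ≤ n := by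
            rw [degree_eq_natDegree h0]
            have h5 : (p k).natDegree < n + 1 := by exact_mod_cast h3
            exact_mod_cast Nat.le_of_lt_succ h5
          exact lt_of_lt_of_le hlt h4) h1
      intro k
      rw [← divX_mul_X_add (p k), h2 k, hc' k]
      simp
  rw [Fintype.linearIndependent_iff]
  intro g hg
  have hex : ∀ k, ∃ p : K[X], aeval y p = (g k : F) := by
    intro k
    have := (g k).2
    have h2 : ((g k : F)) ∈ (aeval (R := K) y).range := by
      rw [← Algebra.adjoin_singleton_eq_range_aeval]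
      exact this
    exact h2
  choose p hp using hex
  have h1 : ∑ k, aeval y (p k) * u k = 0 := by
    rw [← hg]
    apply Finset.sum_congr rfl
    intro k _
    rw [hp k]
    rfl
  obtain ⟨N, hN⟩ : ∃ N : ℕ, ∀ k, (p k).degree < N := by
    refine ⟨(Finset.univ.sup fun k => (p k).natDegree) + 1, fun k => ?_⟩
    apply lt_of_le_of_lt degree_le_natDegree
    have : (p k).natDegree ≤ Finset.univ.sup fun k => (p k).natDegree :=
      Finset.le_sup (f := fun k => (p k).natDegree) (Finset.mem_univ k)
    exact_mod_cast Nat.lt_succ_of_le this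
  intro k
  have h2 := key N p hN h1 k
  have h3 := hp k
  rw [h2, map_zero] at h3
  exact Subtype.ext h3.symm

/-- `∑ e_v ≤ [F : K(y)]`, the sum being over any finite set of zeros of `y`. -/
theorem sum_le_finrank (S : Finset (Place K F)) (e : Place K F → ℕ)
    {y : F} (hy0 : y ≠ 0) (hy : ∀ v ∈ S, v.ord y = e v) [FiniteDimensional K⟮y⟯ F] :
    ∑ v ∈ S, e v ≤ Module.finrank K⟮y⟯ F := by
  classical
  obtain ⟨u, hu0, hu1, hu2⟩ := exists_family S e
  have h := linearIndependent_family S e u hu0 hu1 hu2 hy0 hy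
  rw [LinearIndependent.iff_fractionRing (Algebra.adjoin K {y}) K⟮y⟯] at h
  have := h.fintype_card_le_finrank
  rw [Fintype.card_sigma] at this
  simp only [Fintype.card_fin] at this
  rwa [Finset.sum_coe_sort S e] at this

theorem adjoin_inv (x : F) : K⟮x⁻¹⟯ = K⟮x⟯ := by
  apply le_antisymm
  · rw [adjoin_simple_le_iff]
    exact inv_mem (mem_adjoin_simple_self K x)
  · rw [adjoin_simple_le_iff]
    have := inv_mem (mem_adjoin_simple_self K x⁻¹)
    rwa [inv_inv] at this

section

variable [IsAlgClosed K] [FunctionField K F]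

/-- The degree of the divisor of poles of `x` is at most `[F : K(x)]`. -/
theorem degree_polesOf_le {x : F} (hx : x ≠ 0) [FiniteDimensional K⟮x⟯ F] :
    Divisor.degree (polesOf (K := K) x) ≤ Module.finrank K⟮x⟯ F := by
  have hfin : FiniteDimensional K⟮x⁻¹⟯ F := by
    rw [adjoin_inv]
    infer_instance
  have h := sum_le_finrank (K := K) (polesOf (K := K) x).support
    (fun v => (polesOf (K := K) x v).toNat) (y := x⁻¹) (inv_ne_zero hx) (by
      intro v hv
      rw [Finsupp.mem_support_iff, polesOf_apply] at hv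
      rw [v.ord_inv, polesOf_apply]
      omega)
  rw [adjoin_inv] at h
  rw [degree_eq_sum, Finsupp.sum]
  have h1 : ∀ v ∈ (polesOf (K := K) x).support,
      polesOf (K := K) x v = (((polesOf (K := K) x v).toNat : ℕ) : ℤ) := by
    intro v _
    rw [Int.toNat_of_nonneg (polesOf_nonneg x v)]
  rw [Finset.sum_congr rfl h1]
  exact_mod_cast h

end

theorem linearIndependent_pow_of_transcendental {x : F} (hx : Transcendental K x) :
    LinearIndependent K (fun n : ℕ => x ^ n) := by
  have h1 : LinearIndependent K (fun n : ℕ => (X : K[X]) ^ n) := by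
    have := (Polynomial.basisMonomials K).linearIndependent
    simpa [Polynomial.coe_basisMonomials, Polynomial.monomial_one_right_eq_X_pow] using this
  have h2 := h1.map' (aeval x).toLinearMap
    (LinearMap.ker_eq_bot.mpr (transcendental_iff_injective.mp hx))
  have h3 : (⇑(aeval x).toLinearMap ∘ fun n : ℕ => (X : K[X]) ^ n) = fun n : ℕ => x ^ n := by
    ext n
    simp
  rw [h3] at h2
  exact h2

section

variable [IsAlgClosed K] [FunctionField K F]

/-- Lower bound for `ℓ(mB + C)`. -/
theorem exists_lower_bound {x : F} (hx : Transcendental K x) [FiniteDimensional K⟮x⟯ F] :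
    ∃ C : Divisor K F, 0 ≤ C ∧ ∀ m : ℕ, (m + 1) * Module.finrank K⟮x⟯ F ≤
      Module.finrank K (riemannRochSpace (m • polesOf x + C)) := by
  classical
  let w := Module.finBasis K⟮x⟯ F
  refine ⟨∑ i, polesOf (w i), Finset.sum_nonneg fun i _ => polesOf_nonneg _, fun m => ?_⟩
  have hx0 : x ≠ 0 := by
    rintro rfl
    exact hx (isAlgebraic_zero)
  have hmem : ∀ p : Fin (m + 1) × Fin (Module.finrank K⟮x⟯ F),
      x ^ (p.1 : ℕ) * w p.2 ∈ riemannRochSpace (m • polesOf x + ∑ i, polesOf (K := K) (w i)) := by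
    rintro ⟨j, i⟩
    rw [mem_riemannRochSpace_iff]
    intro v
    right
    rw [v.ord_mul (pow_ne_zero _ hx0) (w.ne_zero i), ord_pow]
    simp only [Finsupp.coe_add, Pi.add_apply, Finsupp.coe_smul, Pi.smul_apply,
      polesOf_apply, Finsupp.finsetSum_apply]
    have h1 : max (-v.ord (w i)) 0 ≤ ∑ i, max (-v.ord (w i)) 0 :=
      Finset.single_le_sum (f := fun i => max (-v.ord (w i)) 0)
        (fun i _ => le_max_right _ _) (Finset.mem_univ i)
    have h2 : -v.ord (w i) ≤ max (-v.ord (w i)) 0 := le_max_left _ _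
    have h3 : -((j : ℕ) * v.ord x) ≤ m • max (-v.ord x) 0 := by
      rw [nsmul_eq_mul]
      have hj : ((j : ℕ) : ℤ) ≤ m := by
        have := j.2
        omega
      have h4 : -v.ord x ≤ max (-v.ord x) 0 := le_max_left _ _
      have h5 : 0 ≤ max (-v.ord x) 0 := le_max_right _ _
      calc -(((j : ℕ) : ℤ) * v.ord x) = ((j : ℕ) : ℤ) * (-v.ord x) := by ring
        _ ≤ ((j : ℕ) : ℤ) * max (-v.ord x) 0 :=
          mul_le_mul_of_nonneg_left h4 (Int.natCast_nonneg _)
        _ ≤ m * max (-v.ord x) 0 := mul_le_mul_of_nonneg_right hj h5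
    linarith
  have hb : LinearIndependent K (fun j : Fin (m + 1) => (AdjoinSimple.gen K x) ^ (j : ℕ)) := by
    have h1 := (linearIndependent_pow_of_transcendental hx).comp (fun j : Fin (m + 1) => (j : ℕ))
      Fin.val_injective
    apply LinearIndependent.of_comp (K⟮x⟯.val.toLinearMap)
    have h2 : (⇑(K⟮x⟯.val.toLinearMap) ∘
        fun j : Fin (m + 1) => (AdjoinSimple.gen K x) ^ (j : ℕ)) =
        ((fun n : ℕ => x ^ n) ∘ fun j : Fin (m + 1) => (j : ℕ)) := by
      ext j
      simp
    rw [h2]
    exact h1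
  have hli := linearIndependent_smul hb w.linearIndependent
  have hli' : LinearIndependent K (fun p : Fin (m + 1) × Fin (Module.finrank K⟮x⟯ F) =>
      (⟨x ^ (p.1 : ℕ) * w p.2, hmem p⟩ :
        riemannRochSpace (m • polesOf x + ∑ i, polesOf (K := K) (w i)))) := by
    apply LinearIndependent.of_comp (Submodule.subtype _)
    have h2 : (⇑(Submodule.subtype (riemannRochSpace (m • polesOf x + ∑ i, polesOf (K := K) (w i)))) ∘
        fun p : Fin (m + 1) × Fin (Module.finrank K⟮x⟯ F) =>
      (⟨x ^ (p.1 : ℕ) * w p.2, hmem p⟩ :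
        riemannRochSpace (m • polesOf x + ∑ i, polesOf (K := K) (w i)))) =
        fun p : Fin (m + 1) × Fin (Module.finrank K⟮x⟯ F) =>
          (AdjoinSimple.gen K x) ^ (p.1 : ℕ) • w p.2 := by
      ext p
      simp only [Function.comp_apply, Submodule.subtype_apply]
      rw [Algebra.smul_def, map_pow]
      rfl
    rw [h2]
    exact hli
  have := hli'.fintype_card_le_finrank
  rwa [Fintype.card_prod, Fintype.card_fin, Fintype.card_fin] at this

end

end Fermat.Agent.RR
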