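import Mathlib
import Fermat.Prelude.Def_AlgebraicCurve_DivisorClassGroup
import Fermat.Prelude.Def_AlgebraicCurve_IsCurveOver
import Fermat.Prelude.Def_AlgebraicCurve_Repartitions

/-!
# Basic facts about places of function fields

Order function of a place, weak approximation for places.
-/

set_option autoImplicit false

noncomputable section

open WithZero IsLocalRing AlgebraicCurve

namespace Fermat.Agent.RR

variable {K F : Type*} [Field K] [Field F] [Algebra K F] (v : Place K F)

theorem mem_iff_adicValuation {f : F} :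
    f ∈ v.toValuationSubring ↔ v.adicValuation f ≤ 1 := by
  constructor
  · exact fun h => v.adicValuation_le_one_of_mem h
  · intro h
    by_contra hf
    have hf0 : f ≠ 0 := fun h0 => hf (h0 ▸ v.toValuationSubring.zero_mem)
    have hinv : f⁻¹ ∈ v.toValuationSubring :=
      (v.toValuationSubring.mem_or_inv_mem f).resolve_left hf
    have hle := v.adicValuation_le_one_of_mem hinv
    rw [map_inv₀] at hle
    have hv0 : v.adicValuation f ≠ 0 := v.adicValuation_ne_zero hf0
    have h1 : v.adicValuation f = 1 := by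
      apply le_antisymm h
      have := (inv_le_one₀ (zero_lt_iff.mpr hv0)).mp hle
      exact this
    have hinv1 : v.adicValuation ((⟨f⁻¹, hinv⟩ : v.toValuationSubring) : F) = 1 := by
      simp [h1]
    have hu := (v.adicValuation_coe_eq_one_iff _).mp hinv1
    obtain ⟨b, hb⟩ := hu.exists_right_inv
    have hb' : f⁻¹ * (b : F) = 1 := by
      have h := congrArg (Subtype.val) hb
      simpa using h
    have hbx : (b : F) = f := by
      field_simp at hb'
      exact hb'
    exact hf (hbx ▸ b.2)

theorem mem_iff_ord {f : F} : f ∈ v.toValuationSubring ↔ f = 0 ∨ 0 ≤ v.ord f := by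
  rw [mem_iff_adicValuation, v.adicValuation_le_one_iff]

theorem mem_of_ord_nonneg {f : F} (h : 0 ≤ v.ord f) : f ∈ v.toValuationSubring :=
  (mem_iff_ord v).mpr (Or.inr h)

theorem ord_nonneg_of_mem {f : F} (h : f ∈ v.toValuationSubring) : 0 ≤ v.ord f := by
  rcases (mem_iff_ord v).mp h with h | h
  · simp [h]
  · exact h

theorem mem_iff_ord_nonneg {f : F} : f ∈ v.toValuationSubring ↔ 0 ≤ v.ord f :=
  ⟨ord_nonneg_of_mem v, mem_of_ord_nonneg v⟩

theorem ord_add {f g : F} (hfg : f + g ≠ 0) :
    min (v.ord f) (v.ord g) ≤ v.ord (f + g) := by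
  rcases eq_or_ne f 0 with rfl | hf
  · simp
  rcases eq_or_ne g 0 with rfl | hg
  · simp
  have h := v.adicValuation.map_add f g
  rw [v.adicValuation_eq_exp_neg_ord hf, v.adicValuation_eq_exp_neg_ord hg,
    v.adicValuation_eq_exp_neg_ord hfg] at h
  rw [le_max_iff, exp_le_exp, exp_le_exp] at h
  rw [min_le_iff]
  omega

@[simp]
theorem ord_neg (f : F) : v.ord (-f) = v.ord f := by
  simp [Place.ord, Valuation.map_neg]

theorem ord_sub_comm (f g : F) : v.ord (f - g) = v.ord (g - f) := by
  rw [← ord_neg, neg_sub]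

theorem ord_sub {f g : F} (hfg : f - g ≠ 0) :
    min (v.ord f) (v.ord g) ≤ v.ord (f - g) := by
  rw [sub_eq_add_neg] at hfg ⊢
  simpa using ord_add v hfg

theorem ord_algebraMap (a : K) : v.ord (algebraMap K F a) = 0 := by
  rcases eq_or_ne a 0 with rfl | ha
  · simp
  have h1 := ord_nonneg_of_mem v (v.algebraMap_mem' a)
  have h2 := ord_nonneg_of_mem v (v.algebraMap_mem' a⁻¹)
  rw [map_inv₀, v.ord_inv] at h2
  omega

theorem ord_smul {a : K} (ha : a ≠ 0) (f : F) : v.ord (a • f) = v.ord f := by
  rcases eq_or_ne f 0 with rfl | hf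
  · simp
  rw [Algebra.smul_def, v.ord_mul (by simpa using ha) hf, ord_algebraMap, zero_add]

theorem exists_ord_eq_one : ∃ t : F, v.ord t = 1 := by
  obtain ⟨π, hπ⟩ := IsDiscreteValuationRing.exists_irreducible v.toValuationSubring
  exact ⟨π, v.ord_coe_irreducible hπ⟩

theorem exists_ord_eq (n : ℤ) : ∃ t : F, t ≠ 0 ∧ v.ord t = n := by
  obtain ⟨t, ht⟩ := exists_ord_eq_one v
  refine ⟨t ^ n, zpow_ne_zero _ ?_, ?_⟩
  · rintro rfl
    simp at ht
  · rw [v.ord_zpow, ht, mul_one]

theorem ord_pow (f : F) (n : ℕ) : v.ord (f ^ n) = n * v.ord f := by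
  have := v.ord_zpow f n
  simpa using this

theorem ord_div {f g : F} (hf : f ≠ 0) (hg : g ≠ 0) :
    v.ord (f / g) = v.ord f - v.ord g := by
  rw [div_eq_mul_inv, v.ord_mul hf (inv_ne_zero hg), v.ord_inv]
  ring

theorem ord_add_eq_of_lt {f g : F} (hf : f ≠ 0) (h : g = 0 ∨ v.ord f < v.ord g) :
    v.ord (f + g) = v.ord f := by
  rcases eq_or_ne g 0 with rfl | hg
  · simp
  have h := h.resolve_left hg
  have hfg : f + g ≠ 0 := by
    intro h0
    have : g = -f := by linear_combination h0
    rw [this, ord_neg] at h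
    omega
  apply le_antisymm
  · by_contra hlt
    push Not at hlt
    have h1 : f + g - g ≠ 0 := by simpa using hf
    have := ord_sub v h1
    rw [add_sub_cancel_right] at this
    rw [min_le_iff] at this
    omega
  · have := ord_add v hfg
    rw [min_le_iff] at this
    omega

/-- If finitely many elements all have order at least `n` then so does their sum. -/
theorem ord_sum_ge {ι : Type*} (s : Finset ι) (f : ι → F) (n : ℤ)
    (h : ∀ i ∈ s, f i = 0 ∨ n ≤ v.ord (f i)) :
    ∑ i ∈ s, f i = 0 ∨ n ≤ v.ord (∑ i ∈ s, f i) := by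
  classical
  induction s using Finset.induction_on with
  | empty => simp
  | insert a s ha ih =>
    rw [Finset.sum_insert ha]
    have h1 := h a (Finset.mem_insert_self _ _)
    have h2 := ih fun i hi => h i (Finset.mem_insert_of_mem hi)
    by_cases hz : f a + ∑ i ∈ s, f i = 0
    · exact Or.inl hz
    right
    rcases h1 with h1 | h1
    · rw [h1, zero_add] at hz ⊢
      exact h2.resolve_left hz
    rcases h2 with h2 | h2
    · rw [h2, add_zero] at hz ⊢
      exact h1
    exact (le_min h1 h2).trans (ord_add v hz)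

/-- Criterion for membership in the maximal ideal. -/
theorem mem_maximalIdeal_iff {a : v.toValuationSubring} :
    a ∈ maximalIdeal v.toValuationSubring ↔ (a : F) = 0 ∨ 0 < v.ord (a : F) := by
  rw [IsLocalRing.mem_maximalIdeal, mem_nonunits_iff, ← v.adicValuation_coe_eq_one_iff]
  constructor
  · intro h
    rcases eq_or_ne (a : F) 0 with h0 | h0
    · exact Or.inl h0
    right
    have h1 := ord_nonneg_of_mem v a.2
    rcases h1.lt_or_eq with h2 | h2
    · exact h2
    · exfalso
      apply h
      rw [v.adicValuation_eq_exp_neg_ord h0, ← h2]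
      simp
  · rintro (h | h)
    · simp [h]
    · intro h1
      have h0 : (a : F) ≠ 0 := by
        intro h0
        simp [h0] at h
      rw [v.adicValuation_eq_exp_neg_ord h0] at h1
      have : v.ord (a : F) = 0 := by
        have := congrArg WithZero.log h1
        simpa using this
      omega

open Classical in
/-- The real absolute value attached to a place. -/
def absV : AbsoluteValue F ℝ where
  toFun f := if f = 0 then 0 else (2 : ℝ) ^ (-v.ord f)
  map_mul' f g := by
    rcases eq_or_ne f 0 with rfl | hf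
    · simp
    rcases eq_or_ne g 0 with rfl | hg
    · simp
    simp only [hf, hg, mul_ne_zero hf hg, if_false]
    rw [v.ord_mul hf hg, neg_add, zpow_add₀ (by norm_num)]
  nonneg' f := by
    show (0 : ℝ) ≤ if f = 0 then 0 else (2 : ℝ) ^ (-v.ord f)
    split_ifs
    · exact le_rfl
    · positivity
  eq_zero' f := by
    show (if f = 0 then (0 : ℝ) else (2 : ℝ) ^ (-v.ord f)) = 0 ↔ _
    split_ifs with h
    · simp [h]
    · simp only [h, iff_false]
      positivity
  add_le' f g := by
    rcases eq_or_ne f 0 with rfl | hf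
    · simp only [zero_add, if_true]; exact le_rfl
    rcases eq_or_ne g 0 with rfl | hg
    · simp only [add_zero, if_true]; exact le_rfl
    rcases eq_or_ne (f + g) 0 with h | h
    · simp only [h, hf, hg, if_true, if_false]
      positivity
    simp only [hf, hg, h, if_false]
    have h1 := ord_add v h
    rcases min_le_iff.mp h1 with h2 | h2
    · have : (2 : ℝ) ^ (-v.ord (f + g)) ≤ (2 : ℝ) ^ (-v.ord f) :=
        zpow_le_zpow_right₀ (by norm_num) (by omega)
      have h3 : (0 : ℝ) < (2 : ℝ) ^ (-v.ord g) := by positivity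
      linarith
    · have : (2 : ℝ) ^ (-v.ord (f + g)) ≤ (2 : ℝ) ^ (-v.ord g) :=
        zpow_le_zpow_right₀ (by norm_num) (by omega)
      have h3 : (0 : ℝ) < (2 : ℝ) ^ (-v.ord f) := by positivity
      linarith

theorem absV_apply {f : F} (hf : f ≠ 0) : absV v f = (2 : ℝ) ^ (-v.ord f) :=
  if_neg hf

theorem absV_lt_iff {f : F} {n : ℤ} : absV v f < (2 : ℝ) ^ (-n) ↔ f = 0 ∨ n < v.ord f := by
  rcases eq_or_ne f 0 with rfl | hf
  · simp
    positivity
  · rw [absV_apply v hf, zpow_lt_zpow_iff_right₀ (by norm_num)]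
    simp [hf]

theorem absV_le_one_iff {f : F} : absV v f ≤ 1 ↔ f ∈ v.toValuationSubring := by
  rcases eq_or_ne f 0 with rfl | hf
  · simp
  · rw [absV_apply v hf, mem_iff_ord_nonneg, zpow_le_one_iff_right₀ (by norm_num)]
    omega

theorem absV_isNontrivial : (absV v).IsNontrivial := by
  obtain ⟨t, ht⟩ := exists_ord_eq_one v
  have ht0 : t ≠ 0 := by
    rintro rfl
    simp at ht
  refine ⟨t, ht0, ?_⟩
  rw [absV_apply v ht0, ht]
  norm_num

theorem not_isEquiv_absV {v w : Place K F} (h : v ≠ w) : ¬ (absV v).IsEquiv (absV w) := by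
  intro he
  apply h
  apply Place.ext
  ext f
  rw [← absV_le_one_iff, ← absV_le_one_iff]
  exact he.le_one_iff

/-- **Weak approximation** for places. -/
theorem weak_approximation (S : Finset (Place K F)) (z : Place K F → F) (N : ℤ) :
    ∃ f : F, ∀ v ∈ S, f - z v = 0 ∨ N ≤ v.ord (f - z v) := by
  have h := AbsoluteValue.denseRange_algebraMap_pi (ι := {v // v ∈ S})
    (v := fun i : {v // v ∈ S} => absV i.1) (fun i => absV_isNontrivial i.1)
    (fun i j hij => not_isEquiv_absV (fun h => hij (Subtype.ext h)))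
  rw [Metric.denseRange_iff] at h
  obtain ⟨f, hf⟩ := h (fun i => (WithAbs.equiv (absV i.1)).symm (z i.1)) ((2 : ℝ) ^ (-(N - 1)))
    (by positivity)
  refine ⟨f, fun v hv => ?_⟩
  rw [dist_pi_lt_iff (by positivity)] at hf
  have h1 := hf ⟨v, hv⟩
  rw [dist_comm, dist_eq_norm] at h1
  have h2 : absV v (f - z v) < (2 : ℝ) ^ (-(N - 1)) := h1
  rw [absV_lt_iff] at h2
  rcases h2 with h2 | h2
  · exact Or.inl h2
  · exact Or.inr (by omega)

end Fermat.Agent.RR
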