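import Fermat.Agent.RR.HoloIdeal
import Fermat.Agent.MW.Basic

/-!
# A basis of the holomorphy ring adapted to the pole order
-/

set_option autoImplicit false
set_option linter.unusedSectionVars false

noncomputable section

open WithZero IsLocalRing AlgebraicCurve IntermediateField

namespace Fermat.Agent.RR

variable {K F : Type*} [Field K] [Field F] [Algebra K F]

/-- The set of pole orders of elements of the holomorphy ring. -/
def poleSet (P : Place K F) : Set ℕ :=
  {n | ∃ f : F, f ∈ holo P ∧ f ≠ 0 ∧ P.ord f = -(n : ℤ)}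

theorem zero_mem_poleSet (P : Place K F) : 0 ∈ poleSet P :=
  ⟨1, one_mem _, one_ne_zero, by simp⟩

theorem add_mem_poleSet {P : Place K F} {i j : ℕ} (hi : i ∈ poleSet P) (hj : j ∈ poleSet P) :
    i + j ∈ poleSet P := by
  obtain ⟨f, hf, hf0, hfi⟩ := hi
  obtain ⟨g, hg, hg0, hgj⟩ := hj
  refine ⟨f * g, mul_mem hf hg, mul_ne_zero hf0 hg0, ?_⟩
  rw [P.ord_mul hf0 hg0, hfi, hgj]
  push_cast
  ring

open Classical in
/-- An element of the holomorphy ring with pole order `n` (equal to `1` for `n = 0`). -/
def wfun (P : Place K F) (n : poleSet P) : holo P :=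
  if (n : ℕ) = 0 then 1 else ⟨n.2.choose, n.2.choose_spec.1⟩

theorem wfun_zero (P : Place K F) (n : poleSet P) (hn : (n : ℕ) = 0) : wfun P n = 1 := by
  unfold wfun
  rw [if_pos hn]

theorem coe_wfun_ne_zero (P : Place K F) (n : poleSet P) : ((wfun P n : holo P) : F) ≠ 0 := by
  unfold wfun
  split_ifs
  · exact one_ne_zero
  · exact n.2.choose_spec.2.1

theorem ord_wfun (P : Place K F) (n : poleSet P) :
    P.ord ((wfun P n : holo P) : F) = -((n : ℕ) : ℤ) := by
  unfold wfun
  split_ifs with h
  · rw [h]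
    show P.ord (1 : F) = _
    simp
  · exact n.2.choose_spec.2.2

theorem ord_sum_wfun (P : Place K F) (s : Finset (poleSet P)) (g : poleSet P → K)
    (m : poleSet P) (hm : m ∈ s) (hgm : g m ≠ 0) (hmax : ∀ n ∈ s, g n ≠ 0 → (n : ℕ) ≤ m) :
    (∑ n ∈ s, g n • ((wfun P n : holo P) : F)) ≠ 0 ∧
      P.ord (∑ n ∈ s, g n • ((wfun P n : holo P) : F)) = -((m : ℕ) : ℤ) := by
  classical
  have hf : g m • ((wfun P m : holo P) : F) ≠ 0 := smul_ne_zero hgm (coe_wfun_ne_zero P m)
  have hfo : P.ord (g m • ((wfun P m : holo P) : F)) = -((m : ℕ) : ℤ) := by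
    rw [ord_smul P hgm, ord_wfun]
  have hrest : ∑ n ∈ s.erase m, g n • ((wfun P n : holo P) : F) = 0 ∨
      -((m : ℕ) : ℤ) + 1 ≤ P.ord (∑ n ∈ s.erase m, g n • ((wfun P n : holo P) : F)) := by
    apply ord_sum_ge
    intro n hn
    rw [Finset.mem_erase] at hn
    by_cases hgn : g n = 0
    · left
      rw [hgn, zero_smul]
    right
    rw [ord_smul P hgn, ord_wfun]
    have h1 := hmax n hn.2 hgn
    have h2 : (n : ℕ) ≠ m := fun h => hn.1 (Subtype.ext h)
    omega
  have hlt : ∑ n ∈ s.erase m, g n • ((wfun P n : holo P) : F) = 0 ∨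
      P.ord (g m • ((wfun P m : holo P) : F)) <
        P.ord (∑ n ∈ s.erase m, g n • ((wfun P n : holo P) : F)) := by
    rcases hrest with h | h
    · exact Or.inl h
    · right
      rw [hfo]
      omega
  rw [← Finset.add_sum_erase _ _ hm]
  exact ⟨add_ne_zero_of_ord_lt P hf hlt, by rw [ord_add_eq_of_lt P hf hlt, hfo]⟩

theorem linearIndependent_wfun (P : Place K F) : LinearIndependent K (wfun P) := by
  classical
  rw [linearIndependent_iff']
  intro s g hg
  by_contra hcon
  push Not at hcon
  obtain ⟨i, hi, hgi⟩ := hcon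
  obtain ⟨m, hm, hmax⟩ := Finset.exists_max_image (s.filter fun n => g n ≠ 0)
    (fun n => (n : ℕ)) ⟨i, by simp [hi, hgi]⟩
  rw [Finset.mem_filter] at hm
  have h1 := (ord_sum_wfun P s g m hm.1 hm.2 (fun n hn hgn =>
    hmax n (by simp [hn, hgn]))).1
  apply h1
  have h2 := congrArg (fun x : holo P => (x : F)) hg
  simpa using h2

variable [IsAlgClosed K] [FunctionField K F]

theorem mem_poleSet_of_le {P : Place K F} {n : ℕ} (h : 2 * genusFF K F ≤ n) :
    n ∈ poleSet P := by
  obtain ⟨f, hf0, hf, hf'⟩ := exists_single_pole P h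
  exact ⟨f, mem_holo.mpr hf', hf0, hf⟩

theorem finite_compl_poleSet (P : Place K F) : (poleSet P)ᶜ.Finite := by
  apply (Set.finite_lt_nat (2 * genusFF K F)).subset
  intro n hn
  show n < 2 * genusFF K F
  by_contra h
  push Not at h
  exact hn (mem_poleSet_of_le h)

theorem pdeg_mem_poleSet {P : Place K F} {f : F} (hf : f ∈ holo P) (h0 : f ≠ 0) :
    pdeg P f ∈ poleSet P :=
  ⟨f, hf, h0, by rw [pdeg_eq hf, neg_neg]⟩

theorem span_wfun (P : Place K F) : ⊤ ≤ Submodule.span K (Set.range (wfun P)) := by
  have key : ∀ n : ℕ, ∀ f : holo P, pdeg P (f : F) < n →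
      f ∈ Submodule.span K (Set.range (wfun P)) := by
    intro n
    induction n with
    | zero =>
      intro f hf
      omega
    | succ n ih =>
      intro f hf
      by_cases h0 : (f : F) = 0
      · have : f = 0 := Subtype.ext h0
        rw [this]
        exact Submodule.zero_mem _
      obtain ⟨m, hm⟩ : ∃ m : poleSet P, (m : ℕ) = pdeg P (f : F) :=
        ⟨⟨_, pdeg_mem_poleSet f.2 h0⟩, rfl⟩
      have hfP := pdeg_eq f.2
      obtain ⟨c, hc⟩ := exists_smul_of_adicValuation P (f := (f : F))
        (g := ((wfun P m : holo P) : F)) (n := (m : ℕ) - 1) (by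
          rw [P.adicValuation_le_exp_iff]
          right
          omega) (by
          rw [P.adicValuation_le_exp_iff]
          right
          rw [ord_wfun]
          omega) (by
          rw [P.adicValuation_le_exp_iff, ord_wfun]
          push Not
          exact ⟨coe_wfun_ne_zero P m, by omega⟩)
      rw [P.adicValuation_le_exp_iff] at hc
      have h1 : f - c • wfun P m ∈ Submodule.span K (Set.range (wfun P)) := by
        by_cases hz : ((f : F) - c • ((wfun P m : holo P) : F)) = 0
        · have : f - c • wfun P m = 0 := Subtype.ext hz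
          rw [this]
          exact Submodule.zero_mem _
        · have hc := hc.resolve_left hz
          have h2 : ((f - c • wfun P m : holo P) : F) = (f : F) - c • ((wfun P m : holo P) : F) :=
            rfl
          have h3 := ord_nonpos_of_mem_holo (f - c • wfun P m).2 (by rw [h2]; exact hz)
          rw [h2] at h3
          apply ih
          rw [h2]
          unfold pdeg
          omega
      have h2 : c • wfun P m ∈ Submodule.span K (Set.range (wfun P)) :=
        Submodule.smul_mem _ _ (Submodule.subset_span ⟨m, rfl⟩)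
      have := add_mem h1 h2
      rwa [sub_add_cancel] at this
  intro f _
  exact key _ f (Nat.lt_succ_self _)

/-- The basis of the holomorphy ring adapted to pole orders. -/
def wbasis (P : Place K F) : Module.Basis (poleSet P) K (holo P) :=
  Module.Basis.mk (linearIndependent_wfun P) (span_wfun P)

@[simp]
theorem wbasis_apply (P : Place K F) (n : poleSet P) : wbasis P n = wfun P n := by
  unfold wbasis
  rw [Module.Basis.mk_apply]

theorem exists_max_repr {P : Place K F} {f : holo P} (h0 : f ≠ 0) :
    ∃ m : poleSet P, (wbasis P).repr f m ≠ 0 ∧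
      (∀ n, (wbasis P).repr f n ≠ 0 → (n : ℕ) ≤ m) ∧ pdeg P (f : F) = m := by
  classical
  have h1 : ((wbasis P).repr f).support.Nonempty := by
    rw [Finsupp.support_nonempty_iff]
    intro h
    exact h0 ((wbasis P).repr.map_eq_zero_iff.mp h)
  obtain ⟨m, hm, hmax⟩ := Finset.exists_max_image _ (fun n : poleSet P => (n : ℕ)) h1
  rw [Finsupp.mem_support_iff] at hm
  have hmax' : ∀ n, (wbasis P).repr f n ≠ 0 → (n : ℕ) ≤ m := fun n hn =>
    hmax n (Finsupp.mem_support_iff.mpr hn)
  have h2 := ord_sum_wfun P ((wbasis P).repr f).support (fun n => (wbasis P).repr f n) m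
    (Finsupp.mem_support_iff.mpr hm) hm (fun n _ hn => hmax' n hn)
  have h3 : (f : F) = ∑ n ∈ ((wbasis P).repr f).support,
      (wbasis P).repr f n • ((wfun P n : holo P) : F) := by
    have h4 := (wbasis P).linearCombination_repr f
    rw [Finsupp.linearCombination_apply, Finsupp.sum] at h4
    have h5 := congrArg (fun x : holo P => (x : F)) h4
    simp only [wbasis_apply] at h5
    rw [← h5]
    simp
  refine ⟨m, hm, hmax', ?_⟩
  unfold pdeg
  rw [h3, h2.2]
  omega

theorem repr_eq_zero_of_lt {P : Place K F} {f : holo P} {l : poleSet P}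
    (h : pdeg P (f : F) < l) : (wbasis P).repr f l = 0 := by
  by_contra hne
  have h0 : f ≠ 0 := by
    rintro rfl
    simp at hne
  obtain ⟨m, -, hmax, hm⟩ := exists_max_repr h0
  have := hmax l hne
  omega

theorem repr_ne_zero_of_eq {P : Place K F} {f : holo P} (h0 : f ≠ 0) {l : poleSet P}
    (h : pdeg P (f : F) = l) : (wbasis P).repr f l ≠ 0 := by
  obtain ⟨m, hm, -, hm'⟩ := exists_max_repr h0
  have : l = m := Subtype.ext (by rw [← h, hm'])
  rw [this]
  exact hm

theorem pdeg_mul {P : Place K F} {f g : F} (hf : f ∈ holo P) (hg : g ∈ holo P)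
    (hf0 : f ≠ 0) (hg0 : g ≠ 0) : pdeg P (f * g) = pdeg P f + pdeg P g := by
  have h1 := pdeg_eq hf
  have h2 := pdeg_eq hg
  have h3 := pdeg_eq (mul_mem hf hg)
  rw [P.ord_mul hf0 hg0] at h3
  omega

theorem pdeg_wfun (P : Place K F) (n : poleSet P) :
    pdeg P ((wfun P n : holo P) : F) = n := by
  unfold pdeg
  rw [ord_wfun]
  omega

theorem pdeg_zero (P : Place K F) : pdeg P (0 : F) = 0 := by
  unfold pdeg
  simp

theorem pdeg_algebraMap (P : Place K F) (c : K) : pdeg P (algebraMap K F c) = 0 := by
  unfold pdeg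
  rw [ord_algebraMap]
  simp

theorem pdeg_add_le {P : Place K F} (f g : F) :
    pdeg P (f + g) ≤ max (pdeg P f) (pdeg P g) := by
  by_cases h : f + g = 0
  · rw [h, pdeg_zero]
    exact Nat.zero_le _
  · have h1 := ord_add P h
    unfold pdeg
    rw [min_le_iff] at h1
    rw [le_max_iff]
    rcases h1 with h1 | h1
    · left
      omega
    · right
      omega

/-- The holomorphy ring as a curve algebra. -/
def curveAlg (P : Place K F) : Fermat.Agent.MW.CurveAlg K (holo P) where
  S := poleSet P
  b := wbasis P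
  zero_mem := zero_mem_poleSet P
  b_zero := by rw [wbasis_apply, wfun_zero P _ rfl]
  finite_compl := finite_compl_poleSet P
  add_mem := add_mem_poleSet
  repr_mul_of_lt := by
    intro i j l h
    apply repr_eq_zero_of_lt
    rw [wbasis_apply, wbasis_apply]
    show pdeg P (((wfun P i : holo P) : F) * ((wfun P j : holo P) : F)) < l
    rw [pdeg_mul (wfun P i).2 (wfun P j).2 (coe_wfun_ne_zero P i) (coe_wfun_ne_zero P j),
      pdeg_wfun, pdeg_wfun]
    exact h
  repr_mul_top := by
    intro i j
    apply repr_ne_zero_of_eq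
    · intro h
      rw [wbasis_apply, wbasis_apply] at h
      have h1 : ((wfun P i : holo P) : F) * ((wfun P j : holo P) : F) = 0 :=
        congrArg (fun x : holo P => (x : F)) h
      exact (mul_ne_zero (coe_wfun_ne_zero P i) (coe_wfun_ne_zero P j)) h1
    · rw [wbasis_apply, wbasis_apply]
      show pdeg P (((wfun P i : holo P) : F) * ((wfun P j : holo P) : F)) = _
      rw [pdeg_mul (wfun P i).2 (wfun P j).2 (coe_wfun_ne_zero P i) (coe_wfun_ne_zero P j),
        pdeg_wfun, pdeg_wfun]

theorem curveAlg_deg (P : Place K F) (f : holo P) : (curveAlg P).deg f = pdeg P (f : F) := by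
  by_cases h0 : f = 0
  · rw [h0, Fermat.Agent.MW.CurveAlg.deg_zero]
    exact (pdeg_zero P).symm
  · obtain ⟨m, hm, hmax, hm'⟩ := exists_max_repr h0
    rw [hm']
    apply (curveAlg P).deg_eq_of
    · rw [Fermat.Agent.MW.CurveAlg.mem_Fil]
      intro l hl
      by_cases hlS : l ∈ (curveAlg P).S
      · rw [(curveAlg P).coef_of_mem hlS]
        exact repr_eq_zero_of_lt (f := f) (l := ⟨l, hlS⟩) (by rw [hm']; exact hl)
      · exact (curveAlg P).coef_of_notMem hlS f
    · rw [(curveAlg P).coef_of_mem m.2]
      exact hm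

/-- Elements of the ring with pole order at most `n` form `L(nP)`. -/
def filHoloEquiv (P : Place K F) (n : ℕ) :
    (curveAlg P).Fil n ≃ₗ[K] riemannRochSpace (Finsupp.single P (n : ℤ) : Divisor K F) where
  toFun f := ⟨(f.1 : F), by
    rw [mem_riemannRochSpace_single_iff]
    refine ⟨f.1.2, Or.inr ?_⟩
    have h1 := (curveAlg P).mem_Fil_iff_deg_le.mp f.2
    rw [curveAlg_deg] at h1
    have h2 := pdeg_eq f.1.2
    omega⟩
  invFun f := ⟨⟨(f : F), mem_holo_of_mem_riemannRochSpace f.2⟩, by
    rw [(curveAlg P).mem_Fil_iff_deg_le, curveAlg_deg]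
    have h1 := (mem_riemannRochSpace_single_iff.mp f.2).2
    unfold pdeg
    rcases h1 with h1 | h1
    · show (-P.ord (f : F)).toNat ≤ n
      rw [h1]
      simp
    · show (-P.ord (f : F)).toNat ≤ n
      omega⟩
  map_add' _ _ := rfl
  map_smul' _ _ := rfl
  left_inv _ := rfl
  right_inv _ := rfl

theorem finrank_Fil_curveAlg (P : Place K F) {n : ℕ} (hn : 2 * genusFF K F ≤ n + 1) :
    Module.finrank K ((curveAlg P).Fil n) + genusFF K F = n + 1 := by
  rw [(filHoloEquiv P n).finrank_eq]
  have h1 := finrank_riemannRochSpace_eq (K := K) (F := F) (D := Finsupp.single P (n : ℤ)) (by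
    rw [degree_single_one]
    have : (2 * genusFF K F : ℤ) ≤ n + 1 := by exact_mod_cast hn
    linarith)
  rw [degree_single_one] at h1
  omega

theorem curveAlg_genus (P : Place K F) : (curveAlg P).genus = genusFF K F := by
  have h1 := (curveAlg P).finrank_Fil_add_genus
    (m := (curveAlg P).cond + 2 * genusFF K F) (by omega)
  have h2 := finrank_Fil_curveAlg P (n := (curveAlg P).cond + 2 * genusFF K F) (by omega)
  omega

end Fermat.Agent.RR
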