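import Fermat.Agent.RR.HoloClass
import Fermat.Agent.RR.HoloBasis
import Fermat.Agent.MW.Points

/-!
# Places, `K`-points and maximal ideals of the holomorphy ring
-/

set_option autoImplicit false
set_option linter.unusedSectionVars false

noncomputable section

open WithZero IsLocalRing AlgebraicCurve IntermediateField
open scoped nonZeroDivisors

namespace Fermat.Agent.RR

variable {K F : Type*} [Field K] [Field F] [Algebra K F]
variable [IsAlgClosed K] [FunctionField K F]

theorem bijective_algebraMap_residueField (v : Place K F) :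
    Function.Bijective (algebraMap K v.ResidueField) := by
  have : Algebra.IsIntegral K v.ResidueField := Algebra.IsIntegral.of_finite K v.ResidueField
  exact IsAlgClosed.algebraMap_bijective_of_isIntegral

/-- The residue field of a place is the constant field. -/
def residueEquiv (v : Place K F) : v.ResidueField ≃ₐ[K] K :=
  (AlgEquiv.ofBijective (Algebra.ofId K v.ResidueField)
    (bijective_algebraMap_residueField v)).symm

/-- Evaluation at a place `v ≠ P`, as a `K`-algebra homomorphism to the residue field. -/
def evalAlg (P v : Place K F) (hv : v ≠ P) : holo P →ₐ[K] v.ResidueField :=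
  { evalAt P v hv with commutes' := fun _ => rfl }

/-- The `K`-point of the holomorphy ring attached to a place `v ≠ P`. -/
def pointOf (P v : Place K F) (hv : v ≠ P) : holo P →ₐ[K] K :=
  (residueEquiv v : v.ResidueField →ₐ[K] K).comp (evalAlg P v hv)

theorem ker_pointOf (P v : Place K F) (hv : v ≠ P) :
    RingHom.ker (pointOf P v hv) = placeIdeal P v := by
  ext f
  rw [← evalAt_eq_zero_iff P v hv, RingHom.mem_ker]
  show residueEquiv v (evalAt P v hv f) = 0 ↔ _
  exact map_eq_zero_iff _ (residueEquiv v).injective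

theorem pointOf_eq_iff {P v : Place K F} (hv : v ≠ P) {f : holo P} {c : K} :
    pointOf P v hv f = c ↔
      ((f : F) - algebraMap K F c = 0 ∨ 0 < v.ord ((f : F) - algebraMap K F c)) := by
  have h1 : pointOf P v hv f = c ↔ (f - algebraMap K (holo P) c) ∈
      RingHom.ker (pointOf P v hv) := by
    rw [RingHom.mem_ker, map_sub, AlgHom.commutes, sub_eq_zero]
    rfl
  rw [h1, ker_pointOf, mem_placeIdeal hv]
  rfl

theorem exists_pointOf_eq (P : Place K F) (x : holo P →ₐ[K] K) :
    ∃ v : Place K F, ∃ hv : v ≠ P, pointOf P v hv = x := by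
  have hx0 : RingHom.ker x ≠ ⊥ := Fermat.Agent.MW.ker_ne_bot (curveAlg P) x
  obtain ⟨v, hv, h⟩ := eq_placeIdeal_of_isPrime
    (Fermat.Agent.MW.ker_isMaximal x).isPrime hx0
  refine ⟨v, hv, ?_⟩
  apply Fermat.Agent.MW.ker_injective
  show RingHom.ker (pointOf P v hv) = RingHom.ker x
  rw [ker_pointOf, h]

theorem pointOf_injective {P v w : Place K F} (hv : v ≠ P) (hw : w ≠ P)
    (h : pointOf P v hv = pointOf P w hw) : v = w := by
  apply placeIdeal_injective hv hw
  rw [← ker_pointOf P v hv, ← ker_pointOf P w hw, h]

/-- Places different from `P` are the `K`-points of the holomorphy ring. -/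
def pointEquiv (P : Place K F) : {v : Place K F // v ≠ P} ≃ (holo P →ₐ[K] K) :=
  Equiv.ofBijective (fun v => pointOf P v.1 v.2)
    ⟨fun v w h => Subtype.ext (pointOf_injective v.2 w.2 h),
      fun x => by
        obtain ⟨v, hv, h⟩ := exists_pointOf_eq P x
        exact ⟨⟨v, hv⟩, h⟩⟩

@[simp]
theorem pointEquiv_apply (P : Place K F) (v : {v : Place K F // v ≠ P}) :
    pointEquiv P v = pointOf P v.1 v.2 := rfl

/-- The place attached to a `K`-point of the holomorphy ring. -/
def placeOf (P : Place K F) (x : holo P →ₐ[K] K) : Place K F := ((pointEquiv P).symm x).1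

theorem placeOf_ne (P : Place K F) (x : holo P →ₐ[K] K) : placeOf P x ≠ P :=
  ((pointEquiv P).symm x).2

@[simp]
theorem pointOf_placeOf (P : Place K F) (x : holo P →ₐ[K] K) :
    pointOf P (placeOf P x) (placeOf_ne P x) = x :=
  (pointEquiv P).apply_symm_apply x

@[simp]
theorem placeOf_pointOf {P v : Place K F} (hv : v ≠ P) : placeOf P (pointOf P v hv) = v :=
  congrArg Subtype.val ((pointEquiv P).symm_apply_apply ⟨v, hv⟩)

theorem placeOf_injective (P : Place K F) : Function.Injective (placeOf P) := fun _ _ h =>
  (pointEquiv P).symm.injective (Subtype.ext h)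

theorem ker_eq_placeIdeal (P : Place K F) (x : holo P →ₐ[K] K) :
    RingHom.ker x = placeIdeal P (placeOf P x) := by
  rw [← ker_pointOf P (placeOf P x) (placeOf_ne P x), pointOf_placeOf]

theorem placeIdeal_ne_bot {P v : Place K F} (hv : v ≠ P) : placeIdeal P v ≠ ⊥ := by
  rw [← ker_pointOf P v hv]
  exact Fermat.Agent.MW.ker_ne_bot (curveAlg P) _

theorem placeIdeal_mem_nonZeroDivisors {P v : Place K F} (hv : v ≠ P) :
    placeIdeal P v ∈ (Ideal (holo P))⁰ := by
  rw [mem_nonZeroDivisors_iff_ne_zero]
  exact placeIdeal_ne_bot hv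

/-- The height one prime of the holomorphy ring attached to a place `v ≠ P`. -/
def heightOneOf (P v : Place K F) (hv : v ≠ P) : IsDedekindDomain.HeightOneSpectrum (holo P) where
  asIdeal := placeIdeal P v
  isPrime := (isMaximal_placeIdeal hv).isPrime
  ne_bot := placeIdeal_ne_bot hv

/-- Places different from `P` are the height one primes of the holomorphy ring. -/
def heightOneEquiv (P : Place K F) :
    {v : Place K F // v ≠ P} ≃ IsDedekindDomain.HeightOneSpectrum (holo P) :=
  Equiv.ofBijective (fun v => heightOneOf P v.1 v.2)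
    ⟨fun v w h => Subtype.ext (placeIdeal_injective v.2 w.2
        (congrArg IsDedekindDomain.HeightOneSpectrum.asIdeal h)),
      fun x => by
        obtain ⟨v, hv, h⟩ := eq_placeIdeal_of_isPrime x.isPrime x.ne_bot
        exact ⟨⟨v, hv⟩, IsDedekindDomain.HeightOneSpectrum.ext h.symm⟩⟩

/-- The fractional ideal of a single place. -/
theorem Jf_single_one {P v : Place K F} (hv : v ≠ P) :
    Jf P (Finsupp.single v 1 : Divisor K F) = (placeIdeal P v : FractionalIdeal (holo P)⁰ F) := by
  apply FractionalIdeal.ext
  intro x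
  rw [FractionalIdeal.mem_coeIdeal]
  constructor
  · intro hx
    have hx' : x ∈ holo P := by
      rw [mem_holo]
      intro w hw
      rcases hx w hw with h1 | h1
      · rw [h1]
        simp
      · refine le_trans ?_ h1
        by_cases h : w = v
        · subst h
          simp
        · rw [Finsupp.single_eq_of_ne h]
    refine ⟨⟨x, hx'⟩, ?_, rfl⟩
    rw [mem_placeIdeal hv]
    rcases hx v hv with h1 | h1
    · exact Or.inl h1
    · rw [Finsupp.single_eq_same] at h1
      exact Or.inr (by show (0 : ℤ) < v.ord x; omega)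
  · rintro ⟨y, hy, rfl⟩ w hw
    rw [mem_placeIdeal hv] at hy
    by_cases h : w = v
    · subst h
      rw [Finsupp.single_eq_same]
      rcases hy with hy | hy
      · exact Or.inl hy
      · exact Or.inr (by show (1 : ℤ) ≤ w.ord (y : F); omega)
    · right
      rw [Finsupp.single_eq_of_ne h]
      exact mem_holo.mp y.2 w hw

theorem classHom_single_one {P v : Place K F} (hv : v ≠ P) :
    classHom P (Finsupp.single v 1 : Divisor K F) =
      Additive.ofMul (ClassGroup.mk0 ⟨placeIdeal P v, placeIdeal_mem_nonZeroDivisors hv⟩) := by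
  rw [classHom_apply, ← ClassGroup.mk_mk0 F]
  congr 2
  apply Units.ext
  rw [coe_Junit, FractionalIdeal.coe_mk0, Jf_single_one hv]

/-- The divisor of a multiset of points of the holomorphy ring. -/
def pointsDiv (P : Place K F) (s : Multiset (holo P →ₐ[K] K)) : Divisor K F :=
  (s.map fun x => (Finsupp.single (placeOf P x) 1 : Divisor K F)).sum

@[simp]
theorem pointsDiv_zero (P : Place K F) : pointsDiv P 0 = 0 := rfl

@[simp]
theorem pointsDiv_cons (P : Place K F) (x : holo P →ₐ[K] K) (s : Multiset (holo P →ₐ[K] K)) :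
    pointsDiv P (x ::ₘ s) = Finsupp.single (placeOf P x) 1 + pointsDiv P s := by
  unfold pointsDiv
  rw [Multiset.map_cons, Multiset.sum_cons]

theorem pointsDiv_add (P : Place K F) (s t : Multiset (holo P →ₐ[K] K)) :
    pointsDiv P (s + t) = pointsDiv P s + pointsDiv P t := by
  unfold pointsDiv
  rw [Multiset.map_add, Multiset.sum_add]

theorem degree_pointsDiv (P : Place K F) (s : Multiset (holo P →ₐ[K] K)) :
    Divisor.degree (pointsDiv P s) = s.card := by
  induction s using Multiset.induction_on with
  | empty => simp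
  | cons x s ih =>
    rw [pointsDiv_cons, map_add, ih, degree_single_one, Multiset.card_cons]
    push_cast
    ring

theorem idl_mem_nonZeroDivisors (P : Place K F) (s : Multiset (holo P →ₐ[K] K)) :
    Fermat.Agent.MW.idl s ∈ (Ideal (holo P))⁰ := by
  rw [mem_nonZeroDivisors_iff_ne_zero]
  exact Fermat.Agent.MW.idl_ne_bot (curveAlg P) s

theorem Jf_pointsDiv (P : Place K F) (s : Multiset (holo P →ₐ[K] K)) :
    Jf P (pointsDiv P s) = (Fermat.Agent.MW.idl s : FractionalIdeal (holo P)⁰ F) := by
  induction s using Multiset.induction_on with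
  | empty =>
    rw [pointsDiv_zero, Jf_zero, Fermat.Agent.MW.idl_zero, FractionalIdeal.coeIdeal_top]
  | cons x s ih =>
    rw [pointsDiv_cons, Jf_add, ih, Jf_single_one (placeOf_ne P x), Fermat.Agent.MW.idl_cons,
      FractionalIdeal.coeIdeal_mul, ker_eq_placeIdeal]

theorem classHom_pointsDiv (P : Place K F) (s : Multiset (holo P →ₐ[K] K)) :
    classHom P (pointsDiv P s) =
      Additive.ofMul (ClassGroup.mk0 ⟨Fermat.Agent.MW.idl s, idl_mem_nonZeroDivisors P s⟩) := by
  rw [classHom_apply, ← ClassGroup.mk_mk0 F]
  congr 2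
  apply Units.ext
  rw [coe_Junit, FractionalIdeal.coe_mk0, Jf_pointsDiv]

/-- The divisor of a function of the holomorphy ring in terms of its zeros. -/
theorem divOf_eq_pointsDiv (P : Place K F) {f : holo P} (hf : f ≠ 0) :
    divOf (K := K) (f : F) = pointsDiv P (Fermat.Agent.MW.dv (curveAlg P) f) -
      Finsupp.single P (pdeg P (f : F) : ℤ) := by
  have hf0 : (f : F) ≠ 0 := fun h => hf (Subtype.ext h)
  have h1 : Jf P (divOf (K := K) (f : F)) =
      Jf P (pointsDiv P (Fermat.Agent.MW.dv (curveAlg P) f)) := by
    rw [Jf_divOf P hf0, Jf_pointsDiv, ← Fermat.Agent.MW.span_eq_idl_dv (curveAlg P) hf,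
      FractionalIdeal.coeIdeal_span_singleton]
    rfl
  rw [Jf_eq_iff] at h1
  ext v
  by_cases hv : v = P
  · subst hv
    rw [divOf_apply, Finsupp.sub_apply, Finsupp.single_eq_same]
    have h2 : pointsDiv v (Fermat.Agent.MW.dv (curveAlg v) f) v = 0 := by
      generalize Fermat.Agent.MW.dv (curveAlg v) f = s
      induction s using Multiset.induction_on with
      | empty => rfl
      | cons x s ih =>
        rw [pointsDiv_cons, Finsupp.add_apply, ih, add_zero,
          Finsupp.single_eq_of_ne (placeOf_ne v x).symm]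
    rw [h2, pdeg_eq f.2]
    ring
  · rw [h1 v hv, Finsupp.sub_apply, Finsupp.single_eq_of_ne hv, sub_zero]

end Fermat.Agent.RR
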