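import Fermat.Agent.RR.HoloEchelon
import Fermat.Agent.J.LaurentPlace
import Fermat.Prelude.Def_ModularCurve_LaurentCoeff

/-!
# The `q`-adic place of a field of Laurent series, and the echelon basis
-/

set_option autoImplicit false
set_option linter.unusedSectionVars false

noncomputable section

open WithZero IsLocalRing AlgebraicCurve IntermediateField
open scoped nonZeroDivisors

namespace Fermat.Agent.RR

variable {K : Type*} [Field K]

theorem order_algebraMap_laurent (a : K) :
    (algebraMap K (LaurentSeries K) a).order = 0 := by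
  rw [ModularCurve.algebraMap_laurentSeries_eq_single]
  exact HahnSeries.order_C

theorem coeff_algebraMap_mul_laurent (a : K) (f : LaurentSeries K) (n : ℤ) :
    (algebraMap K (LaurentSeries K) a * f).coeff n = a * f.coeff n := by
  rw [ModularCurve.algebraMap_laurentSeries_eq_single, HahnSeries.coeff_single_zero_mul]

section Place

variable (E : IntermediateField K (LaurentSeries K))

/-- The `q`-adic place of a subfield of the field of Laurent series. -/
def qPlace (h : ∃ f : E, (f : LaurentSeries K).order = -1) : Place K E :=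
  FermatJ.placeOfLaurent (K := K) (L := E) (M := K) (algebraMap E (LaurentSeries K))
    (fun a => by
      rw [← IsScalarTower.algebraMap_apply K E (LaurentSeries K), order_algebraMap_laurent])
    (by
      obtain ⟨f, hf⟩ := h
      exact ⟨f, by
        show (f : LaurentSeries K).order < 0
        rw [hf]
        norm_num⟩)

variable {E}

theorem ord_qPlace (h : ∃ f : E, (f : LaurentSeries K).order = -1) (f : E) :
    (qPlace E h).ord f = (f : LaurentSeries K).order := by
  obtain ⟨e, he, h1⟩ := FermatJ.exists_mul_ord_placeOfLaurent (K := K) (L := E) (M := K)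
    (lam := algebraMap E (LaurentSeries K))
    (hK := fun a => by
      rw [← IsScalarTower.algebraMap_apply K E (LaurentSeries K), order_algebraMap_laurent])
    (hne := by
      obtain ⟨f, hf⟩ := h
      exact ⟨f, by
        show (f : LaurentSeries K).order < 0
        rw [hf]
        norm_num⟩)
  have h2 : ∀ g : E, (g : LaurentSeries K).order = e * (qPlace E h).ord g := h1
  obtain ⟨g, hg⟩ := h
  have h3 := h2 g
  rw [hg] at h3
  have h4 : (e : ℤ) ∣ 1 := ⟨-(qPlace E ⟨g, hg⟩).ord g, by rw [mul_neg, ← h3, neg_neg]⟩
  have h5 : (e : ℤ) = 1 := by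
    rcases Int.isUnit_iff.mp (isUnit_of_dvd_one h4) with h5 | h5
    · exact h5
    · omega
  rw [h2 f, h5, one_mul]

/-- A place is determined by its order function. -/
theorem place_ext_of_ord {F : Type*} [Field F] [Algebra K F] {P Q : Place K F}
    (h : ∀ f : F, 0 ≤ P.ord f ↔ 0 ≤ Q.ord f) : P = Q := by
  apply Place.ext
  ext f
  rw [mem_iff_ord_nonneg, mem_iff_ord_nonneg, h f]

theorem smul_qPlace (h : ∃ f : E, (f : LaurentSeries K).order = -1) (g : SemilinearAut K E)
    (hg : ∀ f : E, ((g • f : E) : LaurentSeries K).order = (f : LaurentSeries K).order) :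
    g • qPlace E h = qPlace E h := by
  apply place_ext_of_ord
  intro f
  have h1 := SemilinearAut.ord_smul g (qPlace E h) (g⁻¹ • f)
  rw [smul_inv_smul] at h1
  rw [h1, ord_qPlace, ord_qPlace]
  have h2 := hg (g⁻¹ • f)
  rw [smul_inv_smul] at h2
  rw [h2]

theorem qPlace_mem_holo_order (h : ∃ f : E, (f : LaurentSeries K).order = -1)
    (f : holo (qPlace E h)) :
    pdeg (qPlace E h) (f : E) = (-((f : E) : LaurentSeries K).order).toNat := by
  unfold pdeg
  rw [ord_qPlace]

variable [IsAlgClosed K] [FunctionField K E]

/-- The polar coefficients of the `q`-expansion. -/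
def qCoeffs (h : ∃ f : E, (f : LaurentSeries K).order = -1) : PolarCoeffs (qPlace E h) where
  c m :=
    { toFun := fun f => ((f : E) : LaurentSeries K).coeff (-(m : ℤ))
      map_add' := fun _ _ => rfl
      map_smul' := fun a f => by
        rw [Algebra.smul_def]
        exact coeff_algebraMap_mul_laurent a ((f : E) : LaurentSeries K) (-(m : ℤ)) }
  c_zero_one := by
    show ((1 : LaurentSeries K)).coeff (-((0 : ℕ) : ℤ)) = 1
    simp
  c_ne_zero f hf := by
    show ((f : E) : LaurentSeries K).coeff (-((pdeg (qPlace E h) (f : E) : ℕ) : ℤ)) ≠ 0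
    rw [pdeg_eq f.2, neg_neg, ord_qPlace]
    intro h0
    exact hf (Subtype.ext (Subtype.ext (HahnSeries.coeff_order_eq_zero.mp h0)))
  c_eq_zero f m hm := by
    show ((f : E) : LaurentSeries K).coeff (-(m : ℤ)) = 0
    apply HahnSeries.coeff_eq_zero_of_lt_order
    rw [← ord_qPlace h]
    have := pdeg_eq f.2
    omega

theorem qCoeffs_c (h : ∃ f : E, (f : LaurentSeries K).order = -1) (m : ℕ)
    (f : holo (qPlace E h)) :
    (qCoeffs h).c m f = ((f : E) : LaurentSeries K).coeff (-(m : ℤ)) := rfl

end Place

end Fermat.Agent.RR
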