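import Fermat.Agent.RR.HoloGal

/-!
# Echelon bases of the holomorphy ring

A family `c m` of linear functionals on the holomorphy ring such that `c m f ≠ 0` for `f` of pole
order `m` and `c l f = 0` for `l > m` (for instance the coefficients of the polar part of the
Laurent expansion) has a unique dual basis `e n` with `e n` of pole order `n`.  Uniqueness implies
that the basis is fixed by all semilinear automorphisms compatible with the functionals.
-/

set_option autoImplicit false
set_option linter.unusedSectionVars false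

noncomputable section

open WithZero IsLocalRing AlgebraicCurve IntermediateField
open scoped nonZeroDivisors

namespace Fermat.Agent.RR

variable {K F : Type*} [Field K] [Field F] [Algebra K F]

/-- Linear functionals computing the polar coefficients at `P`. -/
structure PolarCoeffs (P : Place K F) where
  c : ℕ → holo P →ₗ[K] K
  c_zero_one : c 0 1 = 1
  c_ne_zero : ∀ f : holo P, f ≠ 0 → c (pdeg P (f : F)) f ≠ 0
  c_eq_zero : ∀ (f : holo P) (m : ℕ), pdeg P (f : F) < m → c m f = 0

namespace PolarCoeffs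

variable [IsAlgClosed K] [FunctionField K F] {P : Place K F} (c : PolarCoeffs P)

theorem eq_zero_of_forall {f : holo P} (h : ∀ m ∈ poleSet P, c.c m f = 0) : f = 0 := by
  by_contra h0
  have h1 : pdeg P (f : F) ∈ poleSet P :=
    ⟨f, f.2, fun h => h0 (Subtype.ext h), by rw [pdeg_eq f.2, neg_neg]⟩
  exact c.c_ne_zero f h0 (h _ h1)

theorem ext_of_forall {f g : holo P} (h : ∀ m ∈ poleSet P, c.c m f = c.c m g) : f = g := by
  rw [← sub_eq_zero]
  apply c.eq_zero_of_forall
  intro m hm
  rw [map_sub, h m hm, sub_self]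

theorem exists_echelon (n : ℕ) (hn : n ∈ poleSet P) :
    ∃ f : holo P, f ≠ 0 ∧ pdeg P (f : F) = n ∧
      ∀ m ∈ poleSet P, c.c m f = if m = n then 1 else 0 := by
  classical
  induction n using Nat.strong_induction_on with
  | _ n ih =>
    choose! e he0 hed he using fun m (hm : m < n ∧ m ∈ poleSet P) => ih m hm.1 hm.2
    obtain ⟨f₀, hf₀, hf₀0, hf₀n⟩ := hn
    have hp : pdeg P f₀ = n := by
      unfold pdeg
      omega
    set f₁ : holo P := (c.c n ⟨f₀, hf₀⟩)⁻¹ • ⟨f₀, hf₀⟩ with hf₁
    have hne : (⟨f₀, hf₀⟩ : holo P) ≠ 0 := fun h => hf₀0 (congrArg Subtype.val h)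
    have hc0 : c.c n ⟨f₀, hf₀⟩ ≠ 0 := by
      have h1 := c.c_ne_zero ⟨f₀, hf₀⟩ hne
      rwa [show pdeg P ((⟨f₀, hf₀⟩ : holo P) : F) = n from hp] at h1
    have hf₁1 : c.c n f₁ = 1 := by
      rw [hf₁, map_smul, smul_eq_mul, inv_mul_cancel₀ hc0]
    have hf₁m : ∀ m, n < m → c.c m f₁ = 0 := by
      intro m hm
      rw [hf₁, map_smul, c.c_eq_zero ⟨f₀, hf₀⟩ m (by
        rw [show pdeg P ((⟨f₀, hf₀⟩ : holo P) : F) = n from hp]
        exact hm), smul_zero]
    set s := (Finset.range n).filter (· ∈ poleSet P) with hs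
    set f : holo P := f₁ - ∑ m ∈ s, c.c m f₁ • e m with hf
    have hcf : ∀ m ∈ poleSet P, c.c m f = if m = n then 1 else 0 := by
      intro m hm
      rw [hf, map_sub, map_sum]
      have h1 : ∀ l ∈ s, c.c m (c.c l f₁ • e l) = if m = l then c.c l f₁ else 0 := by
        intro l hl
        rw [hs, Finset.mem_filter, Finset.mem_range] at hl
        rw [map_smul, he l hl m hm, smul_eq_mul, mul_ite, mul_one, mul_zero]
      rw [Finset.sum_congr rfl h1, Finset.sum_ite_eq]
      rcases lt_trichotomy m n with hlt | heq | hgt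
      · rw [if_pos (by rw [hs, Finset.mem_filter, Finset.mem_range]; exact ⟨hlt, hm⟩),
          if_neg hlt.ne, sub_self]
      · subst heq
        rw [if_neg (by rw [hs, Finset.mem_filter, Finset.mem_range]; omega), if_pos rfl, hf₁1,
          sub_zero]
      · rw [if_neg (by rw [hs, Finset.mem_filter, Finset.mem_range]; omega),
          if_neg hgt.ne', hf₁m m hgt, sub_zero]
    have hn' : n ∈ poleSet P := ⟨f₀, hf₀, hf₀0, hf₀n⟩
    have hf0 : f ≠ 0 := by
      intro h
      have h1 := hcf n hn'
      rw [h, map_zero, if_pos rfl] at h1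
      exact zero_ne_one h1
    refine ⟨f, hf0, ?_, hcf⟩
    have h1 : pdeg P (f : F) ∈ poleSet P :=
      ⟨f, f.2, fun h => hf0 (Subtype.ext h), by rw [pdeg_eq f.2, neg_neg]⟩
    have h2 := c.c_ne_zero f hf0
    rw [hcf _ h1] at h2
    by_contra hcon
    rw [if_neg hcon] at h2
    exact h2 rfl

/-- The echelon basis elements. -/
def e (n : poleSet P) : holo P := (c.exists_echelon n n.2).choose

theorem e_ne_zero (n : poleSet P) : c.e n ≠ 0 := (c.exists_echelon n n.2).choose_spec.1

theorem pdeg_e (n : poleSet P) : pdeg P (c.e n : F) = n :=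
  (c.exists_echelon n n.2).choose_spec.2.1

theorem c_e (n : poleSet P) {m : ℕ} (hm : m ∈ poleSet P) :
    c.c m (c.e n) = if m = n then 1 else 0 :=
  (c.exists_echelon n n.2).choose_spec.2.2 m hm

theorem e_zero (n : poleSet P) (hn : (n : ℕ) = 0) : c.e n = 1 := by
  apply c.ext_of_forall
  intro m hm
  rw [c.c_e n hm, hn]
  split_ifs with h
  · rw [h, c.c_zero_one]
  · rw [c.c_eq_zero 1 m]
    have : pdeg P ((1 : holo P) : F) = 0 := by
      unfold pdeg
      show (-P.ord (1 : F)).toNat = 0
      simp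
    omega

theorem eq_e {n : poleSet P} {f : holo P}
    (h : ∀ m ∈ poleSet P, c.c m f = if m = n then 1 else 0) : f = c.e n := by
  apply c.ext_of_forall
  intro m hm
  rw [h m hm, c.c_e n hm]

theorem linearIndependent_e : LinearIndependent K c.e := by
  classical
  rw [linearIndependent_iff']
  intro s g hg i hi
  have h1 := congrArg (c.c i) hg
  rw [map_sum, map_zero] at h1
  rw [← h1]
  have h2 : ∀ j ∈ s, c.c i (g j • c.e j) = if i = j then g j else 0 := by
    intro j _
    rw [map_smul, c.c_e j i.2, smul_eq_mul, mul_ite, mul_one, mul_zero]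
    simp only [Subtype.ext_iff]
  rw [Finset.sum_congr rfl h2, Finset.sum_ite_eq, if_pos hi]

theorem span_e : ⊤ ≤ Submodule.span K (Set.range c.e) := by
  classical
  intro f _
  have h1 : f = ∑ m ∈ (Finset.range (pdeg P (f : F) + 1)).filter (· ∈ poleSet P),
      if h : m ∈ poleSet P then c.c m f • c.e ⟨m, h⟩ else 0 := by
    apply c.ext_of_forall
    intro l hl
    rw [map_sum]
    have h2 : ∀ m ∈ (Finset.range (pdeg P (f : F) + 1)).filter (· ∈ poleSet P),
        c.c l (if h : m ∈ poleSet P then c.c m f • c.e ⟨m, h⟩ else 0) =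
          if l = m then c.c m f else 0 := by
      intro m hm
      rw [Finset.mem_filter] at hm
      rw [dif_pos hm.2, map_smul, c.c_e _ hl, smul_eq_mul, mul_ite, mul_one, mul_zero]
    rw [Finset.sum_congr rfl h2, Finset.sum_ite_eq]
    split_ifs with h3
    · rfl
    · rw [Finset.mem_filter, Finset.mem_range] at h3
      exact c.c_eq_zero f l (by
        by_contra h4
        exact h3 ⟨by omega, hl⟩)
  rw [h1]
  apply Submodule.sum_mem
  intro m hm
  rw [Finset.mem_filter] at hm
  rw [dif_pos hm.2]
  exact Submodule.smul_mem _ _ (Submodule.subset_span ⟨_, rfl⟩)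

/-- The echelon basis. -/
def ebasis : Module.Basis (poleSet P) K (holo P) :=
  Module.Basis.mk c.linearIndependent_e c.span_e

@[simp]
theorem ebasis_apply (n : poleSet P) : c.ebasis n = c.e n := by
  unfold ebasis
  rw [Module.Basis.mk_apply]

theorem ebasis_repr (f : holo P) (n : poleSet P) : c.ebasis.repr f n = c.c n f := by
  classical
  have h1 := c.ebasis.linearCombination_repr f
  rw [Finsupp.linearCombination_apply, Finsupp.sum] at h1
  have h2 := congrArg (c.c n) h1
  rw [map_sum] at h2
  have h3 : ∀ m ∈ (c.ebasis.repr f).support, c.c n (c.ebasis.repr f m • c.ebasis m) =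
      if n = m then c.ebasis.repr f m else 0 := by
    intro m _
    rw [map_smul, ebasis_apply, c.c_e m n.2, smul_eq_mul, mul_ite, mul_one, mul_zero]
    simp only [Subtype.ext_iff]
  rw [Finset.sum_congr rfl h3, Finset.sum_ite_eq] at h2
  rw [← h2]
  split_ifs with h4
  · rfl
  · exact Finsupp.notMem_support_iff.mp h4

/-- The curve algebra structure given by the echelon basis. -/
def curveAlg : Fermat.Agent.MW.CurveAlg K (holo P) where
  S := poleSet P
  b := c.ebasis
  zero_mem := zero_mem_poleSet P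
  b_zero := by rw [ebasis_apply, c.e_zero _ rfl]
  finite_compl := finite_compl_poleSet P
  add_mem := add_mem_poleSet
  repr_mul_of_lt := by
    intro i j l h
    rw [ebasis_repr]
    apply c.c_eq_zero
    rw [ebasis_apply, ebasis_apply]
    show pdeg P ((c.e i : F) * (c.e j : F)) < l
    rw [pdeg_mul (c.e i).2 (c.e j).2 (fun h => c.e_ne_zero i (Subtype.ext h))
      (fun h => c.e_ne_zero j (Subtype.ext h)), c.pdeg_e, c.pdeg_e]
    exact h
  repr_mul_top := by
    intro i j
    rw [ebasis_repr, ebasis_apply, ebasis_apply]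
    have h1 : pdeg P ((c.e i * c.e j : holo P) : F) = i + j := by
      show pdeg P ((c.e i : F) * (c.e j : F)) = i + j
      rw [pdeg_mul (c.e i).2 (c.e j).2 (fun h => c.e_ne_zero i (Subtype.ext h))
        (fun h => c.e_ne_zero j (Subtype.ext h)), c.pdeg_e, c.pdeg_e]
    have h2 := c.c_ne_zero (c.e i * c.e j) (mul_ne_zero (c.e_ne_zero i) (c.e_ne_zero j))
    rwa [h1] at h2

@[simp]
theorem curveAlg_S : c.curveAlg.S = poleSet P := rfl

theorem curveAlg_b (n : poleSet P) : c.curveAlg.b n = c.e n := c.ebasis_apply n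

theorem curveAlg_coef {m : ℕ} (hm : m ∈ poleSet P) (f : holo P) :
    c.curveAlg.coef m f = c.c m f := by
  rw [c.curveAlg.coef_of_mem hm]
  exact c.ebasis_repr f ⟨m, hm⟩

theorem curveAlg_deg (f : holo P) : c.curveAlg.deg f = pdeg P (f : F) := by
  by_cases h0 : f = 0
  · rw [h0, Fermat.Agent.MW.CurveAlg.deg_zero]
    exact (pdeg_zero P).symm
  · apply c.curveAlg.deg_eq_of
    · rw [Fermat.Agent.MW.CurveAlg.mem_Fil]
      intro l hl
      by_cases hlS : l ∈ c.curveAlg.S
      · rw [c.curveAlg_coef hlS]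
        exact c.c_eq_zero f l hl
      · exact c.curveAlg.coef_of_notMem hlS f
    · rw [c.curveAlg_coef (pdeg_mem_poleSet f.2 (fun h => h0 (Subtype.ext h)))]
      exact c.c_ne_zero f h0

theorem curveAlg_genus : c.curveAlg.genus = genusFF K F := by
  have h1 : (Fermat.Agent.RR.curveAlg P).genus = (poleSet P)ᶜ.ncard := rfl
  have h2 : c.curveAlg.genus = (poleSet P)ᶜ.ncard := rfl
  rw [h2, ← h1]
  exact Fermat.Agent.RR.curveAlg_genus P

/-- **The echelon basis is fixed by compatible semilinear automorphisms.** -/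
theorem holoMap_e (g : SemilinearAut K F) (hg : g • P = P)
    (h : ∀ (m : ℕ), m ∈ poleSet P → ∀ f : holo P,
      c.c m (holoMap g hg f) = SemilinearAut.baseAut g (c.c m f)) (n : poleSet P) :
    holoMap g hg (c.e n) = c.e n := by
  apply c.eq_e
  intro m hm
  rw [h m hm, c.c_e n hm]
  split_ifs
  · rw [map_one]
  · rw [map_zero]

theorem holoMap_curveAlg_b (g : SemilinearAut K F) (hg : g • P = P)
    (h : ∀ (m : ℕ), m ∈ poleSet P → ∀ f : holo P,
      c.c m (holoMap g hg f) = SemilinearAut.baseAut g (c.c m f)) (n : c.curveAlg.S) :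
    holoMap g hg (c.curveAlg.b n) = c.curveAlg.b n := by
  rw [c.curveAlg_b n, c.holoMap_e g hg h]

theorem coef_holoMap (g : SemilinearAut K F) (hg : g • P = P)
    (h : ∀ (m : ℕ), m ∈ poleSet P → ∀ f : holo P,
      c.c m (holoMap g hg f) = SemilinearAut.baseAut g (c.c m f)) (m : ℕ) (f : holo P) :
    c.curveAlg.coef m (holoMap g hg f) = SemilinearAut.baseAut g (c.curveAlg.coef m f) := by
  by_cases hm : m ∈ poleSet P
  · rw [c.curveAlg_coef hm, c.curveAlg_coef hm, h m hm]
  · rw [c.curveAlg.coef_of_notMem hm, c.curveAlg.coef_of_notMem hm, map_zero]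

end PolarCoeffs

end Fermat.Agent.RR
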