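import Fermat.Agent.RR.HoloLaurent
import Fermat.Prelude.Def_ModularCurve_ArithmeticGalois

/-!
# Galois action on the ring of functions regular outside the `q`-adic place
-/

set_option autoImplicit false
set_option linter.unusedSectionVars false

noncomputable section

open WithZero IsLocalRing AlgebraicCurve IntermediateField ModularCurve
open scoped nonZeroDivisors

namespace Fermat.Agent.RR

theorem order_coeffMap_of_injective {R S : Type*} [CommRing R] [CommRing S] (f : R →+* S)
    (hf : Function.Injective f) (x : LaurentSeries R) : (coeffMap f x).order = x.order := by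
  rcases eq_or_ne x 0 with rfl | hx
  · rw [map_zero, HahnSeries.order_zero, HahnSeries.order_zero]
  have h1 : (coeffMap f x).coeff x.order ≠ 0 := by
    rw [coeffMap_coeff]
    intro h
    exact HahnSeries.coeff_order_eq_zero.not.mpr hx ((map_eq_zero_iff f hf).mp h)
  have hne : coeffMap f x ≠ 0 := by
    intro h
    rw [h] at h1
    exact h1 rfl
  refine le_antisymm (HahnSeries.order_le_of_coeff_ne_zero h1) ?_
  apply HahnSeries.order_le_of_coeff_ne_zero
  intro h
  apply HahnSeries.coeff_order_eq_zero.not.mpr hne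
  rw [coeffMap_coeff, h, map_zero]

variable {L : Type*} [Field L] [Algebra ℚ L] {F₀ : IntermediateField ℚ (LaurentSeries ℚ)}

theorem order_arithmeticGalois_smul (σ : L ≃ₐ[ℚ] L) (f : laurentBaseChange L F₀) :
    ((arithmeticGalois F₀ σ • f : laurentBaseChange L F₀) : LaurentSeries L).order =
      (f : LaurentSeries L).order := by
  rw [coe_arithmeticGalois_smul]
  exact order_coeffMap_of_injective _ σ.injective _

variable (h : ∃ f : laurentBaseChange L F₀, (f : LaurentSeries L).order = -1)

/-- The `q`-adic place is fixed by the Galois group. -/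
theorem arithmeticGalois_smul_qPlace (σ : L ≃ₐ[ℚ] L) :
    arithmeticGalois F₀ σ • qPlace (laurentBaseChange L F₀) h =
      qPlace (laurentBaseChange L F₀) h :=
  smul_qPlace h _ (order_arithmeticGalois_smul σ)

/-- The Galois action on the ring of functions regular outside the `q`-adic place. -/
def galHolo (σ : L ≃ₐ[ℚ] L) :
    holo (qPlace (laurentBaseChange L F₀) h) ≃+* holo (qPlace (laurentBaseChange L F₀) h) :=
  holoMap (arithmeticGalois F₀ σ) (arithmeticGalois_smul_qPlace h σ)

theorem coe_galHolo (σ : L ≃ₐ[ℚ] L) (f : holo (qPlace (laurentBaseChange L F₀) h)) :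
    (((galHolo h σ f : holo (qPlace (laurentBaseChange L F₀) h)) : laurentBaseChange L F₀) :
      LaurentSeries L) = coeffMap (σ : L →+* L) ((f : laurentBaseChange L F₀) : LaurentSeries L) :=
  rfl

@[simp]
theorem galHolo_algebraMap (σ : L ≃ₐ[ℚ] L) (a : L) :
    galHolo h σ (algebraMap L _ a) = algebraMap L _ (σ a) :=
  holoMap_algebraMap _ _ a

theorem galHolo_smul (σ : L ≃ₐ[ℚ] L) (a : L) (f : holo (qPlace (laurentBaseChange L F₀) h)) :
    galHolo h σ (a • f) = σ a • galHolo h σ f :=
  holoMap_smul _ _ a f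

theorem galHolo_mul (σ τ : L ≃ₐ[ℚ] L) (f : holo (qPlace (laurentBaseChange L F₀) h)) :
    galHolo h (σ * τ) f = galHolo h σ (galHolo h τ f) := by
  apply Subtype.ext
  show (arithmeticGalois F₀ (σ * τ)) • (f : laurentBaseChange L F₀) = _
  rw [map_mul, mul_smul]
  rfl

@[simp]
theorem galHolo_one (f : holo (qPlace (laurentBaseChange L F₀) h)) :
    galHolo h (1 : L ≃ₐ[ℚ] L) f = f := by
  apply Subtype.ext
  show (arithmeticGalois F₀ (1 : L ≃ₐ[ℚ] L)) • (f : laurentBaseChange L F₀) = _
  rw [map_one, one_smul]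

theorem pdeg_galHolo (σ : L ≃ₐ[ℚ] L) (f : holo (qPlace (laurentBaseChange L F₀) h)) :
    pdeg (qPlace (laurentBaseChange L F₀) h) (galHolo h σ f : laurentBaseChange L F₀) =
      pdeg (qPlace (laurentBaseChange L F₀) h) (f : laurentBaseChange L F₀) :=
  pdeg_smul _ (arithmeticGalois_smul_qPlace h σ) _

variable [IsAlgClosed L] [FunctionField L (laurentBaseChange L F₀)]

theorem qCoeffs_galHolo (σ : L ≃ₐ[ℚ] L) (m : ℕ)
    (f : holo (qPlace (laurentBaseChange L F₀) h)) :
    (qCoeffs h).c m (galHolo h σ f) = σ ((qCoeffs h).c m f) := rfl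

/-- The echelon basis with respect to `q`-expansions, as a curve algebra. -/
def qCurveAlg : Fermat.Agent.MW.CurveAlg L (holo (qPlace (laurentBaseChange L F₀) h)) :=
  (qCoeffs h).curveAlg

theorem qCurveAlg_S : (qCurveAlg h).S = poleSet (qPlace (laurentBaseChange L F₀) h) := rfl

/-- **The echelon basis is Galois invariant.** -/
theorem galHolo_b (σ : L ≃ₐ[ℚ] L) (l : (qCurveAlg h).S) :
    galHolo h σ ((qCurveAlg h).b l) = (qCurveAlg h).b l :=
  (qCoeffs h).holoMap_curveAlg_b _ _ (fun _ _ _ => rfl) l

theorem qCurveAlg_coef {m : ℕ} (hm : m ∈ poleSet (qPlace (laurentBaseChange L F₀) h))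
    (f : holo (qPlace (laurentBaseChange L F₀) h)) :
    (qCurveAlg h).coef m f = ((f : laurentBaseChange L F₀) : LaurentSeries L).coeff (-(m : ℤ)) :=
  (qCoeffs h).curveAlg_coef hm f

theorem coef_galHolo (σ : L ≃ₐ[ℚ] L) (m : ℕ)
    (f : holo (qPlace (laurentBaseChange L F₀) h)) :
    (qCurveAlg h).coef m (galHolo h σ f) = σ ((qCurveAlg h).coef m f) :=
  (qCoeffs h).coef_holoMap _ _ (fun _ _ _ => rfl) m f

theorem qCurveAlg_deg (f : holo (qPlace (laurentBaseChange L F₀) h)) :
    (qCurveAlg h).deg f =
      pdeg (qPlace (laurentBaseChange L F₀) h) (f : laurentBaseChange L F₀) :=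
  (qCoeffs h).curveAlg_deg f

theorem qCurveAlg_genus : (qCurveAlg h).genus = genusFF L (laurentBaseChange L F₀) :=
  (qCoeffs h).curveAlg_genus

/-- The `q`-expansion coefficients of the echelon basis are Galois invariant. -/
theorem coeff_b_fixed (σ : L ≃ₐ[ℚ] L) (l : (qCurveAlg h).S) (n : ℤ) :
    σ (((((qCurveAlg h).b l : holo (qPlace (laurentBaseChange L F₀) h)) :
      laurentBaseChange L F₀) : LaurentSeries L).coeff n) =
    ((((qCurveAlg h).b l : holo (qPlace (laurentBaseChange L F₀) h)) :
      laurentBaseChange L F₀) : LaurentSeries L).coeff n := by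
  have h1 := congrArg (fun f : holo (qPlace (laurentBaseChange L F₀) h) =>
    ((f : laurentBaseChange L F₀) : LaurentSeries L).coeff n) (galHolo_b h σ l)
  exact h1

/-- The `q`-expansions of the echelon basis are rational. -/
theorem exists_coeffEmb_eq_b [IsGalois ℚ L] (l : (qCurveAlg h).S) :
    ∃ x : LaurentSeries ℚ, coeffEmb L x =
      ((((qCurveAlg h).b l : holo (qPlace (laurentBaseChange L F₀) h)) :
      laurentBaseChange L F₀) : LaurentSeries L) := by
  set y := ((((qCurveAlg h).b l : holo (qPlace (laurentBaseChange L F₀) h)) :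
      laurentBaseChange L F₀) : LaurentSeries L) with hy
  have h1 : ∀ n : ℤ, ∃ c : ℚ, algebraMap ℚ L c = y.coeff n := by
    intro n
    have h2 : y.coeff n ∈ (⊥ : IntermediateField ℚ L) := by
      rw [InfiniteGalois.mem_bot_iff_fixed]
      intro σ
      exact coeff_b_fixed h σ l n
    exact IntermediateField.mem_bot.mp h2
  choose c hc using h1
  refine ⟨HahnSeries.ofSuppBddBelow c ?_, ?_⟩
  · refine ⟨y.order, ?_⟩
    intro n hn
    by_contra hlt
    push Not at hlt
    apply hn
    apply (algebraMap ℚ L).injective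
    rw [hc, map_zero]
    exact HahnSeries.coeff_eq_zero_of_lt_order hlt
  · ext n
    rw [coeffEmb_coeff]
    exact hc n

/-- The structure constants are Galois invariant. -/
theorem coef_mul_fixed (σ : L ≃ₐ[ℚ] L) (i j : (qCurveAlg h).S) (m : ℕ) :
    σ ((qCurveAlg h).coef m ((qCurveAlg h).b i * (qCurveAlg h).b j)) =
      (qCurveAlg h).coef m ((qCurveAlg h).b i * (qCurveAlg h).b j) := by
  rw [← coef_galHolo h, map_mul, galHolo_b, galHolo_b]

/-- **Galois equivariance** of the identification of `Pic⁰` with the class group. -/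
theorem pic0Equiv_galois (σ : L ≃ₐ[ℚ] L) (x : Pic0 L (laurentBaseChange L F₀)) :
    pic0Equiv (qPlace (laurentBaseChange L F₀) h) (σ • x) =
      Additive.ofMul (ClassGroup.mulEquiv (galHolo h σ)
        (pic0Equiv (qPlace (laurentBaseChange L F₀) h) x).toMul) :=
  pic0Equiv_smul (arithmeticGalois F₀ σ) (arithmeticGalois_smul_qPlace h σ) x

end Fermat.Agent.RR
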