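import Fermat.Agent.RR.Corollaries

/-!
# The ring of functions regular outside one place
-/

set_option autoImplicit false
set_option linter.unusedSectionVars false

noncomputable section

open WithZero IsLocalRing AlgebraicCurve IntermediateField

namespace Fermat.Agent.RR

variable {K F : Type*} [Field K] [Field F] [Algebra K F]

/-- The ring of functions regular outside the place `P`. -/
def holo (P : Place K F) : Subalgebra K F where
  carrier := {f | ∀ v : Place K F, v ≠ P → f ∈ v.toValuationSubring}
  mul_mem' := fun ha hb v hv => mul_mem (ha v hv) (hb v hv)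
  add_mem' := fun ha hb v hv => add_mem (ha v hv) (hb v hv)
  algebraMap_mem' := fun a v _ => v.algebraMap_mem' a

theorem mem_holo {P : Place K F} {f : F} :
    f ∈ holo P ↔ ∀ v : Place K F, v ≠ P → 0 ≤ v.ord f := by
  constructor
  · intro h v hv
    exact ord_nonneg_of_mem v (h v hv)
  · intro h v hv
    exact mem_of_ord_nonneg v (h v hv)

theorem mem_holo_of_mem_riemannRochSpace {P : Place K F} {n : ℤ} {f : F}
    (hf : f ∈ riemannRochSpace (Finsupp.single P n : Divisor K F)) : f ∈ holo P := by
  rw [mem_holo]
  intro v hv
  rcases mem_riemannRochSpace_iff.mp hf v with h | h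
  · simp [h]
  · have h2 : (Finsupp.single P n : Divisor K F) v = 0 := by
      simp [hv]
    rw [h2] at h
    simpa using h

/-- `L(nP)` consists of the elements of the holomorphy ring with a pole of order at most `n`
at `P`. -/
theorem mem_riemannRochSpace_single_iff {P : Place K F} {n : ℤ} {f : F} :
    f ∈ riemannRochSpace (Finsupp.single P n : Divisor K F) ↔
      f ∈ holo P ∧ (f = 0 ∨ -n ≤ P.ord f) := by
  constructor
  · intro hf
    refine ⟨mem_holo_of_mem_riemannRochSpace hf, ?_⟩
    simpa using mem_riemannRochSpace_iff.mp hf P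
  · rintro ⟨h1, h2⟩
    rw [mem_riemannRochSpace_iff]
    intro v
    by_cases hv : v = P
    · subst hv
      simpa using h2
    · right
      have h3 : (Finsupp.single P n : Divisor K F) v = 0 := by
        simp [hv]
      rw [h3]
      simpa using mem_holo.mp h1 v hv

variable [IsAlgClosed K] [FunctionField K F]

/-- A nonzero element of the holomorphy ring has nonpositive order at `P`. -/
theorem ord_nonpos_of_mem_holo {P : Place K F} {f : F} (hf : f ∈ holo P) (h0 : f ≠ 0) :
    P.ord f ≤ 0 := by
  by_contra hlt
  push Not at hlt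
  have h1 : f ∈ riemannRochSpace (Finsupp.single P (-1) : Divisor K F) := by
    rw [mem_riemannRochSpace_single_iff]
    refine ⟨hf, Or.inr ?_⟩
    omega
  have h2 := degree_nonneg_of_mem h1 h0
  rw [degree_single_one] at h2
  omega

/-- The degree (pole order at `P`) of an element of the holomorphy ring. -/
def pdeg (P : Place K F) (f : F) : ℕ := (-P.ord f).toNat

theorem pdeg_eq {P : Place K F} {f : F} (hf : f ∈ holo P) :
    (pdeg P f : ℤ) = -P.ord f := by
  unfold pdeg
  rcases eq_or_ne f 0 with rfl | h0
  · simp
  · have := ord_nonpos_of_mem_holo hf h0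
    omega

theorem pdeg_eq_zero_iff {P : Place K F} {f : F} (hf : f ∈ holo P) :
    pdeg P f = 0 ↔ ∃ c : K, f = algebraMap K F c := by
  constructor
  · intro h
    apply exists_const_of_forall_ord_nonneg
    intro v
    by_cases hv : v = P
    · subst hv
      have := pdeg_eq hf
      omega
    · exact mem_holo.mp hf v hv
  · rintro ⟨c, rfl⟩
    unfold pdeg
    rw [ord_algebraMap]
    simp

/-- The number of zeros of `f ∈ holo P` outside `P` equals the pole order. -/
theorem sum_ord_eq {P : Place K F} {f : F} (S : Finset (Place K F))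
    (hP : P ∉ S) (hS : ∀ v, v ≠ P → v ∉ S → v.ord f = 0) :
    ∑ v ∈ S, v.ord f = -P.ord f := by
  classical
  have h1 := degree_divOf (K := K) f
  rw [degree_eq_sum] at h1
  rw [Finsupp.sum_of_support_subset (s := insert P S)] at h1
  · rw [Finset.sum_insert hP] at h1
    simp only [divOf_apply] at h1
    linarith
  · intro v hv
    rw [Finsupp.mem_support_iff, divOf_apply] at hv
    rw [Finset.mem_insert]
    by_contra hcon
    push Not at hcon
    exact hv (hS v hcon.1 hcon.2)
  · intro v _
    rfl

/-- For a finite set of conditions at places `≠ P`, there are nonzero elements of the holomorphy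
ring satisfying them (vanishing to high order). -/
theorem exists_mem_holo_ord_ge (P : Place K F) (E : Divisor K F) :
    ∃ h : F, h ≠ 0 ∧ ∀ v : Place K F, v ≠ P → E v ≤ v.ord h := by
  obtain ⟨f, hf0, hf⟩ := exists_effective (K := K) (F := F)
    (D := Finsupp.single P (genusFF K F + Divisor.degree E) - E) (by
      rw [map_sub, degree_single_one]
      linarith)
  refine ⟨f, hf0, fun v hv => ?_⟩
  have h1 := hf v
  have h2 : (Finsupp.single P ((genusFF K F : ℤ) + Divisor.degree E) : Divisor K F) v = 0 := by
    simp [hv]
  simp only [Finsupp.coe_zero, Pi.zero_apply, Finsupp.coe_add, Finsupp.coe_sub, Pi.add_apply,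
    Pi.sub_apply, divOf_apply, h2] at h1
  linarith

/-- There is an element with prescribed orders at a finite set of places away from `P`, and at
least prescribed order elsewhere outside `P`. -/
theorem exists_ord_eq_at (P : Place K F) (D : Divisor K F) (w : Place K F) (hw : w ≠ P) :
    ∃ a : F, a ≠ 0 ∧ w.ord a = D w ∧ ∀ v : Place K F, v ≠ P → D v ≤ v.ord a := by
  obtain ⟨f, hf0, hf, hord⟩ := exists_ord_eq_neg (K := K) (F := F)
    (D := Finsupp.single P (2 * (genusFF K F : ℤ) + Divisor.degree D) - D) w (by
      rw [map_sub, degree_single_one]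
      linarith)
  have h3 : ∀ v : Place K F, v ≠ P →
      (Finsupp.single P (2 * (genusFF K F : ℤ) + Divisor.degree D) : Divisor K F) v = 0 := by
    intro v hv
    simp [hv]
  refine ⟨f, hf0, ?_, fun v hv => ?_⟩
  · rw [hord, Finsupp.sub_apply, h3 w hw]
    ring
  · have h1 := (mem_riemannRochSpace_iff.mp hf v).resolve_left hf0
    rw [Finsupp.sub_apply, h3 v hv] at h1
    linarith

instance isFractionRing_holo (P : Place K F) : IsFractionRing (holo P) F := by
  apply IsFractionRing.of_field
  intro f
  obtain ⟨h, h0, hh⟩ := exists_mem_holo_ord_ge P (polesOf f)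
  have h1 : h ∈ holo P := by
    rw [mem_holo]
    intro v hv
    have h2 := hh v hv
    rw [polesOf_apply] at h2
    exact (le_max_right _ _).trans h2
  have h2 : h * f ∈ holo P := by
    rw [mem_holo]
    intro v hv
    rcases eq_or_ne f 0 with rfl | hf
    · simp
    rw [v.ord_mul h0 hf]
    have h2 := hh v hv
    rw [polesOf_apply] at h2
    have h3 := le_max_left (-v.ord f) 0
    linarith
  refine ⟨⟨h * f, h2⟩, ⟨h, h1⟩, ?_⟩
  show f = (h * f) / h
  field_simp

instance isIntegrallyClosed_holo (P : Place K F) : IsIntegrallyClosed (holo P) := by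
  rw [isIntegrallyClosed_iff F]
  intro f hf
  have h1 : f ∈ holo P := by
    intro v hv
    have h2 : IsIntegral v.toValuationSubring f := by
      let φ : holo P →+* v.toValuationSubring :=
        { toFun := fun x => ⟨x.1, x.2 v hv⟩
          map_one' := rfl
          map_mul' := fun _ _ => rfl
          map_zero' := rfl
          map_add' := fun _ _ => rfl }
      obtain ⟨p, hp, hpf⟩ := hf
      refine ⟨p.map φ, hp.map φ, ?_⟩
      rw [Polynomial.eval₂_map]
      exact hpf
    obtain ⟨y, hy⟩ := IsIntegrallyClosed.isIntegral_iff.mp h2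
    rw [← hy]
    exact y.2
  exact ⟨⟨f, h1⟩, rfl⟩

end Fermat.Agent.RR
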