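import Fermat.Agent.RR.HoloPoints
import Fermat.Prelude.Def_AlgebraicCurve_BaseChangeGalois

/-!
# Semilinear automorphisms and the holomorphy ring
-/

set_option autoImplicit false
set_option linter.unusedSectionVars false

noncomputable section

open WithZero IsLocalRing AlgebraicCurve IntermediateField
open scoped nonZeroDivisors

namespace Fermat.Agent.RR

/-! ### The isomorphism of class groups attached to an isomorphism of Dedekind rings -/

section ClassGroup

variable {R S : Type*} [CommRing R] [CommRing S] [IsDedekindDomain R] [IsDedekindDomain S]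

theorem map_mem_nonZeroDivisors (e : R ≃+* S) (I : (Ideal R)⁰) :
    (I : Ideal R).map e ∈ (Ideal S)⁰ := by
  rw [mem_nonZeroDivisors_iff_ne_zero, Ideal.zero_eq_bot]
  have h := mem_nonZeroDivisors_iff_ne_zero.mp I.2
  rw [Ideal.zero_eq_bot] at h
  rwa [Ne, Ideal.map_eq_bot_iff_of_injective e.injective]

theorem mulEquiv_mk0 (e : R ≃+* S) (I : (Ideal R)⁰) :
    ClassGroup.mulEquiv e (ClassGroup.mk0 I) =
      ClassGroup.mk0 ⟨(I : Ideal R).map e, map_mem_nonZeroDivisors e I⟩ := by
  apply (ClassGroup.equiv (FractionRing S)).injective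
  rw [ClassGroup.equiv_mk0]
  unfold ClassGroup.mulEquiv
  rw [MulEquiv.trans_apply, MulEquiv.trans_apply, MulEquiv.apply_symm_apply,
    ClassGroup.equiv_mk0, QuotientGroup.congr_mk']
  congr 1
  apply Units.ext
  rw [FractionalIdeal.coe_mk0]
  show FractionalIdeal.ringEquivOfRingEquiv (FractionRing R) (FractionRing S) e
    (FractionalIdeal.mk0 (FractionRing R) I : FractionalIdeal R⁰ (FractionRing R)) = _
  rw [FractionalIdeal.coe_mk0]
  apply FractionalIdeal.ext
  intro x
  rw [FractionalIdeal.mem_coeIdeal]
  constructor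
  · rintro ⟨y, hy, rfl⟩
    obtain ⟨z, hz, rfl⟩ := hy
    refine ⟨e z, Ideal.mem_map_of_mem _ hz, ?_⟩
    exact (IsFractionRing.ringEquivOfRingEquiv_algebraMap e (K := FractionRing R)
      (L := FractionRing S) z).symm
  · rintro ⟨y, hy, rfl⟩
    have hy' : y ∈ Ideal.map e (I : Ideal R) := hy
    rw [Ideal.mem_map_iff_of_surjective _ e.surjective] at hy'
    obtain ⟨z, hz, rfl⟩ := hy'
    exact ⟨algebraMap R (FractionRing R) z, ⟨z, hz, rfl⟩,
      IsFractionRing.ringEquivOfRingEquiv_algebraMap e (K := FractionRing R)
        (L := FractionRing S) z⟩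

end ClassGroup

variable {K F : Type*} [Field K] [Field F] [Algebra K F]

theorem smul_ne_self_iff {g : SemilinearAut K F} {P Q : Place K F} (hg : g • P = Q)
    (v : Place K F) : g • v ≠ Q ↔ v ≠ P := by
  rw [← hg, Ne, (MulAction.injective g).eq_iff]

theorem inv_smul_eq {g : SemilinearAut K F} {P Q : Place K F} (hg : g • P = Q) :
    g⁻¹ • Q = P := by
  rw [← hg, inv_smul_smul]

/-- A semilinear automorphism maps the holomorphy ring at `P` to the one at `g • P`. -/
theorem smul_mem_holo {g : SemilinearAut K F} {P Q : Place K F} (hg : g • P = Q) {f : F}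
    (hf : f ∈ holo P) : g • f ∈ holo Q := by
  rw [mem_holo] at hf ⊢
  intro v hv
  have h1 := SemilinearAut.ord_smul g (g⁻¹ • v) f
  rw [smul_inv_smul] at h1
  rw [h1]
  apply hf
  rwa [← smul_ne_self_iff hg, smul_inv_smul]

/-- The isomorphism of holomorphy rings given by a semilinear automorphism. -/
def holoMap (g : SemilinearAut K F) {P Q : Place K F} (hg : g • P = Q) : holo P ≃+* holo Q where
  toFun f := ⟨g • (f : F), smul_mem_holo hg f.2⟩
  invFun f := ⟨g⁻¹ • (f : F), smul_mem_holo (inv_smul_eq hg) f.2⟩
  left_inv f := Subtype.ext (inv_smul_smul g (f : F))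
  right_inv f := Subtype.ext (smul_inv_smul g (f : F))
  map_mul' a b := Subtype.ext (smul_mul' g (a : F) (b : F))
  map_add' a b := Subtype.ext (smul_add g (a : F) (b : F))

@[simp]
theorem coe_holoMap (g : SemilinearAut K F) {P Q : Place K F} (hg : g • P = Q) (f : holo P) :
    ((holoMap g hg f : holo Q) : F) = g • (f : F) := rfl

@[simp]
theorem holoMap_algebraMap (g : SemilinearAut K F) {P Q : Place K F} (hg : g • P = Q) (a : K) :
    holoMap g hg (algebraMap K (holo P) a) = algebraMap K (holo Q) (SemilinearAut.baseAut g a) :=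
  Subtype.ext (SemilinearAut.smul_algebraMap g a)

theorem holoMap_smul (g : SemilinearAut K F) {P Q : Place K F} (hg : g • P = Q) (a : K)
    (f : holo P) : holoMap g hg (a • f) = SemilinearAut.baseAut g a • holoMap g hg f := by
  rw [Algebra.smul_def, Algebra.smul_def, map_mul, holoMap_algebraMap]

theorem holoMap_symm (g : SemilinearAut K F) {P Q : Place K F} (hg : g • P = Q) :
    (holoMap g hg).symm = holoMap g⁻¹ (inv_smul_eq hg) := by
  ext f
  rfl

theorem holoMap_mul (g h : SemilinearAut K F) {P Q R : Place K F} (hh : h • P = Q)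
    (hg : g • Q = R) (hgh : (g * h) • P = R) (f : holo P) :
    holoMap (g * h) hgh f = holoMap g hg (holoMap h hh f) := rfl

theorem pdeg_smul (g : SemilinearAut K F) {P Q : Place K F} (hg : g • P = Q) (f : F) :
    pdeg Q (g • f) = pdeg P f := by
  unfold pdeg
  rw [← hg, SemilinearAut.ord_smul]

theorem map_placeIdeal (g : SemilinearAut K F) {P Q : Place K F} (hg : g • P = Q)
    {v : Place K F} (hv : v ≠ P) :
    (placeIdeal P v).map (holoMap g hg) = placeIdeal Q (g • v) := by
  have hv' : g • v ≠ Q := (smul_ne_self_iff hg v).mpr hv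
  ext f
  rw [Ideal.mem_map_iff_of_surjective _ (holoMap g hg).surjective, mem_placeIdeal hv']
  constructor
  · rintro ⟨h, hh, rfl⟩
    rw [mem_placeIdeal hv] at hh
    rw [coe_holoMap, SemilinearAut.ord_smul]
    rcases hh with hh | hh
    · left
      rw [hh, smul_zero]
    · exact Or.inr hh
  · intro hf
    refine ⟨(holoMap g hg).symm f, ?_, RingEquiv.apply_symm_apply _ _⟩
    rw [mem_placeIdeal hv]
    have h1 : (((holoMap g hg).symm f : holo P) : F) = g⁻¹ • (f : F) := rfl
    rw [h1]
    rcases hf with hf | hf
    · left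
      rw [hf, smul_zero]
    · right
      have h2 := SemilinearAut.ord_smul g v (g⁻¹ • (f : F))
      rw [smul_inv_smul] at h2
      rwa [← h2]

variable [IsAlgClosed K] [FunctionField K F]

/-- The class of a divisor is equivariant. -/
theorem classHom_smul (g : SemilinearAut K F) {P Q : Place K F} (hg : g • P = Q)
    (D : Divisor K F) :
    classHom Q (g • D) =
      Additive.ofMul (ClassGroup.mulEquiv (holoMap g hg) (classHom P D).toMul) := by
  induction D using Finsupp.induction_linear with
  | zero =>
    rw [smul_zero, map_zero, map_zero, toMul_zero, map_one, ofMul_one]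
  | add D E hD hE =>
    rw [smul_add, map_add, map_add, hD, hE, toMul_add, map_mul, ofMul_mul]
  | single v n =>
    rw [SemilinearAut.smul_single]
    by_cases hv : v = P
    · subst hv
      rw [hg, classHom_single_self, classHom_single_self, toMul_zero, map_one, ofMul_one]
    · have hv' : g • v ≠ Q := (smul_ne_self_iff hg v).mpr hv
      have h1 : (Finsupp.single v n : Divisor K F) = n • (Finsupp.single v 1 : Divisor K F) := by
        rw [Finsupp.smul_single, smul_eq_mul, mul_one]
      have h2 : (Finsupp.single (g • v) n : Divisor K F) =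
          n • (Finsupp.single (g • v) 1 : Divisor K F) := by
        rw [Finsupp.smul_single, smul_eq_mul, mul_one]
      rw [h1, h2, map_zsmul, map_zsmul, toMul_zsmul, map_zpow, ofMul_zpow,
        classHom_single_one hv, classHom_single_one hv', toMul_ofMul, mulEquiv_mk0]
      congr 4
      exact (map_placeIdeal g hg hv).symm

/-- **Equivariance** of the identification of the degree zero divisor class group with the class
group of the holomorphy ring. -/
theorem pic0Equiv_smul (g : SemilinearAut K F) {P Q : Place K F} (hg : g • P = Q)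
    (x : Pic0 K F) :
    pic0Equiv Q (g • x) =
      Additive.ofMul (ClassGroup.mulEquiv (holoMap g hg) (pic0Equiv P x).toMul) := by
  obtain ⟨D, rfl⟩ := Pic0.mk_surjective x
  rw [SemilinearAut.pic0_smul_mk, pic0Equiv_mk, pic0Equiv_mk, SemilinearAut.coe_degZeroSMulHom,
    classHom_smul g hg]

/-- The action on the points of the holomorphy ring. -/
def pointSMul (g : SemilinearAut K F) {P Q : Place K F} (hg : g • P = Q) (x : holo P →ₐ[K] K) :
    holo Q →ₐ[K] K where
  toFun f := SemilinearAut.baseAut g (x ((holoMap g hg).symm f))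
  map_one' := by rw [map_one, map_one, map_one]
  map_mul' a b := by rw [map_mul, map_mul, map_mul]
  map_zero' := by rw [map_zero, map_zero, map_zero]
  map_add' a b := by rw [map_add, map_add, map_add]
  commutes' a := by
    rw [holoMap_symm, holoMap_algebraMap, AlgHom.commutes, SemilinearAut.baseAut_inv]
    exact RingEquiv.apply_symm_apply _ _

theorem pointSMul_apply (g : SemilinearAut K F) {P Q : Place K F} (hg : g • P = Q)
    (x : holo P →ₐ[K] K) (f : holo P) :
    pointSMul g hg x (holoMap g hg f) = SemilinearAut.baseAut g (x f) := by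
  show SemilinearAut.baseAut g (x ((holoMap g hg).symm (holoMap g hg f))) = _
  rw [RingEquiv.symm_apply_apply]

theorem ker_pointSMul (g : SemilinearAut K F) {P Q : Place K F} (hg : g • P = Q)
    (x : holo P →ₐ[K] K) :
    RingHom.ker (pointSMul g hg x) = (RingHom.ker x).map (holoMap g hg) := by
  ext f
  rw [Ideal.mem_map_iff_of_surjective _ (holoMap g hg).surjective, RingHom.mem_ker]
  constructor
  · intro hf
    refine ⟨(holoMap g hg).symm f, ?_, RingEquiv.apply_symm_apply _ _⟩
    rw [RingHom.mem_ker]
    exact (map_eq_zero_iff _ (SemilinearAut.baseAut g).injective).mp hf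
  · rintro ⟨h, hh, rfl⟩
    rw [RingHom.mem_ker] at hh
    rw [pointSMul_apply, hh, map_zero]

theorem pointSMul_pointOf (g : SemilinearAut K F) {P Q : Place K F} (hg : g • P = Q)
    {v : Place K F} (hv : v ≠ P) :
    pointSMul g hg (pointOf P v hv) = pointOf Q (g • v) ((smul_ne_self_iff hg v).mpr hv) := by
  apply Fermat.Agent.MW.ker_injective
  show RingHom.ker (pointSMul g hg (pointOf P v hv)) = RingHom.ker (pointOf Q (g • v) _)
  rw [ker_pointSMul, ker_pointOf, ker_pointOf, map_placeIdeal g hg hv]

theorem placeOf_pointSMul (g : SemilinearAut K F) {P Q : Place K F} (hg : g • P = Q)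
    (x : holo P →ₐ[K] K) : placeOf Q (pointSMul g hg x) = g • placeOf P x := by
  conv_lhs => rw [← pointOf_placeOf P x, pointSMul_pointOf g hg]
  rw [placeOf_pointOf]

/-- The divisor of a multiset of points is equivariant. -/
theorem pointsDiv_map_pointSMul (g : SemilinearAut K F) {P Q : Place K F} (hg : g • P = Q)
    (s : Multiset (holo P →ₐ[K] K)) :
    pointsDiv Q (s.map (pointSMul g hg)) = g • pointsDiv P s := by
  induction s using Multiset.induction_on with
  | empty => simp
  | cons x s ih =>
    rw [Multiset.map_cons, pointsDiv_cons, pointsDiv_cons, ih, smul_add,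
      SemilinearAut.smul_single, placeOf_pointSMul]

theorem idl_map_pointSMul (g : SemilinearAut K F) {P Q : Place K F} (hg : g • P = Q)
    (s : Multiset (holo P →ₐ[K] K)) :
    Fermat.Agent.MW.idl (s.map (pointSMul g hg)) =
      (Fermat.Agent.MW.idl s).map (holoMap g hg) := by
  induction s using Multiset.induction_on with
  | empty => rw [Multiset.map_zero, Fermat.Agent.MW.idl_zero, Fermat.Agent.MW.idl_zero,
      Ideal.map_top]
  | cons x s ih =>
    rw [Multiset.map_cons, Fermat.Agent.MW.idl_cons, Fermat.Agent.MW.idl_cons, ih,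
      ker_pointSMul]
    exact (Ideal.map_mul _ _ _).symm

end Fermat.Agent.RR
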