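import Fermat.Agent.RR.HoloBasic

/-!
# The holomorphy ring is a Dedekind domain; its maximal ideals
-/

set_option autoImplicit false
set_option linter.unusedSectionVars false

noncomputable section

open WithZero IsLocalRing AlgebraicCurve IntermediateField

namespace Fermat.Agent.RR

variable {K F : Type*} [Field K] [Field F] [Algebra K F]

/-- The ideal of functions vanishing at `v` to order at least `n` (all of the ring if `v = P`). -/
def placeIdealPow (P v : Place K F) (n : ℤ) : Ideal (holo P) where
  carrier := {f | v ≠ P → ((f : F) = 0 ∨ n ≤ v.ord (f : F))}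
  zero_mem' := fun _ => Or.inl rfl
  add_mem' := by
    intro a b ha hb hv
    have ha := ha hv
    have hb := hb hv
    show ((a : F) + b = 0) ∨ n ≤ v.ord ((a : F) + b)
    by_cases h : (a : F) + b = 0
    · exact Or.inl h
    rcases ha with ha | ha
    · rw [ha, zero_add] at h ⊢
      exact hb
    rcases hb with hb | hb
    · rw [hb, add_zero] at h ⊢
      exact Or.inr ha
    exact Or.inr ((le_min ha hb).trans (ord_add v h))
  smul_mem' := by
    intro c a ha hv
    have ha := ha hv
    show ((c : F) * a = 0) ∨ n ≤ v.ord ((c : F) * a)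
    rcases ha with ha | ha
    · left
      rw [ha, mul_zero]
    · by_cases h0 : (c : F) * a = 0
      · exact Or.inl h0
      right
      have hc : (c : F) ≠ 0 := left_ne_zero_of_mul h0
      have ha0 : (a : F) ≠ 0 := right_ne_zero_of_mul h0
      rw [v.ord_mul hc ha0]
      have := mem_holo.mp c.2 v hv
      linarith

theorem mem_placeIdealPow {P v : Place K F} {n : ℤ} {f : holo P} :
    f ∈ placeIdealPow P v n ↔ (v ≠ P → ((f : F) = 0 ∨ n ≤ v.ord (f : F))) := Iff.rfl

/-- The maximal ideal of the holomorphy ring attached to `v ≠ P`. -/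
def placeIdeal (P v : Place K F) : Ideal (holo P) := placeIdealPow P v 1

theorem mem_placeIdeal {P v : Place K F} (hv : v ≠ P) {f : holo P} :
    f ∈ placeIdeal P v ↔ ((f : F) = 0 ∨ 0 < v.ord (f : F)) := by
  unfold placeIdeal
  rw [mem_placeIdealPow]
  constructor
  · intro h
    rcases h hv with h | h
    · exact Or.inl h
    · exact Or.inr (by omega)
  · rintro h _
    rcases h with h | h
    · exact Or.inl h
    · exact Or.inr (by omega)

theorem placeIdeal_pow_le (P v : Place K F) (n : ℕ) :
    placeIdeal P v ^ n ≤ placeIdealPow P v n := by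
  induction n with
  | zero =>
    intro f _ hv
    rcases eq_or_ne (f : F) 0 with h | h
    · exact Or.inl h
    · right
      simpa using mem_holo.mp f.2 v hv
  | succ n ih =>
    rw [pow_succ, Ideal.mul_le]
    intro a ha b hb hv
    have ha := ih ha hv
    have hb := (mem_placeIdeal hv).mp hb
    show ((a : F) * b = 0) ∨ ((n + 1 : ℕ) : ℤ) ≤ v.ord ((a : F) * b)
    by_cases h0 : (a : F) * b = 0
    · exact Or.inl h0
    right
    have ha0 : (a : F) ≠ 0 := left_ne_zero_of_mul h0
    have hb0 : (b : F) ≠ 0 := right_ne_zero_of_mul h0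
    rw [v.ord_mul ha0 hb0]
    have h1 := ha.resolve_left ha0
    have h2 := hb.resolve_left hb0
    push_cast
    omega

/-- Inclusion of the holomorphy ring in a valuation ring. -/
def toO (P v : Place K F) (hv : v ≠ P) : holo P →ₐ[K] v.toValuationSubring where
  toFun f := ⟨f.1, f.2 v hv⟩
  map_one' := rfl
  map_mul' _ _ := rfl
  map_zero' := rfl
  map_add' _ _ := rfl
  commutes' _ := rfl

/-- Evaluation at a place `v ≠ P`, with values in the residue field. -/
def evalAt (P v : Place K F) (hv : v ≠ P) : holo P →+* v.ResidueField :=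
  (IsLocalRing.residue v.toValuationSubring).comp (toO P v hv : holo P →+* v.toValuationSubring)

theorem evalAt_eq_zero_iff (P v : Place K F) (hv : v ≠ P) (f : holo P) :
    evalAt P v hv f = 0 ↔ f ∈ placeIdeal P v := by
  rw [mem_placeIdeal hv]
  show IsLocalRing.residue v.toValuationSubring (toO P v hv f) = 0 ↔ _
  rw [IsLocalRing.residue_eq_zero_iff, mem_maximalIdeal_iff]
  rfl

variable [IsAlgClosed K] [FunctionField K F]

theorem evalAt_surjective (P v : Place K F) (hv : v ≠ P) :
    Function.Surjective (evalAt P v hv) := by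
  intro y
  have : Algebra.IsIntegral K v.ResidueField := Algebra.IsIntegral.of_finite K v.ResidueField
  have hbij : Function.Bijective (algebraMap K v.ResidueField) :=
    IsAlgClosed.algebraMap_bijective_of_isIntegral
  obtain ⟨c, rfl⟩ := hbij.2 y
  exact ⟨algebraMap K (holo P) c, rfl⟩

theorem ker_evalAt (P v : Place K F) (hv : v ≠ P) :
    RingHom.ker (evalAt P v hv) = placeIdeal P v := by
  ext f
  rw [RingHom.mem_ker, evalAt_eq_zero_iff]

theorem isMaximal_placeIdeal {P v : Place K F} (hv : v ≠ P) : (placeIdeal P v).IsMaximal := by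
  rw [← ker_evalAt P v hv]
  exact RingHom.ker_isMaximal_of_surjective _ (evalAt_surjective P v hv)

theorem exists_placeIdeal_le {P : Place K F} {M : Ideal (holo P)} (hM : M.IsPrime)
    {f : holo P} (hf : f ∈ M) (hf0 : f ≠ 0) : ∃ v : Place K F, v ≠ P ∧ placeIdeal P v ≤ M := by
  classical
  have hf0' : (f : F) ≠ 0 := fun h => hf0 (Subtype.ext h)
  let T : Finset (Place K F) := (divOf (K := K) (f : F)).support.filter (fun v => v ≠ P)
  have hT : ∀ v, v ∈ T ↔ v.ord (f : F) ≠ 0 ∧ v ≠ P := by
    intro v
    simp [T]
  have hle : ∏ v ∈ T, placeIdeal P v ^ (v.ord (f : F)).toNat ≤ M := by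
    refine le_trans ?_ ((Ideal.span_singleton_le_iff_mem M).mpr hf)
    intro g hg
    have h1 : ∀ v ∈ T, v.ord (f : F) ≤ v.ord (g : F) ∨ (g : F) = 0 := by
      intro v hv
      have hv' := (hT v).mp hv
      have h2 : g ∈ placeIdeal P v ^ (v.ord (f : F)).toNat :=
        (Ideal.prod_le_inf.trans (Finset.inf_le hv)) hg
      have h3 := placeIdeal_pow_le P v _ h2 hv'.2
      have h4 := mem_holo.mp f.2 v hv'.2
      rcases h3 with h3 | h3
      · exact Or.inr h3
      · left
        omega
    rw [Ideal.mem_span_singleton']
    by_cases hg0 : (g : F) = 0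
    · refine ⟨0, ?_⟩
      rw [zero_mul]
      exact Subtype.ext hg0.symm
    have hmem : (g : F) / f ∈ holo P := by
      rw [mem_holo]
      intro v hv
      rw [ord_div v hg0 hf0']
      by_cases hvT : v ∈ T
      · have := (h1 v hvT).resolve_right hg0
        linarith
      · rw [hT] at hvT
        push Not at hvT
        have h5 : v.ord (f : F) = 0 := by
          by_contra h6
          exact hv (hvT h6)
        rw [h5, sub_zero]
        exact mem_holo.mp g.2 v hv
    refine ⟨⟨(g : F) / f, hmem⟩, ?_⟩
    apply Subtype.ext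
    show (g : F) / f * f = g
    rw [div_mul_cancel₀ _ hf0']
  rw [Ideal.IsPrime.prod_le hM] at hle
  obtain ⟨v, hv, hvM⟩ := hle
  exact ⟨v, ((hT v).mp hv).2, (hM.le_of_pow_le hvM)⟩

/-- Nonzero primes of the holomorphy ring come from places. -/
theorem eq_placeIdeal_of_isPrime {P : Place K F} {M : Ideal (holo P)} (hM : M.IsPrime)
    (h0 : M ≠ ⊥) : ∃ v : Place K F, v ≠ P ∧ M = placeIdeal P v := by
  obtain ⟨f, hf, hf0⟩ := Submodule.exists_mem_ne_zero_of_ne_bot h0
  obtain ⟨v, hv, hle⟩ := exists_placeIdeal_le hM hf hf0
  exact ⟨v, hv, ((isMaximal_placeIdeal hv).eq_of_le hM.ne_top hle).symm⟩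

theorem exists_ne_place (P : Place K F) : ∃ v : Place K F, v ≠ P := by
  obtain ⟨f, hf0, hf, hf'⟩ := exists_single_pole P (n := 2 * genusFF K F + 1) (by omega)
  by_contra h
  push Not at h
  have h1 := sum_ord_eq (P := P) (f := f) ∅ (by simp) (by
    intro v hv
    exact absurd (h v) hv)
  rw [Finset.sum_empty] at h1
  omega

theorem placeIdeal_injective {P v w : Place K F} (hv : v ≠ P) (hw : w ≠ P)
    (h : placeIdeal P v = placeIdeal P w) : v = w := by
  classical
  by_contra hne
  obtain ⟨f, hf, hf'⟩ := strong_approximation (K := K) P {v, w} (by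
    simp only [Finset.mem_insert, Finset.mem_singleton]
    rintro (h | h)
    · exact hv h.symm
    · exact hw h.symm) (fun u => if u = v then 0 else 1) 1
  have hfv := hf v (by simp)
  have hfw := hf w (by simp)
  simp only [if_true, sub_zero] at hfv
  simp only [if_neg (Ne.symm hne)] at hfw
  have hmem : f ∈ holo P := by
    rw [mem_holo]
    intro u hu
    by_cases h1 : u ∈ ({v, w} : Finset (Place K F))
    · simp only [Finset.mem_insert, Finset.mem_singleton] at h1
      rcases h1 with rfl | rfl
      · rcases hfv with h2 | h2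
        · simp [h2]
        · omega
      · have h3 : f = 1 + (f - 1) := by ring
        rw [h3, ord_add_eq_of_lt u one_ne_zero]
        · simp
        · rcases hfw with h2 | h2
          · exact Or.inl h2
          · right
            simp only [Place.ord_one]
            omega
    · exact hf' u h1 hu
  have h1 : (⟨f, hmem⟩ : holo P) ∈ placeIdeal P v := by
    rw [mem_placeIdeal hv]
    rcases hfv with h2 | h2
    · exact Or.inl h2
    · exact Or.inr (by show 0 < v.ord f; omega)
  rw [h, mem_placeIdeal hw] at h1
  have h3 : f = 1 + (f - 1) := by ring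
  have h4 : (f - 1 = 0 ∨ w.ord (1 : F) < w.ord (f - 1)) := by
    rcases hfw with h2 | h2
    · exact Or.inl h2
    · right
      simp only [Place.ord_one]
      omega
  have h5 : w.ord f = 0 := by
    rw [h3, ord_add_eq_of_lt w one_ne_zero h4]
    simp
  rcases h1 with h1 | h1
  · have h6 : f ≠ 0 := by
      rw [h3]
      exact add_ne_zero_of_ord_lt w one_ne_zero h4
    exact h6 h1
  · have h7 : 0 < w.ord f := h1
    omega

/-- Division with remainder: modulo `f`, every element of the ring is congruent to an element of
bounded degree. -/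
theorem exists_sub_mul_mem {P : Place K F} {f : F} (hf : f ∈ holo P) (hf0 : f ≠ 0) {g : F}
    (hg : g ∈ holo P) : ∃ h ∈ holo P,
      g - f * h ∈ riemannRochSpace
        (Finsupp.single P (2 * genusFF K F + pdeg P f : ℤ) : Divisor K F) := by
  obtain ⟨n, hn⟩ : ∃ n : ℕ, pdeg P g ≤ n := ⟨_, le_rfl⟩
  induction n generalizing g with
  | zero =>
    refine ⟨0, zero_mem _, ?_⟩
    rw [mul_zero, sub_zero, mem_riemannRochSpace_single_iff]
    refine ⟨hg, Or.inr ?_⟩
    have := pdeg_eq hg
    have h2 : (0 : ℤ) ≤ genusFF K F := Int.natCast_nonneg _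
    have h3 : (0 : ℤ) ≤ pdeg P f := Int.natCast_nonneg _
    omega
  | succ n ih =>
    by_cases hlt : pdeg P g ≤ n
    · exact ih hg hlt
    have hgn : pdeg P g = n + 1 := by omega
    by_cases hle : n + 1 ≤ 2 * genusFF K F + pdeg P f
    · refine ⟨0, zero_mem _, ?_⟩
      rw [mul_zero, sub_zero, mem_riemannRochSpace_single_iff]
      refine ⟨hg, Or.inr ?_⟩
      have := pdeg_eq hg
      have h2 : ((n + 1 : ℕ) : ℤ) ≤ 2 * genusFF K F + pdeg P f := by exact_mod_cast hle
      rw [hgn] at this
      linarith
    · push Not at hle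
      obtain ⟨h₁, hh0, hh, hh'⟩ := exists_single_pole P (n := n + 1 - pdeg P f) (by omega)
      have hh₁ : h₁ ∈ holo P := mem_holo.mpr hh'
      have hfP := pdeg_eq hf
      have hgP := pdeg_eq hg
      have hord : P.ord (f * h₁) = -((n : ℤ) + 1) := by
        rw [P.ord_mul hf0 hh0, hh, Nat.cast_sub (by omega)]
        push_cast
        linarith
      obtain ⟨c, hc⟩ := exists_smul_of_adicValuation P (f := g) (g := f * h₁) (n := n) (by
        rw [P.adicValuation_le_exp_iff]
        right
        rw [hgn] at hgP
        push_cast at hgP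
        linarith) (by
        rw [P.adicValuation_le_exp_iff]
        right
        rw [hord]) (by
        rw [P.adicValuation_le_exp_iff, hord]
        push Not
        exact ⟨mul_ne_zero hf0 hh0, by linarith⟩)
      rw [P.adicValuation_le_exp_iff] at hc
      have hmem : g - c • (f * h₁) ∈ holo P :=
        sub_mem hg (Subalgebra.smul_mem _ (mul_mem hf hh₁) c)
      obtain ⟨h₂, hh₂, hr⟩ := ih hmem (by
        unfold pdeg
        rcases hc with hc | hc
        · rw [hc]
          simp
        · omega)
      refine ⟨c • h₁ + h₂, add_mem (Subalgebra.smul_mem _ hh₁ c) hh₂, ?_⟩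
      have heq : g - f * (c • h₁ + h₂) = g - c • (f * h₁) - f * h₂ := by
        rw [mul_add, mul_smul_comm]
        ring
      rw [heq]
      exact hr

instance isNoetherianRing_holo (P : Place K F) : IsNoetherianRing (holo P) := by
  rw [isNoetherianRing_iff_ideal_fg]
  intro I
  by_cases hI : I = ⊥
  · rw [hI]
    exact Submodule.fg_bot
  obtain ⟨f, hf, hf0⟩ := Submodule.exists_mem_ne_zero_of_ne_bot hI
  have hf0' : (f : F) ≠ 0 := fun h => hf0 (Subtype.ext h)
  -- the finite-dimensional subspace of elements of `I` of bounded degree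
  let L : Submodule K F := riemannRochSpace
        (Finsupp.single P (2 * genusFF K F + pdeg P (f : F) : ℤ) : Divisor K F)
  let L' : Submodule K (holo P) := (L.comap (holo P).val.toLinearMap) ⊓ I.restrictScalars K
  have hfinL : Module.Finite K L := finite_riemannRochSpace _
  have hfin : Module.Finite K L' := by
    let ψ : L' →ₗ[K] L :=
      { toFun := fun x => ⟨(x.1 : F), x.2.1⟩
        map_add' := fun _ _ => rfl
        map_smul' := fun _ _ => rfl }
    apply Module.Finite.of_injective ψ
    intro a b hab
    have : ((a.1 : holo P) : F) = b.1 := congrArg (fun x : L => (x : F)) hab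
    exact Subtype.ext (Subtype.ext this)
  obtain ⟨s, hs⟩ := (Module.Finite.iff_fg.mp hfin)
  classical
  refine ⟨insert f s, ?_⟩
  apply le_antisymm
  · rw [Submodule.span_le]
    intro x hx
    rw [Finset.coe_insert, Set.mem_insert_iff] at hx
    rcases hx with rfl | hx
    · exact hf
    · have : x ∈ L' := by
        rw [← hs]
        exact Submodule.subset_span hx
      exact this.2
  · intro g hg
    obtain ⟨h, hh, hr⟩ := exists_sub_mul_mem f.2 hf0' g.2
    have hmem : g - f * ⟨h, hh⟩ ∈ L' := by
      refine ⟨hr, ?_⟩
      exact sub_mem hg (I.mul_mem_right _ hf)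
    have h1 : g - f * ⟨h, hh⟩ ∈ Submodule.span (holo P) (↑(insert f s) : Set (holo P)) := by
      rw [← hs] at hmem
      have h2 : Submodule.span K (s : Set (holo P)) ≤
          (Submodule.span (holo P) (↑(insert f s) : Set (holo P))).restrictScalars K := by
        rw [Submodule.span_le]
        intro x hx
        apply Submodule.subset_span
        rw [Finset.coe_insert]
        exact Set.mem_insert_of_mem _ hx
      exact h2 hmem
    have h2 : f * ⟨h, hh⟩ ∈ Submodule.span (holo P) (↑(insert f s) : Set (holo P)) := by
      apply Ideal.mul_mem_right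
      apply Submodule.subset_span
      rw [Finset.coe_insert]
      exact Set.mem_insert _ _
    have := add_mem h1 h2
    rwa [sub_add_cancel] at this

instance dimensionLEOne_holo (P : Place K F) : Ring.DimensionLEOne (holo P) where
  maximalOfPrime := by
    intro p hp hprime
    obtain ⟨v, hv, rfl⟩ := eq_placeIdeal_of_isPrime hprime hp
    exact isMaximal_placeIdeal hv

instance isDedekindDomain_holo (P : Place K F) : IsDedekindDomain (holo P) where

end Fermat.Agent.RR
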