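import Fermat.Agent.RR.Basic

/-!
# One-step comparison of `L(D)` and `H1(D)` when `D` is replaced by `D + v`
-/

set_option autoImplicit false

noncomputable section

open WithZero IsLocalRing AlgebraicCurve

namespace Fermat.Agent.RR

variable {K F : Type*} [Field K] [Field F] [Algebra K F]

/-- Over an algebraically closed field, every element of the valuation ring is congruent to a
constant. -/
theorem exists_const_of_mem [IsAlgClosed K] (v : Place K F) [Module.Finite K v.ResidueField]
    {f : F} (hf : f ∈ v.toValuationSubring) :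
    ∃ c : K, f - algebraMap K F c = 0 ∨ 0 < v.ord (f - algebraMap K F c) := by
  have : Algebra.IsIntegral K v.ResidueField := Algebra.IsIntegral.of_finite K v.ResidueField
  have hbij : Function.Bijective (algebraMap K v.ResidueField) :=
    IsAlgClosed.algebraMap_bijective_of_isIntegral
  obtain ⟨c, hc⟩ := hbij.2 (IsLocalRing.residue _ (⟨f, hf⟩ : v.toValuationSubring))
  refine ⟨c, ?_⟩
  have h1 : (⟨f, hf⟩ - algebraMap K v.toValuationSubring c : v.toValuationSubring) ∈
      maximalIdeal v.toValuationSubring := by
    rw [← IsLocalRing.residue_eq_zero_iff, map_sub, ← hc]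
    rw [sub_eq_zero]
    rfl
  rw [mem_maximalIdeal_iff] at h1
  exact h1

theorem exists_smul_of_adicValuation [IsAlgClosed K] (v : Place K F)
    [Module.Finite K v.ResidueField] {f g : F} {n : ℤ}
    (hf : v.adicValuation f ≤ exp (n + 1)) (hg : v.adicValuation g ≤ exp (n + 1))
    (hg' : ¬ v.adicValuation g ≤ exp n) :
    ∃ c : K, v.adicValuation (f - c • g) ≤ exp n := by
  rw [v.adicValuation_le_exp_iff] at hf hg hg'
  push Not at hg'
  have hg1 := hg.resolve_left hg'.1
  have hgo : v.ord g = -(n + 1) := by omega
  rcases eq_or_ne f 0 with rfl | hf0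
  · exact ⟨0, by simp⟩
  have hf1 := hf.resolve_left hf0
  have hmem : f / g ∈ v.toValuationSubring := by
    rw [mem_iff_ord_nonneg, ord_div v hf0 hg'.1]
    omega
  obtain ⟨c, hc⟩ := exists_const_of_mem v hmem
  refine ⟨c, ?_⟩
  rw [v.adicValuation_le_exp_iff]
  have h2 : f - c • g = (f / g - algebraMap K F c) * g := by
    rw [sub_mul, div_mul_cancel₀ _ hg'.1, Algebra.smul_def]
  rw [h2]
  rcases hc with hc | hc
  · left
    rw [hc, zero_mul]
  · by_cases h0 : f / g - algebraMap K F c = 0
    · left
      rw [h0, zero_mul]
    right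
    rw [v.ord_mul h0 hg'.1]
    omega

theorem add_single_apply_self (D : Divisor K F) (v : Place K F) (n : ℤ) :
    (D + Finsupp.single v n) v = D v + n := by
  simp

theorem add_single_apply_ne (D : Divisor K F) {v w : Place K F} (n : ℤ) (h : w ≠ v) :
    (D + Finsupp.single v n) w = D w := by
  classical
  simp [h.symm]

theorem le_add_single (D : Divisor K F) (v : Place K F) : D ≤ D + Finsupp.single v 1 := by
  intro w
  classical
  by_cases h : w = v
  · subst h
    simp
  · rw [add_single_apply_ne D 1 h]

theorem riemannRochSpace_mono {D D' : Divisor K F} (h : D ≤ D') :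
    riemannRochSpace D ≤ riemannRochSpace D' := fun _ hf v =>
  (hf v).trans (exp_le_exp.mpr (Finsupp.le_def.mp h v))

/-- Elementwise criterion for membership in `Λ(D)` knowing membership in `Λ(D + v)`. -/
theorem mem_repartitionsOf_of_add_single {D : Divisor K F} {v : Place K F}
    {α : ↥(repartitions K F)} (hα : α ∈ repartitionsOf (D + Finsupp.single v 1))
    (hv : v.adicValuation ((α : Place K F → F) v) ≤ exp (D v)) :
    α ∈ repartitionsOf D := by
  intro w
  by_cases h : w = v
  · subst h
    exact hv
  · have := hα w
    rwa [add_single_apply_ne D 1 h] at this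

theorem mem_riemannRochSpace_of_add_single {D : Divisor K F} {v : Place K F}
    {f : F} (hf : f ∈ riemannRochSpace (D + Finsupp.single v 1))
    (hv : v.adicValuation f ≤ exp (D v)) :
    f ∈ riemannRochSpace D := by
  intro w
  by_cases h : w = v
  · subst h
    exact hv
  · have := hf w
    rwa [add_single_apply_ne D 1 h] at this

variable [IsAlgClosed K]

theorem repartitionsOf_add_single (D : Divisor K F) (v : Place K F)
    [Module.Finite K v.ResidueField] {β : ↥(repartitions K F)}
    (hβ : β ∈ repartitionsOf (D + Finsupp.single v 1)) (hβ' : β ∉ repartitionsOf D) :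
    repartitionsOf (D + Finsupp.single v 1) = repartitionsOf D ⊔ Submodule.span K {β} := by
  apply le_antisymm
  · intro α hα
    have h1 : ¬ v.adicValuation ((β : Place K F → F) v) ≤ exp (D v) := fun h =>
      hβ' (mem_repartitionsOf_of_add_single hβ h)
    have h2 := hβ v
    have h3 := hα v
    rw [add_single_apply_self] at h2 h3
    obtain ⟨c, hc⟩ := exists_smul_of_adicValuation v h3 h2 h1
    rw [Submodule.mem_sup]
    refine ⟨α - c • β, ?_, c • β, Submodule.smul_mem _ _ (Submodule.mem_span_singleton_self β),
      by abel⟩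
    apply mem_repartitionsOf_of_add_single (v := v)
    · exact Submodule.sub_mem _ hα (Submodule.smul_mem _ _ hβ)
    · exact hc
  · apply sup_le (repartitionsOf_mono (le_add_single D v))
    rw [Submodule.span_singleton_le_iff_mem]
    exact hβ

theorem riemannRochSpace_add_single (D : Divisor K F) (v : Place K F)
    [Module.Finite K v.ResidueField] {g : F}
    (hg : g ∈ riemannRochSpace (D + Finsupp.single v 1)) (hg' : g ∉ riemannRochSpace D) :
    riemannRochSpace (D + Finsupp.single v 1) = riemannRochSpace D ⊔ Submodule.span K {g} := by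
  apply le_antisymm
  · intro f hf
    have h1 : ¬ v.adicValuation g ≤ exp (D v) := fun h =>
      hg' (mem_riemannRochSpace_of_add_single hg h)
    have h2 := hg v
    have h3 := hf v
    rw [add_single_apply_self] at h2 h3
    obtain ⟨c, hc⟩ := exists_smul_of_adicValuation v h3 h2 h1
    rw [Submodule.mem_sup]
    refine ⟨f - c • g, ?_, c • g, Submodule.smul_mem _ _ (Submodule.mem_span_singleton_self g),
      by abel⟩
    apply mem_riemannRochSpace_of_add_single (v := v)
    · exact Submodule.sub_mem _ hf (Submodule.smul_mem _ _ hg)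
    · exact hc
  · apply sup_le (riemannRochSpace_mono (le_add_single D v))
    rw [Submodule.span_singleton_le_iff_mem]
    exact hg

/-- `L(D)` finite-dimensional implies `L(D + v)` finite-dimensional. -/
theorem finite_riemannRochSpace_add_single (D : Divisor K F) (v : Place K F)
    [Module.Finite K v.ResidueField] [h : Module.Finite K (riemannRochSpace D)] :
    Module.Finite K (riemannRochSpace (D + Finsupp.single v 1)) := by
  by_cases hh : riemannRochSpace (D + Finsupp.single v 1) ≤ riemannRochSpace D
  · rw [le_antisymm hh (riemannRochSpace_mono (le_add_single D v))]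
    exact h
  · rw [SetLike.not_le_iff_exists] at hh
    obtain ⟨g, hg, hg'⟩ := hh
    rw [riemannRochSpace_add_single D v hg hg']
    infer_instance

omit [IsAlgClosed K] in
theorem finrank_sup_span_singleton {V : Type*} [AddCommGroup V] [Module K V]
    (L : Submodule K V) [Module.Finite K L] {g : V} (hg : g ∉ L) :
    Module.finrank K ↥(L ⊔ Submodule.span K {g}) = Module.finrank K L + 1 := by
  have h := Submodule.finrank_sup_add_finrank_inf_eq L (Submodule.span K {g})
  have hg0 : g ≠ 0 := fun h0 => hg (h0 ▸ L.zero_mem)
  have h1 : L ⊓ Submodule.span K {g} = ⊥ := by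
    rw [eq_bot_iff]
    rintro x ⟨hx1, hx2⟩
    rw [SetLike.mem_coe, Submodule.mem_span_singleton] at hx2
    obtain ⟨c, rfl⟩ := hx2
    rcases eq_or_ne c 0 with rfl | hc
    · simp
    · exfalso
      apply hg
      have := L.smul_mem c⁻¹ hx1
      rwa [smul_smul, inv_mul_cancel₀ hc, one_smul] at this
  rw [h1, finrank_bot, add_zero, finrank_span_singleton hg0] at h
  exact h

omit [IsAlgClosed K] in
theorem finrank_quotient_sup_span_singleton {V : Type*} [AddCommGroup V] [Module K V]
    (L : Submodule K V) [Module.Finite K (V ⧸ L)] {g : V} (hg : g ∉ L) :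
    Module.finrank K (V ⧸ L) = Module.finrank K (V ⧸ (L ⊔ Submodule.span K {g})) + 1 := by
  have hle : L ≤ L ⊔ Submodule.span K {g} := le_sup_left
  let φ : (V ⧸ L) →ₗ[K] (V ⧸ (L ⊔ Submodule.span K {g})) := Submodule.factor hle
  have hsurj : Function.Surjective φ := Submodule.factor_surjective hle
  have h := LinearMap.finrank_range_add_finrank_ker φ
  have hker : LinearMap.ker φ = Submodule.span K {L.mkQ g} := by
    ext x
    obtain ⟨y, rfl⟩ := L.mkQ_surjective x
    rw [LinearMap.mem_ker]
    have hy : φ (L.mkQ y) = (L ⊔ Submodule.span K {g}).mkQ y := rfl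
    rw [hy, Submodule.mkQ_apply, Submodule.Quotient.mk_eq_zero, Submodule.mem_sup,
      Submodule.mem_span_singleton]
    constructor
    · rintro ⟨a, ha, b, hb, rfl⟩
      rw [Submodule.mem_span_singleton] at hb
      obtain ⟨c, rfl⟩ := hb
      refine ⟨c, ?_⟩
      have h0 : (Submodule.Quotient.mk a : V ⧸ L) = 0 := (Submodule.Quotient.mk_eq_zero L).mpr ha
      rw [map_add, map_smul, Submodule.mkQ_apply, Submodule.mkQ_apply, h0, zero_add]
    · rintro ⟨c, hc⟩
      refine ⟨y - c • g, ?_, c • g, Submodule.mem_span_singleton.mpr ⟨c, rfl⟩, by abel⟩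
      rw [← Submodule.Quotient.mk_eq_zero, ← Submodule.mkQ_apply, map_sub, map_smul, hc, sub_self]
  have hg0 : L.mkQ g ≠ 0 := by
    rw [Submodule.mkQ_apply, ne_eq, Submodule.Quotient.mk_eq_zero]
    exact hg
  rw [LinearMap.range_eq_top.mpr hsurj, finrank_top, hker, finrank_span_singleton hg0] at h
  exact h.symm

omit [IsAlgClosed K] in
theorem finite_quotient_of_sup_span_singleton {V : Type*} [AddCommGroup V] [Module K V]
    (L : Submodule K V) {g : V} [Module.Finite K (V ⧸ (L ⊔ Submodule.span K {g}))] :
    Module.Finite K (V ⧸ L) := by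
  have hle : L ≤ L ⊔ Submodule.span K {g} := le_sup_left
  let φ : (V ⧸ L) →ₗ[K] (V ⧸ (L ⊔ Submodule.span K {g})) := Submodule.factor hle
  have hker : LinearMap.ker φ ≤ Submodule.span K {L.mkQ g} := by
    intro x
    obtain ⟨y, rfl⟩ := L.mkQ_surjective x
    rw [LinearMap.mem_ker]
    have hy : φ (L.mkQ y) = (L ⊔ Submodule.span K {g}).mkQ y := rfl
    rw [hy, Submodule.mkQ_apply, Submodule.Quotient.mk_eq_zero, Submodule.mem_sup,
      Submodule.mem_span_singleton]
    rintro ⟨a, ha, b, hb, rfl⟩
    rw [Submodule.mem_span_singleton] at hb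
    obtain ⟨c, rfl⟩ := hb
    refine ⟨c, ?_⟩
    have h0 : (Submodule.Quotient.mk a : V ⧸ L) = 0 := (Submodule.Quotient.mk_eq_zero L).mpr ha
    rw [map_add, map_smul, Submodule.mkQ_apply, Submodule.mkQ_apply, h0, zero_add]
  have h1 : Module.Finite K (LinearMap.ker φ) :=
    Module.Finite.of_injective (Submodule.inclusion hker) (Submodule.inclusion_injective hker)
  have h2 : Module.Finite K (LinearMap.range φ) := inferInstance
  have h3 : Module.Finite K ((V ⧸ L) ⧸ LinearMap.ker φ) :=
    Module.Finite.equiv (LinearMap.quotKerEquivRange φ).symm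
  exact Module.Finite.of_submodule_quotient (LinearMap.ker φ)

/-! ### The submodule `Λ(D) + F` -/

/-- The adele equal to `t` at `v` and to `0` elsewhere. -/
def singleRep (v : Place K F) (t : F) : ↥(repartitions K F) :=
  ⟨by classical exact Pi.single v t, by
    classical
    apply mem_repartitions_of_finite
    apply (Set.finite_singleton v).subset
    intro w hw
    rw [Set.mem_ofPred_eq] at hw
    rw [Set.mem_singleton_iff]
    by_contra hne
    apply hw
    rw [Pi.single_eq_of_ne hne]
    simp⟩

omit [IsAlgClosed K] in
@[simp]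
theorem singleRep_self (v : Place K F) (t : F) : (singleRep v t : Place K F → F) v = t := by
  classical
  show (Pi.single v t : Place K F → F) v = t
  rw [Pi.single_eq_same]

omit [IsAlgClosed K] in
theorem singleRep_ne {v w : Place K F} (h : w ≠ v) (t : F) :
    (singleRep v t : Place K F → F) w = 0 := by
  classical
  show (Pi.single v t : Place K F → F) w = 0
  rw [Pi.single_eq_of_ne h]

omit [IsAlgClosed K] in
theorem exists_mem_repartitionsOf_add_single (D : Divisor K F) (v : Place K F) :
    ∃ β : ↥(repartitions K F), β ∈ repartitionsOf (D + Finsupp.single v 1) ∧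
      β ∉ repartitionsOf D := by
  obtain ⟨t, ht0, ht⟩ := exists_ord_eq v (-(D v) - 1)
  refine ⟨singleRep v t, ?_, ?_⟩
  · intro w
    by_cases h : w = v
    · subst h
      rw [singleRep_self, add_single_apply_self, w.adicValuation_le_exp_iff]
      right
      omega
    · rw [singleRep_ne h]
      simp
  · intro h
    have := h v
    rw [singleRep_self, v.adicValuation_le_exp_iff] at this
    rcases this with h | h
    · exact ht0 h
    · omega

omit [IsAlgClosed K] in
theorem sup_mono (D D' : Divisor K F) (h : D ≤ D') :
    repartitionsOf D ⊔ principalRepartitions K F ≤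
      repartitionsOf D' ⊔ principalRepartitions K F :=
  sup_le_sup_right (repartitionsOf_mono h) _

/-- If `L(D+v) ≠ L(D)` then `Λ(D + v) + F = Λ(D) + F`. -/
theorem sup_eq_of_riemannRochSpace_ne [HasPrincipalDivisors K F] (D : Divisor K F)
    (v : Place K F) [Module.Finite K v.ResidueField] {g : F}
    (hg : g ∈ riemannRochSpace (D + Finsupp.single v 1)) (hg' : g ∉ riemannRochSpace D) :
    repartitionsOf (D + Finsupp.single v 1) ⊔ principalRepartitions K F =
      repartitionsOf D ⊔ principalRepartitions K F := by
  let β : ↥(repartitions K F) := algebraMap F _ g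
  have hβ : β ∈ repartitionsOf (D + Finsupp.single v 1) := fun w => hg w
  have hβ' : β ∉ repartitionsOf D := fun h => hg' fun w => h w
  rw [repartitionsOf_add_single D v hβ hβ', sup_assoc, sup_eq_right.mpr (?_ :
    Submodule.span K {β} ≤ principalRepartitions K F)]
  rw [Submodule.span_singleton_le_iff_mem, mem_principalRepartitions_iff]
  exact ⟨g, rfl⟩

/-- If `L(D+v) = L(D)` then `Λ(D + v) + F` is obtained from `Λ(D) + F` by adding one vector
outside. -/
theorem sup_eq_sup_span_of_riemannRochSpace_eq (D : Divisor K F)
    (v : Place K F) [Module.Finite K v.ResidueField]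
    (h : riemannRochSpace (D + Finsupp.single v 1) ≤ riemannRochSpace D) :
    ∃ β : ↥(repartitions K F), β ∉ repartitionsOf D ⊔ principalRepartitions K F ∧
      repartitionsOf (D + Finsupp.single v 1) ⊔ principalRepartitions K F =
        (repartitionsOf D ⊔ principalRepartitions K F) ⊔ Submodule.span K {β} := by
  obtain ⟨β, hβ, hβ'⟩ := exists_mem_repartitionsOf_add_single D v
  refine ⟨β, ?_, ?_⟩
  · intro hmem
    rw [Submodule.mem_sup] at hmem
    obtain ⟨l, hl, p, hp, rfl⟩ := hmem
    rw [mem_principalRepartitions_iff] at hp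
    obtain ⟨f, hf⟩ := hp
    have hl' := repartitionsOf_mono (le_add_single D v) hl
    have hp' : p ∈ repartitionsOf (D + Finsupp.single v 1) := by
      have := Submodule.sub_mem _ hβ hl'
      rwa [add_sub_cancel_left] at this
    have hfL : f ∈ riemannRochSpace (D + Finsupp.single v 1) := by
      intro w
      have := hp' w
      rwa [hf] at this
    have hfL' := h hfL
    apply hβ'
    apply Submodule.add_mem _ hl
    intro w
    rw [hf]
    exact hfL' w
  · rw [repartitionsOf_add_single D v hβ hβ', sup_right_comm]

/-- `H1(D)` is finite-dimensional iff `H1(D+v)` is. -/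
theorem finite_H1_add_single_iff [HasPrincipalDivisors K F] (D : Divisor K F) (v : Place K F)
    [Module.Finite K v.ResidueField] :
    Module.Finite K (H1 (D + Finsupp.single v 1)) ↔ Module.Finite K (H1 D) := by
  by_cases hh : riemannRochSpace (D + Finsupp.single v 1) ≤ riemannRochSpace D
  · obtain ⟨β, -, hβ⟩ := sup_eq_sup_span_of_riemannRochSpace_eq D v hh
    unfold H1
    rw [hβ]
    constructor
    · intro h
      exact finite_quotient_of_sup_span_singleton _ (g := β)
    · intro h
      have hle : repartitionsOf D ⊔ principalRepartitions K F ≤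
        (repartitionsOf D ⊔ principalRepartitions K F) ⊔ Submodule.span K {β} := le_sup_left
      exact Module.Finite.of_surjective (Submodule.factor hle) (Submodule.factor_surjective hle)
  · rw [SetLike.not_le_iff_exists] at hh
    obtain ⟨g, hg, hg'⟩ := hh
    unfold H1
    rw [sup_eq_of_riemannRochSpace_ne D v hg hg']

/-- The Euler characteristic goes up by one when one adds a place. -/
theorem chi_add_single [HasPrincipalDivisors K F] (D : Divisor K F) (v : Place K F)
    [Module.Finite K v.ResidueField] [Module.Finite K (riemannRochSpace D)]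
    [Module.Finite K (H1 D)] :
    (Module.finrank K (riemannRochSpace (D + Finsupp.single v 1)) : ℤ) -
      Module.finrank K (H1 (D + Finsupp.single v 1)) =
    (Module.finrank K (riemannRochSpace D) : ℤ) - Module.finrank K (H1 D) + 1 := by
  by_cases hh : riemannRochSpace (D + Finsupp.single v 1) ≤ riemannRochSpace D
  · obtain ⟨β, hβ', hβ⟩ := sup_eq_sup_span_of_riemannRochSpace_eq D v hh
    have h1 := le_antisymm hh (riemannRochSpace_mono (le_add_single D v))
    have h2 := finrank_quotient_sup_span_singleton (K := K) _ hβ'
    rw [← hβ] at h2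
    rw [h1]
    unfold H1
    rw [h2]
    push_cast
    ring
  · rw [SetLike.not_le_iff_exists] at hh
    obtain ⟨g, hg, hg'⟩ := hh
    have h1 := finrank_sup_span_singleton _ hg'
    rw [← riemannRochSpace_add_single D v hg hg'] at h1
    rw [h1]
    unfold H1
    rw [sup_eq_of_riemannRochSpace_ne D v hg hg']
    push_cast
    ring

end Fermat.Agent.RR
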